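import Fermat.Agent.Kummer.Orders
import Fermat.Agent.Cosets.ParEllHoms
import Fermat.Agent.Periods.Parabolic
import Mathlib.Analysis.SpecialFunctions.Complex.CircleAddChar

/-!
# Multipliers of roots of modular functions
-/

set_option autoImplicit false

noncomputable section

open Complex
open UpperHalfPlane hiding I
open CongruenceSubgroup AlgebraicCurve ModularCurve
open scoped MatrixGroups

namespace Fermat.Agent.Kummer

open MeroH
open Fermat.Agent.MFGenus (FL)
open Fermat.Agent.Cosets (parEllHoms mem_parEllHoms_iff)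

/-- Elements with the same action on `ℍ` act in the same way on `MeroH`. -/
theorem slComp_eq_of_smul_eq {γ δ : SL(2, ℤ)} (h : ∀ z : ℍ, γ • z = δ • z) (x : MeroH) :
    slComp γ x = slComp δ x := by
  obtain ⟨f, hf, rfl⟩ := exists_rep x
  rw [slComp_mk, slComp_mk]
  exact mk_congr _ _ fun z _ => congrArg f (congrArg ((↑) : ℍ → ℂ) (h (ofComplex z)))

variable {n : ℕ} [NeZero n] {N : ℕ}

/-- The `n`-th root of unity attached to `a : ℤ/n`. -/
abbrev zeta (a : ZMod n) : ℂ := ZMod.stdAddChar a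

theorem zeta_add (a b : ZMod n) : zeta (a + b) = zeta a * zeta b :=
  AddChar.map_add_eq_mul _ a b

theorem zeta_zero : zeta (0 : ZMod n) = 1 := AddChar.map_zero_eq_one _

theorem zeta_pow_self (a : ZMod n) : zeta a ^ n = 1 := by
  rw [zeta, ← AddChar.map_nsmul_eq_pow]
  simp

theorem zeta_ne_zero (a : ZMod n) : zeta a ≠ 0 := fun h => by
  simpa [h, NeZero.ne n] using zeta_pow_self a

theorem zeta_injective : Function.Injective (zeta (n := n)) := ZMod.injective_stdAddChar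

theorem exists_zeta_eq {z : ℂ} (hz : z ^ n = 1) : ∃ a : ZMod n, zeta a = z := by
  obtain ⟨i, -, hi⟩ := (Complex.isPrimitiveRoot_exp n (NeZero.ne n)).eq_pow_of_pow_eq_one hz
  refine ⟨((i : ℤ) : ZMod n), ?_⟩
  rw [zeta, ZMod.stdAddChar_coe, ← hi, ← Complex.exp_nat_mul]
  congr 1
  push_cast
  ring

/-- `φ` is the multiplier of `G`. -/
def HasMult (G : MeroH) (φ : Additive (Gamma0 N) →+ ZMod n) : Prop :=
  ∀ γ : Gamma0 N, slComp (γ : SL(2, ℤ)) G = MeroH.const (zeta (φ (Additive.ofMul γ))) * G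

theorem HasMult.unique {G : MeroH} (hG : G ≠ 0) {φ ψ : Additive (Gamma0 N) →+ ZMod n}
    (hφ : HasMult G φ) (hψ : HasMult G ψ) : φ = ψ := by
  refine AddMonoidHom.ext fun γ => ?_
  have h := (hφ γ.toMul).symm.trans (hψ γ.toMul)
  exact zeta_injective (const_injective (mul_right_cancel₀ hG h))

theorem HasMult.mul {G H : MeroH} {φ ψ : Additive (Gamma0 N) →+ ZMod n}
    (hφ : HasMult G φ) (hψ : HasMult H ψ) : HasMult (G * H) (φ + ψ) := fun γ => by
  rw [map_mul, hφ γ, hψ γ, AddMonoidHom.add_apply, zeta_add, map_mul]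
  ring

theorem hasMult_of_invariant {G : MeroH} (hG : ∀ γ ∈ Gamma0 N, slComp γ G = G) :
    HasMult (n := n) (N := N) G 0 := fun γ => by
  rw [hG _ γ.2, AddMonoidHom.zero_apply, zeta_zero, map_one, one_mul]

theorem HasMult.invariant {G : MeroH} (hG : HasMult (n := n) (N := N) G 0) :
    ∀ γ ∈ Gamma0 N, slComp γ G = G := fun γ hγ => by
  rw [hG ⟨γ, hγ⟩, AddMonoidHom.zero_apply, zeta_zero, map_one, one_mul]

/-- A root of an invariant function has a multiplier. -/
theorem exists_hasMult {G : MeroH} (hG0 : G ≠ 0)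
    (hG : ∀ γ ∈ Gamma0 N, slComp γ (G ^ n) = G ^ n) :
    ∃ φ : Additive (Gamma0 N) →+ ZMod n, HasMult G φ := by
  have h : ∀ γ : Gamma0 N, ∃ a : ZMod n,
      slComp (γ : SL(2, ℤ)) G = MeroH.const (zeta a) * G := fun γ => by
    obtain ⟨ζ, hζ, h⟩ := exists_const_mul_of_pow_eq_pow (NeZero.pos n)
      (x := slComp (γ : SL(2, ℤ)) G) (y := G) (by rw [← map_pow]; exact hG _ γ.2)
    obtain ⟨a, rfl⟩ := exists_zeta_eq hζ
    exact ⟨a, h⟩
  choose a ha using h
  refine ⟨AddMonoidHom.mk' (fun γ => a γ.toMul) fun γ δ => ?_, fun γ => ha γ⟩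
  apply zeta_injective
  apply const_injective
  apply mul_right_cancel₀ hG0
  rw [← ha, zeta_add, map_mul, mul_assoc]
  change slComp ((γ.toMul : SL(2, ℤ)) * (δ.toMul : SL(2, ℤ))) G = _
  rw [← slComp_slComp, ha γ.toMul, map_mul, slComp_const, ha δ.toMul]

variable {L : Type*} [Field L] [Algebra ℚ L] (ι : L →+* ℂ) [NeZero N]

section Divided

variable {f : FL L N} (hf : f ≠ 0) {D : Divisor L (FL L N)}
  (hD : ∀ v, (n : ℤ) * D v = v.ord f)

include hf hD

/-- A modular function whose divisor is a multiple of `n` has an `n`-th root on `ℍ`. -/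
theorem exists_root : ∃ G : MeroH, G ^ n = embed ι N f := by
  have := isFunctionField_FL (N := N) ι
  refine exists_pow_eq ((map_ne_zero _).2 hf) (NeZero.ne n) fun z hz => ?_
  obtain ⟨m, hm, -⟩ := exists_eq_mul_of_ord (isOrd_ordPoint ι ⟨z, hz⟩)
    (ordPoint_algebraMap ι _) hf hD
  exact ⟨m, by rw [← hm, coe_ordPoint ι _ hf]⟩

variable {G : MeroH} (hG : G ^ n = embed ι N f)

include hG

omit [NeZero N] hD in
theorem root_ne_zero : G ≠ 0 := by
  rintro rfl
  rw [zero_pow (NeZero.ne n)] at hG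
  exact (map_ne_zero (embed ι N)).2 hf hG.symm

omit hD [NeZero N] in
theorem exists_hasMult_root : ∃ φ : Additive (Gamma0 N) →+ ZMod n, HasMult G φ := by
  refine exists_hasMult (fun h => ?_) fun γ hγ => by rw [hG, slComp_embed ι f hγ]
  rw [h, zero_pow (NeZero.ne n)] at hG
  exact (map_ne_zero (embed ι N)).2 hf hG.symm

/-- The expansion of a root at a cusp. -/
theorem exists_isExp_root (δ : SL(2, ℤ)) :
    ∃ t : LaurentSeries ℂ, IsExp N (slComp δ G) t ∧ t ≠ 0 ∧
      ∀ ω : ℂ, (∀ g : FL L N, g ≠ 0 → ω ^ ordCusp ι δ g = 1) → ω ^ t.order = 1 := by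
  have := isFunctionField_FL (N := N) ι
  obtain ⟨m, hm, hω⟩ :=
    exists_eq_mul_of_ord (isOrd_ordCusp ι δ) (ordCusp_algebraMap ι δ) hf hD
  obtain ⟨t, ht, htn⟩ := (isExp_cuspSeries ι δ f).exists_root (Nat.cast_pos.2 (NeZero.pos N))
    (y := slComp δ G) (NeZero.ne n) (by rw [← map_pow, hG]) ⟨m, hm⟩
  have ht0 : t ≠ 0 := by
    rintro rfl
    rw [zero_pow (NeZero.ne n)] at htn
    exact cuspSeries_ne_zero ι δ hf htn.symm
  refine ⟨t, ht, ht0, fun ω h => ?_⟩
  have hord : (n : ℤ) * t.order = n * m := by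
    rw [← hm, ordCusp, ← htn, HahnSeries.order_pow, nsmul_eq_mul]
  rw [mul_left_cancel₀ (Nat.cast_ne_zero.2 (NeZero.ne n)) hord]
  exact hω ω h

theorem meroAtCusps_root : MeroAtCusps N G := fun δ => by
  obtain ⟨t, ht, -, -⟩ := exists_isExp_root ι hf hD hG δ
  exact ⟨t, ht⟩

/-- The multiplier kills every element of squared trace at most `4`. -/
theorem hasMult_mem_parEllHoms {φ : Additive (Gamma0 N) →+ ZMod n} (hφ : HasMult G φ) :
    φ ∈ parEllHoms (ZMod n) (Gamma0 N) (ZMod n) := by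
  have := isFunctionField_FL (N := N) ι
  have hG0 := root_ne_zero ι hf hG
  rw [mem_parEllHoms_iff]
  intro γ hγ
  apply zeta_injective
  rw [zeta_zero]
  rcases lt_or_eq_of_le hγ with hlt | heq
  · obtain ⟨τ, hτ⟩ := exists_fixed_point _ hlt
    obtain ⟨m, hm, hω⟩ := exists_eq_mul_of_ord (isOrd_ordPoint ι τ)
      (ordPoint_algebraMap ι τ) hf hD
    obtain ⟨k, hk⟩ := WithTop.ne_top_iff_exists.1 (ordAt_ne_top hG0 (coe_mem_uhp τ))
    have hkm : k = m := by
      have h := ordAt_pow G n (coe_mem_uhp τ)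
      rw [hG, ← hk, ← coe_ordPoint ι τ hf, hm] at h
      exact mul_left_cancel₀ (Nat.cast_ne_zero.2 (NeZero.ne n)) (WithTop.coe_injective h).symm
    rw [eq_rot_zpow_ordAt hτ (hφ γ) hk.symm, hkm]
    refine hω _ fun g hg => (eq_rot_zpow_ordAt hτ (c := 1) ?_ (coe_ordPoint ι τ hg).symm).symm
    rw [slComp_embed ι g γ.2, map_one, one_mul]
  · obtain ⟨δ, hδ⟩ := Periods.exists_conj_lower_eq_zero _ heq
    obtain ⟨k, hk⟩ := ModularGroup.exists_eq_T_zpow_of_c_eq_zero hδ
    have key : ∀ (x : MeroH) (c : ℂ), slComp (γ : SL(2, ℤ)) x = MeroH.const c * x →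
        slComp (ModularGroup.T ^ k) (slComp δ x) = MeroH.const c * slComp δ x := by
      intro x c hx
      rw [← slComp_eq_of_smul_eq hk, slComp_slComp,
        show δ * (δ⁻¹ * (γ : SL(2, ℤ)) * δ) = (γ : SL(2, ℤ)) * δ by group, ← slComp_slComp, hx,
        map_mul, slComp_const]
    obtain ⟨t, ht, ht0, hω⟩ := exists_isExp_root ι hf hD hG δ
    have hN : (0 : ℝ) < N := Nat.cast_pos.2 (NeZero.pos N)
    rw [ht.eq_qParam_zpow_order hN ht0 (key G _ (hφ γ))]
    refine hω _ fun g hg => ((isExp_cuspSeries ι δ g).eq_qParam_zpow_order hN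
      (cuspSeries_ne_zero ι δ hg) (c := 1) (key _ 1 ?_)).symm
    rw [slComp_embed ι g γ.2, map_one, one_mul]

end Divided

end Fermat.Agent.Kummer
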