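import Fermat.Agent.Kummer.Descent
import Fermat.Agent.Kummer.Multiplier
import Mathlib.RingTheory.Henselian
import Mathlib.RingTheory.AdicCompletion.Completeness

/-!
# From torsion classes to homomorphisms

A class `[D]` with `n • D = div f` gives the multiplier of an `n`-th root of `f`; the resulting
map is additive and injective.
-/

set_option autoImplicit false

noncomputable section

open CongruenceSubgroup AlgebraicCurve ModularCurve
open scoped MatrixGroups

namespace Fermat.Agent.Kummer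

open MeroH
open Fermat.Agent.MFGenus (FL)
open Fermat.Agent.Cosets (parEllHoms mem_parEllHoms_iff)

/-! ### Roots of Laurent series -/

section Roots

variable {L : Type*} [Field L] [IsAlgClosed L] [CharZero L]

theorem exists_powerSeries_root (u : PowerSeries L) (hu : PowerSeries.constantCoeff u ≠ 0)
    {n : ℕ} (hn : n ≠ 0) : ∃ w : PowerSeries L, w ^ n = u := by
  obtain ⟨c, hc⟩ := IsAlgClosed.exists_pow_nat_eq (PowerSeries.constantCoeff u)
    (Nat.pos_of_ne_zero hn)
  have hc0 : c ≠ 0 := by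
    rintro rfl
    rw [zero_pow hn] at hc
    exact hu hc.symm
  set I : Ideal (PowerSeries L) := Ideal.span {PowerSeries.X}
  have hev : (Polynomial.X ^ n - Polynomial.C u).eval (PowerSeries.C c) ∈ I := by
    rw [Ideal.mem_span_singleton, PowerSeries.X_dvd_iff]
    simp [hc]
  have hder : IsUnit (Ideal.Quotient.mk I
      ((Polynomial.X ^ n - Polynomial.C u).derivative.eval (PowerSeries.C c))) := by
    refine IsUnit.map _ (PowerSeries.isUnit_iff_constantCoeff.2 ?_)
    simp [Polynomial.derivative_X_pow, hn, hc0]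
  obtain ⟨w, hw, -⟩ := HenselianRing.is_henselian (I := I) _
    (Polynomial.monic_X_pow_sub_C u hn) (PowerSeries.C c) hev hder
  exact ⟨w, sub_eq_zero.1 (by simpa using hw)⟩

theorem exists_laurent_root (s : LaurentSeries L) {n : ℕ} (hn : n ≠ 0)
    (hdvd : (n : ℤ) ∣ s.order) : ∃ r : LaurentSeries L, r ^ n = s := by
  rcases eq_or_ne s 0 with rfl | hs
  · exact ⟨0, zero_pow hn⟩
  obtain ⟨m, hm⟩ := hdvd
  have hu : PowerSeries.constantCoeff (LaurentSeries.powerSeriesPart s) ≠ 0 := by
    rw [← PowerSeries.coeff_zero_eq_constantCoeff_apply, LaurentSeries.powerSeriesPart_coeff]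
    simpa using HahnSeries.coeff_order_eq_zero.not.2 hs
  obtain ⟨w, hw⟩ := exists_powerSeries_root _ hu hn
  refine ⟨HahnSeries.single m 1 * HahnSeries.ofPowerSeries ℤ L w, ?_⟩
  conv_rhs => rw [← LaurentSeries.single_order_mul_powerSeriesPart s, hm, ← hw]
  rw [mul_pow, map_pow, HahnSeries.single_pow, one_pow, nsmul_eq_mul]

/-- A complex series whose `n`-th power has coefficients in the image of `L`, and order divisible
by `n`, has coefficients in the image of `L`. -/
theorem exists_eq_coeff_of_pow (ι : L →+* ℂ) {n : ℕ} (hn : n ≠ 0) (s : LaurentSeries L)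
    (hdvd : (n : ℤ) ∣ s.order) {t : LaurentSeries ℂ} (ht : t ^ n = coeffMap ι s) (k : ℤ) :
    ∃ a : L, ι a = t.coeff k := by
  obtain ⟨r, hr⟩ := exists_laurent_root s hn hdvd
  have ht' : t ^ n = coeffMap ι r ^ n := by rw [ht, ← map_pow, hr]
  rcases eq_or_ne (coeffMap ι r) 0 with h0 | h0
  · rw [h0, zero_pow hn] at ht'
    exact ⟨0, by simp [eq_zero_of_pow_eq_zero ht']⟩
  have : NeZero n := ⟨hn⟩
  have : HasEnoughRootsOfUnity L n := inferInstance
  obtain ⟨z, hz⟩ := HasEnoughRootsOfUnity.exists_primitiveRoot L n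
  have hz' : IsPrimitiveRoot (coeffMap ι (HahnSeries.C z)) n :=
    (hz.map_of_injective (f := (HahnSeries.C : L →+* LaurentSeries L))
      HahnSeries.C_injective).map_of_injective (coeffMap ι).injective
  obtain ⟨i, -, hi⟩ := hz'.eq_pow_of_pow_eq_one (ξ := t / coeffMap ι r)
    (by rw [div_pow, ht', div_self (pow_ne_zero n h0)])
  refine ⟨(HahnSeries.C (z ^ i) * r).coeff k, ?_⟩
  rw [← coeffMap_coeff, map_mul, map_pow, map_pow, hi, div_mul_cancel₀ _ h0]

end Roots

/-! ### The map -/

variable {L : Type*} [Field L] [Algebra ℚ L] [IsAlgClosed L] (ι : L →+* ℂ) {N : ℕ} [NeZero N]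
variable {n : ℕ} [NeZero n]

/-- `φ` is a Kummer multiplier of the divisor class `x`. -/
def IsKummer (x : Pic0 L (FL L N)) (φ : Additive (Gamma0 N) →+ ZMod n) : Prop :=
  ∃ (D : Divisor.degZero (K := L) (F := FL L N)) (f : FL L N) (G : MeroH),
    Pic0.mk D = x ∧ f ≠ 0 ∧ (∀ v, (n : ℤ) * (D : Divisor L (FL L N)) v = v.ord f) ∧
      G ^ n = embed ι N f ∧ HasMult G φ

omit [IsAlgClosed L] in
theorem exists_isKummer {x : Pic0 L (FL L N)} (hx : x ∈ Pic0.torsion L (FL L N) n) :
    ∃ φ : Additive (Gamma0 N) →+ ZMod n, IsKummer ι x φ := by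
  obtain ⟨D, rfl⟩ := Pic0.mk_surjective x
  rw [Pic0.mem_torsion] at hx
  change (((n : ℤ) • D : Divisor.degZero (K := L) (F := FL L N)) : Pic0 L (FL L N)) = 0 at hx
  rw [QuotientAddGroup.eq_zero_iff, AddSubgroup.mem_addSubgroupOf] at hx
  obtain ⟨f, hf, hfD⟩ := hx
  have hD : ∀ v, (n : ℤ) * (D : Divisor L (FL L N)) v = v.ord f := fun v => by
    simpa using hfD v
  obtain ⟨G, hG⟩ := exists_root ι hf hD
  obtain ⟨φ, hφ⟩ := exists_hasMult_root ι hf hG
  exact ⟨φ, D, f, G, rfl, hf, hD, hG, hφ⟩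

omit [IsAlgClosed L] in
theorem IsKummer.mem {x : Pic0 L (FL L N)} {φ : Additive (Gamma0 N) →+ ZMod n}
    (h : IsKummer ι x φ) : φ ∈ parEllHoms (ZMod n) (Gamma0 N) (ZMod n) := by
  obtain ⟨D, f, G, -, hf, hD, hG, hφ⟩ := h
  exact hasMult_mem_parEllHoms ι hf hD hG hφ

/-- An element without zeros and poles is a constant. -/
theorem exists_algebraMap_eq {K F : Type*} [Field K] [IsAlgClosed K] [Field F] [Algebra K F]
    [FF.IsFunctionField K F] {u : F} (h : ∀ v : Place K F, v.ord u = 0) :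
    ∃ a : K, algebraMap K F a = u := by
  have halg := FF.forall_ord_eq_zero_iff.1 h
  obtain ⟨a, ha⟩ := minpoly.mem_range_of_degree_eq_one K u
    (IsAlgClosed.degree_eq_one_of_irreducible K (minpoly.irreducible halg.isIntegral))
  exact ⟨a, ha⟩

theorem IsKummer.unique {x : Pic0 L (FL L N)} {φ ψ : Additive (Gamma0 N) →+ ZMod n}
    (hφ : IsKummer ι x φ) (hψ : IsKummer ι x ψ) : φ = ψ := by
  have := isFunctionField_FL (N := N) ι
  obtain ⟨D, f, G, rfl, hf, hD, hG, hGφ⟩ := hφ
  obtain ⟨D', f', G', hx, hf', hD', hG', hGψ⟩ := hψ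
  change (D' : Pic0 L (FL L N)) = (D : Pic0 L (FL L N)) at hx
  rw [← sub_eq_zero, ← QuotientAddGroup.mk_sub, QuotientAddGroup.eq_zero_iff,
    AddSubgroup.mem_addSubgroupOf] at hx
  obtain ⟨h, hh, hhD⟩ := hx
  have hden : f * h ^ n ≠ 0 := mul_ne_zero hf (pow_ne_zero n hh)
  obtain ⟨a, ha⟩ := exists_algebraMap_eq (K := L) (u := f' / (f * h ^ n)) fun v => by
    have h1 := hhD v
    rw [AddSubgroupClass.coe_sub, Finsupp.sub_apply] at h1
    rw [FF.ord_div v hf' hden, v.ord_mul hf (pow_ne_zero n hh), FF.ord_pow, ← hD, ← hD', ← h1]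
    ring
  obtain ⟨c, hc⟩ := IsAlgClosed.exists_pow_nat_eq (ι a) (NeZero.pos n)
  have hf'eq : f' = algebraMap L (FL L N) a * (f * h ^ n) := by
    rw [ha, div_mul_cancel₀ _ hden]
  obtain ⟨ζ, hζ, hG''⟩ := exists_const_mul_of_pow_eq_pow (NeZero.pos n) (x := G')
    (y := MeroH.const c * (G * embed ι N h)) (by
      rw [mul_pow, mul_pow, ← map_pow, hc, hG, hG', hf'eq, map_mul, map_mul, map_pow,
        embed_algebraMap])
  have h0 : HasMult (n := n) (N := N) (MeroH.const ζ * MeroH.const c) 0 :=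
    hasMult_of_invariant fun γ _ => by rw [← map_mul, slComp_const]
  have h1 : HasMult (n := n) (N := N) (embed ι N h) 0 :=
    hasMult_of_invariant fun γ hγ => slComp_embed ι h hγ
  have h2 : HasMult (n := n) (N := N) G' φ := by
    have := h0.mul (hGφ.mul h1)
    rw [add_zero, zero_add] at this
    rwa [hG'', ← mul_assoc]
  exact h2.unique (root_ne_zero ι hf' hG') hGψ

omit [IsAlgClosed L] [NeZero N] in
theorem IsKummer.add {x y : Pic0 L (FL L N)} {φ ψ : Additive (Gamma0 N) →+ ZMod n}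
    (hφ : IsKummer ι x φ) (hψ : IsKummer ι y ψ) : IsKummer ι (x + y) (φ + ψ) := by
  obtain ⟨D, f, G, rfl, hf, hD, hG, hGφ⟩ := hφ
  obtain ⟨D', f', G', rfl, hf', hD', hG', hGψ⟩ := hψ
  refine ⟨D + D', f * f', G * G', Pic0.mk_add D D', mul_ne_zero hf hf', fun v => ?_,
    by rw [mul_pow, hG, hG', map_mul], hGφ.mul hGψ⟩
  rw [AddSubgroup.coe_add, Finsupp.add_apply, mul_add, hD, hD', v.ord_mul hf hf']

theorem IsKummer.eq_zero {x : Pic0 L (FL L N)}
    (h : IsKummer ι x (0 : Additive (Gamma0 N) →+ ZMod n)) : x = 0 := by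
  have := isFunctionField_FL (N := N) ι
  have := charZero_of_injective_algebraMap (algebraMap ℚ L).injective
  obtain ⟨D, f, G, rfl, hf, hD, hG, hGφ⟩ := h
  obtain ⟨m, hm, -⟩ := exists_eq_mul_of_ord
    (o := fun g : FL L N => ((g : LaurentSeries L)).order)
    ⟨fun a b ha hb => by
      change ((a : LaurentSeries L) * (b : LaurentSeries L)).order = _
      exact HahnSeries.order_mul (fun h0 => ha (Subtype.ext h0)) (fun h0 => hb (Subtype.ext h0)),
    fun a b _ _ hab => HahnSeries.min_order_le_order_add fun h0 => hab (Subtype.ext h0)⟩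
    (fun a => by
      change (algebraMap L (LaurentSeries L) a).order = 0
      rw [algebraMap_laurentSeries_eq_single]
      rcases eq_or_ne a 0 with rfl | ha
      · simp
      · exact HahnSeries.order_single ha) hf hD
  have hdvd : (n : ℤ) ∣ (f : LaurentSeries L).order := ⟨m, hm⟩
  have hord : (coeffMap ι (f : LaurentSeries L)).order = (f : LaurentSeries L).order := by
    have h0 : (f : LaurentSeries L) ≠ 0 := fun h0 => hf (Subtype.ext h0)
    refine le_antisymm (HahnSeries.order_le_of_coeff_ne_zero ?_)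
      (HahnSeries.order_le_of_coeff_ne_zero ?_)
    · rw [coeffMap_coeff]
      exact (map_ne_zero ι).2 (HahnSeries.coeff_order_eq_zero.not.2 h0)
    · intro h1
      refine HahnSeries.coeff_order_eq_zero.not.2 ((map_ne_zero (coeffMap ι)).2 h0) ?_
      rw [coeffMap_coeff, h1, map_zero]
  obtain ⟨t, ht, htn⟩ := (isExp_embed ι f).exists_root one_pos (NeZero.ne n) hG (hord ▸ hdvd)
  obtain ⟨z, hz⟩ := exists_embed_eq_of_coeff ι hGφ.invariant (meroAtCusps_root ι hf hD hG) ht
    (exists_eq_coeff_of_pow ι (NeZero.ne n) _ hdvd htn)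
  have hzf : z ^ n = f := embed_injective ι N (by rw [map_pow, hz, hG])
  change (D : Pic0 L (FL L N)) = 0
  rw [QuotientAddGroup.eq_zero_iff, AddSubgroup.mem_addSubgroupOf]
  refine ⟨z, fun h0 => hf (by rw [← hzf, h0, zero_pow (NeZero.ne n)]), fun v => ?_⟩
  have h1 := hD v
  rw [← hzf, FF.ord_pow] at h1
  exact mul_left_cancel₀ (Nat.cast_ne_zero.2 (NeZero.ne n)) h1

variable (N n)

/-- The multiplier map on torsion classes. -/
def multHom : Pic0.torsion L (FL L N) n →+ parEllHoms (ZMod n) (Gamma0 N) (ZMod n) :=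
  AddMonoidHom.mk' (fun x => ⟨(exists_isKummer ι x.2).choose,
      (exists_isKummer ι x.2).choose_spec.mem⟩) fun x y => Subtype.ext <|
    ((exists_isKummer ι (x + y).2).choose_spec).unique ι
      ((exists_isKummer ι x.2).choose_spec.add ι (exists_isKummer ι y.2).choose_spec)

variable {N n}

theorem isKummer_multHom (x : Pic0.torsion L (FL L N) n) :
    IsKummer ι (x : Pic0 L (FL L N)) (multHom ι N n x : Additive (Gamma0 N) →+ ZMod n) :=
  (exists_isKummer ι x.2).choose_spec

theorem multHom_eq {x : Pic0.torsion L (FL L N) n} {φ : Additive (Gamma0 N) →+ ZMod n}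
    (h : IsKummer ι (x : Pic0 L (FL L N)) φ) :
    (multHom ι N n x : Additive (Gamma0 N) →+ ZMod n) = φ :=
  (isKummer_multHom ι x).unique ι h

/-- **The multiplier map is injective.** -/
theorem multHom_injective : Function.Injective (multHom ι N n) := by
  rw [injective_iff_map_eq_zero]
  intro x hx
  have h := isKummer_multHom ι x
  rw [hx] at h
  exact Subtype.ext (h.eq_zero ι)

end Fermat.Agent.Kummer
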