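import Fermat.Agent.Kummer.TorsionMap
import Fermat.Agent.Cosets.ParabolicRank
import Fermat.Prelude.Def_ModularCurve_HeckeModule
import Fermat.Prelude.Def_GaloisRep_Residual

/-!
# Galois action on torsion: finite level, and commutation with Hecke correspondences
-/

set_option autoImplicit false

noncomputable section

open AlgebraicCurve ModularCurve CongruenceSubgroup
open scoped Pointwise

namespace Fermat.Agent.Kummer

open Fermat.Agent.MFGenus (FL)
open Fermat.Agent.Cosets (parEllHoms)

/-! ### Correspondences commute with intertwined semilinear automorphisms -/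

section Intertwine

variable {K F F' : Type*} [Field K] [Field F] [Field F'] [Algebra K F] [Algebra K F']
  [IsAlgClosed K] [FF.IsFunctionField K F] [FF.IsFunctionField K F']
  (φ : F →ₐ[K] F') (hφ : φ.toRingHom.IsIntegral)
  {g : SemilinearAut K F} {g' : SemilinearAut K F'}

omit [IsAlgClosed K] [FF.IsFunctionField K F] [FF.IsFunctionField K F'] in
theorem mem_restrictAlong (w : Place K F') (x : F) :
    x ∈ (w.restrictAlong φ hφ).toValuationSubring ↔ φ x ∈ w.toValuationSubring := Iff.rfl

omit [IsAlgClosed K] [FF.IsFunctionField K F] [FF.IsFunctionField K F'] in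
theorem restrictAlong_smul (h : ∀ x, g' • φ x = φ (g • x)) (w : Place K F') :
    (g' • w).restrictAlong φ hφ = g • w.restrictAlong φ hφ := by
  have h' : ∀ x, g'⁻¹ • φ x = φ (g⁻¹ • x) := fun x => by
    rw [inv_smul_eq_iff, h, smul_inv_smul]
  refine Place.ext (SetLike.ext fun x => ?_)
  rw [mem_restrictAlong, SemilinearAut.smul_toValuationSubring,
    SemilinearAut.smul_toValuationSubring, ValuationSubring.mem_pointwise_smul_iff_inv_smul_mem,
    ValuationSubring.mem_pointwise_smul_iff_inv_smul_mem, mem_restrictAlong, h']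

omit [IsAlgClosed K] [FF.IsFunctionField K F] [FF.IsFunctionField K F'] in
theorem ramificationIndexAlong_smul (h : ∀ x, g' • φ x = φ (g • x))
    (hφ : φ.toRingHom.IsIntegral) (w : Place K F') :
    Place.ramificationIndexAlong φ (g' • w) = Place.ramificationIndexAlong φ w := by
  obtain ⟨π, hπ0, hπ⟩ := MFGenus.exists_ord_eq_one (w.restrictAlong φ hφ)
  have h1 := Place.ord_restrictAlong φ hφ (g' • w) (g • π)
  rw [← h, SemilinearAut.ord_smul, restrictAlong_smul φ hφ h, SemilinearAut.ord_smul, hπ,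
    Place.ord_restrictAlong φ hφ w π, hπ, mul_one, mul_one] at h1
  exact_mod_cast h1.symm

omit [IsAlgClosed K] [FF.IsFunctionField K F] [FF.IsFunctionField K F'] in
theorem pullbackAlong_smul [HasPrincipalDivisors K F'] (h : ∀ x, g' • φ x = φ (g • x))
    (D : Divisor K F) :
    Divisor.pullbackAlong φ hφ (g • D) = g' • Divisor.pullbackAlong φ hφ D := by
  refine Finsupp.ext fun w => ?_
  obtain ⟨u, rfl⟩ : ∃ u, g' • u = w := ⟨g'⁻¹ • w, smul_inv_smul g' w⟩
  rw [Divisor.pullbackAlong_apply, SemilinearAut.divisor_smul_apply_smul,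
    Divisor.pullbackAlong_apply, restrictAlong_smul φ hφ h,
    SemilinearAut.divisor_smul_apply_smul, ramificationIndexAlong_smul φ h hφ]

theorem inertiaDegAlong_eq_one (w : Place K F') : w.inertiaDegAlong φ hφ = 1 := by
  let _ := algebraAlong φ
  have := isScalarTower_along φ
  have : Module.Finite F F' := FF.finiteAlong φ
  exact FF.inertiaDeg_eq_one w

theorem pushforwardAlong_smul (h : ∀ x, g' • φ x = φ (g • x)) (D : Divisor K F') :
    Divisor.pushforwardAlong φ hφ (g' • D) = g • Divisor.pushforwardAlong φ hφ D := by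
  induction D using Finsupp.induction with
  | zero => simp
  | single_add w k D _ _ ih =>
    rw [smul_add, map_add, map_add, smul_add, ih, SemilinearAut.smul_single,
      Divisor.pushforwardAlong_single, Divisor.pushforwardAlong_single,
      SemilinearAut.smul_single, restrictAlong_smul φ hφ h, inertiaDegAlong_eq_one,
      inertiaDegAlong_eq_one]

theorem correspondence_smul [HasPrincipalDivisors K F'] (ψ : F →ₐ[K] F')
    (hψ : ψ.toRingHom.IsIntegral) (hFI : FundamentalIdentityAlong K φ hφ)
    (hfin : FiniteAlong K ψ) (hN : NormFormulaAlong K ψ hfin)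
    (h : ∀ x, g' • φ x = φ (g • x)) (h' : ∀ x, g' • ψ x = ψ (g • x)) (x : Pic0 K F) :
    Pic0.correspondence φ ψ hφ hψ hFI hfin hN (g • x) =
      g • Pic0.correspondence φ ψ hφ hψ hFI hfin hN x := by
  obtain ⟨D, rfl⟩ := Pic0.mk_surjective x
  rw [SemilinearAut.pic0_smul_mk, Pic0.correspondence_mk, Pic0.correspondence_mk,
    SemilinearAut.pic0_smul_mk]
  refine congrArg Pic0.mk (Subtype.ext ?_)
  simp only [Pic0.coe_degZeroCorrespondence, SemilinearAut.coe_degZeroSMulHom,
    Divisor.correspondence_apply]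
  rw [pullbackAlong_smul φ hφ h, pushforwardAlong_smul ψ hψ h']

end Intertwine

variable (N : ℕ)

local notation "Γℚbar" => AlgebraicClosure ℚ ≃ₐ[ℚ] AlgebraicClosure ℚ

theorem heckeBetaBar_galois [NeZero N] (ℓ : ℕ) [NeZero ℓ] (σ : Γℚbar)
    (x : modularFunctionFieldBar N) :
    arithmeticGalois (modularFunctionFieldFull (N * ℓ)) σ •
        heckeBetaBar (AlgebraicClosure ℚ) N ℓ x =
      heckeBetaBar (AlgebraicClosure ℚ) N ℓ
        (arithmeticGalois (modularFunctionFieldFull N) σ • x) := by
  apply Subtype.ext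
  rw [coe_arithmeticGalois_smul, coe_heckeBetaBar, coe_heckeBetaBar, coe_arithmeticGalois_smul]
  ext k
  by_cases hk : (ℓ : ℤ) ∣ k
  · obtain ⟨m, rfl⟩ := hk
    rw [coeffMap_coeff, qExpand_coeff_mul, qExpand_coeff_mul, coeffMap_coeff]
  · rw [coeffMap_coeff, qExpand_coeff_of_not_dvd ℓ _ hk, qExpand_coeff_of_not_dvd ℓ _ hk, map_zero]

theorem heckeAlphaBar_galois [NeZero N] (ℓ : ℕ) [NeZero ℓ] (σ : Γℚbar)
    (x : modularFunctionFieldBar N) :
    arithmeticGalois (modularFunctionFieldFull (N * ℓ)) σ •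
        heckeAlphaBar (AlgebraicClosure ℚ) N ℓ x =
      heckeAlphaBar (AlgebraicClosure ℚ) N ℓ
        (arithmeticGalois (modularFunctionFieldFull N) σ • x) := by
  apply Subtype.ext
  rw [coe_arithmeticGalois_smul, coe_heckeAlphaBar, coe_heckeAlphaBar, coe_arithmeticGalois_smul]

/-- The Hecke operators commute with Galois on all of `J₀(N)`. -/
theorem heckeOperatorBar_smul [NeZero N] (q : Nat.Primes) (σ : Γℚbar) (x : JZero N) :
    heckeOperatorBar N q (σ • x) = σ • heckeOperatorBar N q x := by
  have : NeZero (q : ℕ) := ⟨q.2.ne_zero⟩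
  rw [heckeOperatorBar_apply, heckeOperatorBar_apply]
  by_cases h : HeckeInputsAlong (AlgebraicClosure ℚ) N q
  · obtain ⟨hα, hβ, hP, hfin, hFI, hN⟩ := h
    rw [heckeOperatorAlong_eq hα hβ hFI hfin hN]
    exact correspondence_smul _ hβ _ hα hFI hfin hN (heckeBetaBar_galois N q σ)
      (heckeAlphaBar_galois N q σ) x
  · rw [heckeOperatorAlong_of_not h, AddMonoidHom.zero_apply, AddMonoidHom.zero_apply]
    exact (smul_zero σ).symm

/-- An element of the modular function field is fixed by the automorphisms fixing a finite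
extension. -/
theorem exists_fixing_field (z : modularFunctionFieldBar N) :
    ∃ E : IntermediateField ℚ (AlgebraicClosure ℚ), FiniteDimensional ℚ E ∧
      ∀ σ : Γℚbar, (∀ x ∈ E, σ x = x) →
        arithmeticGalois (modularFunctionFieldFull N) σ • z = z := by
  suffices key : ∃ E : IntermediateField ℚ (AlgebraicClosure ℚ), FiniteDimensional ℚ E ∧
      ∀ σ : Γℚbar, (∀ x ∈ E, σ x = x) →
        coeffMap (σ : AlgebraicClosure ℚ →+* AlgebraicClosure ℚ)
          (z : LaurentSeries (AlgebraicClosure ℚ)) = z by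
    obtain ⟨E, hE, h⟩ := key
    exact ⟨E, hE, fun σ hσ => Subtype.ext (h σ hσ)⟩
  obtain ⟨y, hy'⟩ := z
  have hy := mem_laurentBaseChange_iff.1 hy'
  dsimp only
  clear hy'
  induction hy using Subfield.closure_induction with
  | mem y hy =>
    rcases hy with ⟨a, rfl⟩ | ⟨w, hw, rfl⟩
    · refine ⟨IntermediateField.adjoin ℚ {a},
        IntermediateField.adjoin.finiteDimensional
          (isAlgebraic_qbar.isAlgebraic a).isIntegral, fun σ hσ => ?_⟩
      rw [coeffMap_algebraMap]
      exact congrArg _ (hσ a (IntermediateField.mem_adjoin_simple_self ℚ a))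
    · refine ⟨⊥, inferInstance, fun σ _ => ?_⟩
      rw [coeffEmb, coeffMap_coeffMap]
      exact coeffMap_congr (RingHom.ext_rat _ _) _
  | one => exact ⟨⊥, inferInstance, fun σ _ => map_one _⟩
  | add x y _ _ hx hy =>
    obtain ⟨E, hE, h⟩ := hx
    obtain ⟨E', hE', h'⟩ := hy
    exact ⟨E ⊔ E', inferInstance, fun σ hσ => by
      rw [map_add, h σ fun a ha => hσ a (le_sup_left (b := E') ha),
        h' σ fun a ha => hσ a (le_sup_right (a := E) ha)]⟩
  | neg x _ hx =>
    obtain ⟨E, hE, h⟩ := hx
    exact ⟨E, hE, fun σ hσ => by rw [map_neg, h σ hσ]⟩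
  | inv x _ hx =>
    obtain ⟨E, hE, h⟩ := hx
    exact ⟨E, hE, fun σ hσ => by rw [map_inv₀, h σ hσ]⟩
  | mul x y _ _ hx hy =>
    obtain ⟨E, hE, h⟩ := hx
    obtain ⟨E', hE', h'⟩ := hy
    exact ⟨E ⊔ E', inferInstance, fun σ hσ => by
      rw [map_mul, h σ fun a ha => hσ a (le_sup_left (b := E') ha),
        h' σ fun a ha => hσ a (le_sup_right (a := E) ha)]⟩

variable [NeZero N] (n : ℕ) [NeZero n]

/-- `J₀(N)[n]` is finite. -/
theorem finite_torsion :
    Finite (Pic0.torsion (AlgebraicClosure ℚ) (modularFunctionFieldBar N) n) := by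
  have : Finite (parEllHoms (ZMod n) (Gamma0 N) (ZMod n)) :=
    Nat.finite_of_card_ne_zero (by
      rw [Cosets.natCard_parEllHoms, Nat.card_zmod]
      exact pow_ne_zero _ (NeZero.ne n))
  exact Finite.of_injective _ (multHom_injective ιbar (N := N) (n := n))

/-- The Galois action on `J₀(N)[n]` factors through a finite extension. -/
theorem galoisFactorsThroughFiniteLevel_torsion :
    GaloisFactorsThroughFiniteLevel (JZero.torsionGaloisRep N n) := by
  have := finite_torsion N n
  have key : ∀ x : Pic0.torsion (AlgebraicClosure ℚ) (modularFunctionFieldBar N) n,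
      ∃ E : IntermediateField ℚ (AlgebraicClosure ℚ), FiniteDimensional ℚ E ∧
        ∀ σ : Γℚbar, (∀ a ∈ E, σ a = a) →
          arithmeticGalois (modularFunctionFieldFull N) σ • (x : JZero N) = (x : JZero N) := by
    rintro ⟨x, hx⟩
    obtain ⟨φ, D, f, G, rfl, hf, hD, -, -⟩ := exists_isKummer ιbar hx
    obtain ⟨E, hE, hfix⟩ := exists_fixing_field N f
    refine ⟨E, hE, fun σ hσ => ?_⟩
    rw [SemilinearAut.pic0_smul_mk]
    refine congrArg Pic0.mk (Subtype.ext (Finsupp.ext fun v => ?_))
    rw [SemilinearAut.coe_degZeroSMulHom, SemilinearAut.divisor_smul_apply]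
    refine mul_left_cancel₀ (Nat.cast_ne_zero.2 (NeZero.ne n)) ?_
    rw [hD, hD]
    conv_rhs => rw [← hfix σ hσ,
      ← smul_inv_smul (arithmeticGalois (modularFunctionFieldFull N) σ) v,
      SemilinearAut.ord_smul]
  choose E hE hfix using key
  refine ⟨⨆ x, E x, IntermediateField.finiteDimensional_iSup_of_finite, fun σ hσ => ?_⟩
  refine LinearMap.ext fun x => Subtype.ext ?_
  rw [JZero.torsionGaloisRep_apply, SemilinearAut.coe_torsion_smul,
    hfix x σ fun a ha => hσ a (le_iSup E x ha)]
  rfl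

end Fermat.Agent.Kummer
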