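import Fermat.Agent.Cosets.ParEllHoms
import Fermat.Agent.Periods.HeckeHom

/-!
# The Atkin–Lehner twist and the Hecke coset families
-/

set_option autoImplicit false

noncomputable section

open CongruenceSubgroup
open ModularForm (heckeMatrix heckeDiagMatrix)
open scoped MatrixGroups

namespace Fermat.Agent.Kummer

open Fermat.Agent.Periods (toGLR)
open Fermat.Agent.Cosets (parEllHoms mem_parEllHoms_iff)

variable {N : ℕ}

/-- Conjugation of an element of `Γ₀(N)` by `!![0, -1; N, 0]`. -/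
def wFun (γ : Gamma0 N) : Gamma0 N :=
  ⟨⟨!![(γ : SL(2, ℤ)) 1 1, -((γ : SL(2, ℤ)) 1 0 / N);
      -((N : ℤ) * (γ : SL(2, ℤ)) 0 1), (γ : SL(2, ℤ)) 0 0], by
    have hN : (N : ℤ) ∣ (γ : SL(2, ℤ)) 1 0 :=
      (ZMod.intCast_zmod_eq_zero_iff_dvd _ _).1 (Gamma0_mem.1 γ.2)
    obtain ⟨c, hc⟩ := hN
    have hdet := (γ : SL(2, ℤ)).2
    rw [Matrix.det_fin_two, hc] at hdet
    rw [Matrix.det_fin_two_of, hc]
    rcases eq_or_ne (N : ℤ) 0 with h0 | h0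
    · rw [h0] at hdet ⊢
      simp at hdet ⊢
      linarith
    · rw [Int.mul_ediv_cancel_left _ h0]
      linear_combination hdet⟩, Gamma0_mem.2 (by simp)⟩

theorem wFun_apply (γ : Gamma0 N) :
    ((wFun γ : SL(2, ℤ)) : Matrix (Fin 2) (Fin 2) ℤ) =
      !![(γ : SL(2, ℤ)) 1 1, -((γ : SL(2, ℤ)) 1 0 / N);
        -((N : ℤ) * (γ : SL(2, ℤ)) 0 1), (γ : SL(2, ℤ)) 0 0] := rfl

theorem exists_lower_eq (γ : Gamma0 N) : ∃ c : ℤ, (γ : SL(2, ℤ)) 1 0 = N * c :=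
  (ZMod.intCast_zmod_eq_zero_iff_dvd _ _).1 (Gamma0_mem.1 γ.2)

variable [NeZero N]

theorem wFun_apply_of_eq {γ : Gamma0 N} {c : ℤ} (hc : (γ : SL(2, ℤ)) 1 0 = N * c) :
    ((wFun γ : SL(2, ℤ)) : Matrix (Fin 2) (Fin 2) ℤ) =
      !![(γ : SL(2, ℤ)) 1 1, -c; -((N : ℤ) * (γ : SL(2, ℤ)) 0 1), (γ : SL(2, ℤ)) 0 0] := by
  rw [wFun_apply, hc, Int.mul_ediv_cancel_left _ (by exact_mod_cast NeZero.ne N)]

theorem wFun_wFun (γ : Gamma0 N) : wFun (wFun γ) = γ := by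
  obtain ⟨c, hc⟩ := exists_lower_eq γ
  have hN : (N : ℤ) ≠ 0 := by exact_mod_cast NeZero.ne N
  apply Subtype.ext
  ext i j
  fin_cases i <;> fin_cases j <;>
    simp [wFun_apply, hc, Int.mul_ediv_cancel_left _ hN, Int.neg_ediv_of_dvd]

theorem wFun_mul (γ δ : Gamma0 N) : wFun (γ * δ) = wFun γ * wFun δ := by
  obtain ⟨c, hc⟩ := exists_lower_eq γ
  obtain ⟨c', hc'⟩ := exists_lower_eq δ
  apply Subtype.ext
  apply Subtype.ext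
  have h10 : ((γ * δ : Gamma0 N) : SL(2, ℤ)) 1 0 =
      N * (c * (δ : SL(2, ℤ)) 0 0 + (γ : SL(2, ℤ)) 1 1 * c') := by
    simp [Matrix.mul_apply, Fin.sum_univ_two, hc, hc']
    ring
  rw [wFun_apply_of_eq h10]
  ext i j
  fin_cases i <;> fin_cases j <;>
    simp [Matrix.mul_apply, Fin.sum_univ_two, wFun_apply_of_eq hc,
      wFun_apply_of_eq hc', hc, hc'] <;>
    ring

/-- The Atkin–Lehner involution of `Γ₀(N)`. -/
def wConj : Gamma0 N ≃* Gamma0 N where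
  toFun := wFun
  invFun := wFun
  left_inv := wFun_wFun
  right_inv := wFun_wFun
  map_mul' := wFun_mul

omit [NeZero N] in
theorem trace_wFun (γ : Gamma0 N) :
    ((wFun γ : SL(2, ℤ)) : Matrix (Fin 2) (Fin 2) ℤ).trace =
      ((γ : SL(2, ℤ)) : Matrix (Fin 2) (Fin 2) ℤ).trace := by
  rw [wFun_apply, Matrix.trace_fin_two_of, Matrix.trace_fin_two, add_comm]

/-- Precomposition with the Atkin–Lehner involution. -/
def twist {A : Type*} [AddCommGroup A] (φ : Additive (Gamma0 N) →+ A) :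
    Additive (Gamma0 N) →+ A :=
  φ.comp (MonoidHom.toAdditive (wConj (N := N)).toMonoidHom)

theorem twist_apply {A : Type*} [AddCommGroup A] (φ : Additive (Gamma0 N) →+ A) (γ : Gamma0 N) :
    twist φ (Additive.ofMul γ) = φ (Additive.ofMul (wFun γ)) := rfl

theorem twist_twist {A : Type*} [AddCommGroup A] (φ : Additive (Gamma0 N) →+ A) :
    twist (twist φ) = φ := by
  refine AddMonoidHom.ext fun γ => ?_
  change φ (Additive.ofMul (wFun (wFun γ.toMul))) = _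
  rw [wFun_wFun]
  rfl

theorem twist_mem {R : Type*} [Semiring R] {A : Type*} [AddCommGroup A] [Module R A]
    {φ : Additive (Gamma0 N) →+ A} (hφ : φ ∈ parEllHoms R (Gamma0 N) A) :
    twist φ ∈ parEllHoms R (Gamma0 N) A := fun γ hγ =>
  mem_parEllHoms_iff.1 hφ (wFun γ) (by rwa [trace_wFun])

/-! ### Passing `diag(1, ℓ)` through `Γ₀(N)` -/

variable {ℓ : ℕ}

omit [NeZero N] in
/-- The integral matrix `diag(ℓ, 1)`. -/
theorem det_scaleUp_pos (hℓ : ℓ ≠ 0) : 0 < (!![(ℓ : ℤ), 0; 0, 1]).det := by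
  rw [Matrix.det_fin_two_of]
  have : 0 < ℓ := Nat.pos_of_ne_zero hℓ
  omega

omit [NeZero N] in
/-- Entries of `diag(1, ℓ) u = u' diag(1, ℓ)`. -/
theorem entries_of_mul_eq (hℓ : ℓ ≠ 0) {u u' : Gamma0 N}
    (h : heckeMatrix ℓ 0 * toGLR u = toGLR u' * heckeMatrix ℓ 0) :
    (u' : SL(2, ℤ)) 0 0 = (u : SL(2, ℤ)) 0 0 ∧
      (u : SL(2, ℤ)) 0 1 = ℓ * (u' : SL(2, ℤ)) 0 1 ∧
      (u' : SL(2, ℤ)) 1 0 = ℓ * (u : SL(2, ℤ)) 1 0 ∧
      (u' : SL(2, ℤ)) 1 1 = (u : SL(2, ℤ)) 1 1 := by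
  have e := fun i j => congrFun (congrFun (congrArg (fun g : GL (Fin 2) ℝ =>
    (g : Matrix (Fin 2) (Fin 2) ℝ)) h) i) j
  have e00 := e 0 0
  have e01 := e 0 1
  have e10 := e 1 0
  have e11 := e 1 1
  simp [toGLR, Matrix.mul_apply, Fin.sum_univ_two, ModularForm.val_heckeMatrix hℓ]
    at e00 e01 e10 e11
  refine ⟨by exact_mod_cast e00.symm, ?_, ?_, ?_⟩
  · rw [mul_comm]; exact_mod_cast e01
  · exact_mod_cast e10.symm
  · have hℓR : (ℓ : ℝ) ≠ 0 := Nat.cast_ne_zero.2 hℓ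
    have : (((u' : SL(2, ℤ)) 1 1 : ℤ) : ℝ) = ((u : SL(2, ℤ)) 1 1 : ℤ) :=
      mul_right_cancel₀ hℓR (by linarith)
    exact_mod_cast this

/-- If `diag(1, ℓ) u = u' diag(1, ℓ)`, then `w u ∈ Γ₀(N ℓ)` and
`diag(ℓ, 1) (w u) = (w u') diag(ℓ, 1)`. -/
theorem wFun_mem_and_mul_eq (hℓ : ℓ ≠ 0) {u u' : Gamma0 N}
    (h : heckeMatrix ℓ 0 * toGLR u = toGLR u' * heckeMatrix ℓ 0) :
    (wFun u : SL(2, ℤ)) ∈ Gamma0 (N * ℓ) ∧
      !![(ℓ : ℤ), 0; 0, 1] * ((wFun u : SL(2, ℤ)) : Matrix (Fin 2) (Fin 2) ℤ) =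
        ((wFun u' : SL(2, ℤ)) : Matrix (Fin 2) (Fin 2) ℤ) * !![(ℓ : ℤ), 0; 0, 1] := by
  obtain ⟨h00, h01, h10, h11⟩ := entries_of_mul_eq hℓ h
  obtain ⟨c, hc⟩ := exists_lower_eq u
  have hN : (N : ℤ) ≠ 0 := by exact_mod_cast NeZero.ne N
  have hc' : (u' : SL(2, ℤ)) 1 0 = N * (ℓ * c) := by rw [h10, hc]; ring
  refine ⟨?_, ?_⟩
  · rw [Gamma0_mem, ZMod.intCast_zmod_eq_zero_iff_dvd]
    refine ⟨-(u' : SL(2, ℤ)) 0 1, ?_⟩
    simp [wFun_apply, h01]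
    ring
  · ext i j
    fin_cases i <;> fin_cases j <;>
      simp [wFun_apply, Matrix.mul_apply, Fin.sum_univ_two, hc, hc', h00, h01, h11,
        Int.mul_ediv_cancel_left _ hN] <;> ring

/-- Conversely, `w u ∈ Γ₀(N ℓ)` lets `diag(1, ℓ)` pass through `u`. -/
theorem exists_mul_eq_of_wFun_mem (hℓ : ℓ ≠ 0) {u : Gamma0 N}
    (h : (wFun u : SL(2, ℤ)) ∈ Gamma0 (N * ℓ)) :
    ∃ u' : Gamma0 N, heckeMatrix ℓ 0 * toGLR u = toGLR u' * heckeMatrix ℓ 0 := by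
  rw [Gamma0_mem, ZMod.intCast_zmod_eq_zero_iff_dvd] at h
  simp [wFun_apply] at h
  have hN : (N : ℤ) ≠ 0 := by exact_mod_cast NeZero.ne N
  obtain ⟨b, hb⟩ : (ℓ : ℤ) ∣ (u : SL(2, ℤ)) 0 1 := (mul_dvd_mul_iff_left hN).1 h
  have hdet := (u : SL(2, ℤ)).2
  rw [Matrix.det_fin_two] at hdet
  obtain ⟨c, hc⟩ := exists_lower_eq u
  obtain ⟨u', h00, h01, h10, h11⟩ : ∃ u' : Gamma0 N,
      (u' : SL(2, ℤ)) 0 0 = (u : SL(2, ℤ)) 0 0 ∧ (u' : SL(2, ℤ)) 0 1 = b ∧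
        (u' : SL(2, ℤ)) 1 0 = ℓ * (u : SL(2, ℤ)) 1 0 ∧
        (u' : SL(2, ℤ)) 1 1 = (u : SL(2, ℤ)) 1 1 := by
    refine ⟨⟨⟨!![(u : SL(2, ℤ)) 0 0, b; ℓ * (u : SL(2, ℤ)) 1 0, (u : SL(2, ℤ)) 1 1], ?_⟩, ?_⟩,
      rfl, rfl, rfl, rfl⟩
    · rw [Matrix.det_fin_two_of]
      rw [hb] at hdet
      linear_combination hdet
    · exact Gamma0_mem.2 ((ZMod.intCast_zmod_eq_zero_iff_dvd _ _).2
        ⟨ℓ * c, by simp [hc]; ring⟩)
  refine ⟨u', Units.ext ?_⟩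
  ext i j
  fin_cases i <;> fin_cases j <;>
    simp [toGLR, Matrix.mul_apply, Fin.sum_univ_two, ModularForm.val_heckeMatrix hℓ, hb, h00, h01,
      h10, h11] <;>
    ring

end Fermat.Agent.Kummer
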