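import Fermat.Agent.Kummer.TorsionMap
import Fermat.Agent.Kummer.Twist
import Fermat.Prelude.Def_ModularCurve_HeckeModule

/-!
# The Hecke correspondence on Kummer multipliers
-/

set_option autoImplicit false

noncomputable section

open AlgebraicCurve ModularCurve CongruenceSubgroup
open ModularForm (heckeMatrix heckeDiagMatrix)
open scoped MatrixGroups IntermediateField

namespace Fermat.Agent.Kummer

open MeroH
open Fermat.Agent.MFGenus (FL jElt jNElt)
open Fermat.Agent.Periods (IsCosetFamily toGLR)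

variable {N : ℕ} [NeZero N]

theorem zeta_sum {n : ℕ} [NeZero n] {ι : Type*} (s : Finset ι) (a : ι → ZMod n) :
    zeta (∑ i ∈ s, a i) = ∏ i ∈ s, zeta (a i) := by
  classical
  induction s using Finset.induction with
  | empty => simp
  | insert i s hi ih => rw [Finset.sum_insert hi, Finset.prod_insert hi, zeta_add, ih]

theorem jElt_heckeAlpha (ℓ : ℕ) [NeZero ℓ] :
    heckeAlphaBar (AlgebraicClosure ℚ) N ℓ (jElt (AlgebraicClosure ℚ) N) =
      jElt (AlgebraicClosure ℚ) (N * ℓ) :=
  Subtype.ext (coe_heckeAlphaBar N ℓ _)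

theorem embed_heckeAlpha (ℓ : ℕ) [NeZero ℓ] (x : modularFunctionFieldBar N) :
    embed ιbar (N * ℓ) (heckeAlphaBar (AlgebraicClosure ℚ) N ℓ x) = embed ιbar N x := by
  rw [embed_eq_iff, coe_heckeAlphaBar]
  exact isExp_embed ιbar x

omit [NeZero N] in
theorem embed_heckeBeta (ℓ : ℕ) [NeZero ℓ] (x : modularFunctionFieldBar N) :
    embed ιbar (N * ℓ) (heckeBetaBar (AlgebraicClosure ℚ) N ℓ x) =
      intComp !![(ℓ : ℤ), 0; 0, 1] (det_scaleUp_pos (NeZero.ne ℓ)) (embed ιbar N x) := by
  rw [embed_eq_iff, coe_heckeBetaBar]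
  obtain ⟨t, ht, htc, htz⟩ := (isExp_embed ιbar x).intComp_upper
    (a := (ℓ : ℤ)) (b := 0) (d := 1) (by exact_mod_cast NeZero.pos ℓ) one_pos
    (h := 1) (e := ℓ) one_pos (by simp)
  convert ht using 1
  · simp
  · ext k
    by_cases hk : (ℓ : ℤ) ∣ k
    · obtain ⟨m, rfl⟩ := hk
      rw [coeffMap_coeff, qExpand_coeff_mul, htc]
      simp [Function.Periodic.qParam]
    · rw [coeffMap_coeff, qExpand_coeff_of_not_dvd ℓ _ hk, htz k hk, map_zero]

/-- The degree of the covering along `α`. -/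
theorem dedekindPsi_eq_finrankAlong (ℓ : ℕ) [NeZero ℓ] :
    (dedekindPsi (N * ℓ) : ℤ) =
      finrankAlong (AlgebraicClosure ℚ) (heckeAlphaBar (AlgebraicClosure ℚ) N ℓ) *
        dedekindPsi N := by
  have hψ : ∀ (M : ℕ) [NeZero M], Divisor.degree
      (FF.poleDiv (AlgebraicClosure ℚ) (jElt (AlgebraicClosure ℚ) M)) = (dedekindPsi M : ℤ) := by
    intro M _
    rw [FF.degree_poleDiv (MFGenus.transcendental_jElt ιbar),
      MFGenus.finrank_eq_dedekindPsi (N := M) ιbar]
  rw [← hψ (N * ℓ), ← hψ N, ← jElt_heckeAlpha,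
    FF.degree_poleDiv_along _ (MFGenus.transcendental_jElt ιbar)]

section General

variable {ℓ : ℕ} [NeZero ℓ] {I : Type*} [Fintype I] {α : I → GL (Fin 2) ℝ}
  (hα : IsCosetFamily (Gamma0 N) α) {h t : I → Gamma0 N}
  (hdec : ∀ i, α i = toGLR (h i) * heckeMatrix ℓ 0 * toGLR (t i))
  (hcard : dedekindPsi (N * ℓ) = Fintype.card I * dedekindPsi N)

include hα hdec hcard

/-- The norm along `α` is the product over the coset family. -/
theorem embed_norm (hfin : FiniteAlong (AlgebraicClosure ℚ)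
      (heckeAlphaBar (AlgebraicClosure ℚ) N ℓ))
    (z : modularFunctionFieldBar (N * ℓ)) :
    embed ιbar N
        (letI := algebraAlong (heckeAlphaBar (AlgebraicClosure ℚ) N ℓ)
         Algebra.norm (modularFunctionFieldBar N) z) =
      ∏ i, slComp (wFun (t i) : SL(2, ℤ)) (embed ιbar (N * ℓ) z) := by
  classical
  let := algebraAlong (heckeAlphaBar (AlgebraicClosure ℚ) N ℓ)
  have : Module.Finite (modularFunctionFieldBar N) (modularFunctionFieldBar (N * ℓ)) := hfin
  let a : MeroH →+* AlgebraicClosure MeroH := algebraMap MeroH (AlgebraicClosure MeroH)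
  let : Algebra (modularFunctionFieldBar N) (AlgebraicClosure MeroH) :=
    (a.comp (embed ιbar N)).toAlgebra
  have : CharZero (modularFunctionFieldBar N) :=
    charZero_of_injective_algebraMap (algebraMap (AlgebraicClosure ℚ) _).injective
  let ψ : I → (modularFunctionFieldBar (N * ℓ) →ₐ[modularFunctionFieldBar N]
      AlgebraicClosure MeroH) := fun i =>
    { a.comp ((slComp (wFun (t i) : SL(2, ℤ))).comp (embed ιbar (N * ℓ))) with
      commutes' := fun y => by
        change a (slComp _ (embed ιbar (N * ℓ) (heckeAlphaBar (AlgebraicClosure ℚ) N ℓ y))) =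
          a (embed ιbar N y)
        rw [embed_heckeAlpha, slComp_embed ιbar y (wFun (t i)).2] }
  have hinj : Function.Injective ψ := by
    intro i j hij
    have hjN := a.injective (AlgHom.congr_fun hij (jNElt (AlgebraicClosure ℚ) (N * ℓ)))
    simp only [RingHom.comp_apply, MFGenus.embed_jNElt] at hjN
    have hfix : slComp ((wFun (t i) : SL(2, ℤ)) * (wFun (t j) : SL(2, ℤ))⁻¹)
        (jScale (N * ℓ) (NeZero.pos (N * ℓ))) = jScale (N * ℓ) (NeZero.pos (N * ℓ)) := by
      rw [← slComp_slComp, hjN, slComp_slComp, mul_inv_cancel, slComp_one]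
    have hmem := mem_Gamma0_of_slComp_jScale_eq hfix
    have hw : wFun (t i * (t j)⁻¹) = wFun (t i) * (wFun (t j))⁻¹ := by
      have := map_mul (wConj (N := N)) (t i) (t j)⁻¹
      rw [map_inv] at this
      exact this
    obtain ⟨u', hu'⟩ := exists_mul_eq_of_wFun_mem (NeZero.ne ℓ) (u := t i * (t j)⁻¹)
      (by rw [hw]; exact hmem)
    refine hα.eq_of_mem i j (h i * u' * (h j)⁻¹) ?_
    rw [hdec i, hdec j]
    simp only [toGLR, Subgroup.coe_mul, Subgroup.coe_inv, map_mul, map_inv] at hu' ⊢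
    calc _ = Matrix.SpecialLinearGroup.mapGL ℝ (h i : SL(2, ℤ)) * (heckeMatrix ℓ 0 *
          (Matrix.SpecialLinearGroup.mapGL ℝ (t i : SL(2, ℤ)) *
            (Matrix.SpecialLinearGroup.mapGL ℝ (t j : SL(2, ℤ)))⁻¹)) *
          Matrix.SpecialLinearGroup.mapGL ℝ (t j : SL(2, ℤ)) := by group
      _ = _ := by rw [hu']; group
  have hbij : Function.Bijective ψ := by
    rw [Fintype.bijective_iff_injective_and_card]
    refine ⟨hinj, ?_⟩
    rw [AlgHom.card]
    have h1 := dedekindPsi_eq_finrankAlong (N := N) ℓ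
    rw [hcard, Nat.cast_mul] at h1
    have h2 : (dedekindPsi N : ℤ) ≠ 0 := by
      exact_mod_cast (Cosets.dedekindPsi_pos (NeZero.ne N)).ne'
    exact_mod_cast mul_right_cancel₀ h2 h1
  apply a.injective
  rw [map_prod]
  change algebraMap (modularFunctionFieldBar N) (AlgebraicClosure MeroH)
    (Algebra.norm (modularFunctionFieldBar N) z) = _
  rw [Algebra.norm_eq_prod_embeddings]
  exact (Equiv.prod_comp (Equiv.ofBijective ψ hbij) fun σ => σ z).symm

variable {n : ℕ} [NeZero n]

/-- The image of a torsion class under the Hecke correspondence has the transferred multiplier. -/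
theorem isKummer_hecke {x : Pic0 (AlgebraicClosure ℚ) (modularFunctionFieldBar N)}
    {φ : Additive (Gamma0 N) →+ ZMod n} (hk : IsKummer ιbar x φ) :
    IsKummer ιbar (heckeOperatorAlong (AlgebraicClosure ℚ) N ℓ x)
      (twist (hα.transfer (ZMod n) (ZMod n) (twist φ))) := by
  classical
  set A := heckeAlphaBar (AlgebraicClosure ℚ) N ℓ with hAdef
  set B := heckeBetaBar (AlgebraicClosure ℚ) N ℓ with hBdef
  have hαi : A.toRingHom.IsIntegral := FF.isIntegralAlong A
  have hβi : B.toRingHom.IsIntegral := FF.isIntegralAlong B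
  have hfin : FiniteAlong (AlgebraicClosure ℚ) A := FF.finiteAlong A
  have hFI := FF.fundamentalIdentityAlong B hβi
  have hN := FF.normFormulaAlong A hfin
  rw [heckeOperatorAlong_eq hαi hβi hFI hfin hN]
  obtain ⟨D, f, G, rfl, hf, hD, hG, hGφ⟩ := hk
  set z := B f with hzdef
  have hz0 : z ≠ 0 := (map_ne_zero B).2 hf
  set f' : modularFunctionFieldBar N :=
    (letI := algebraAlong A; Algebra.norm (modularFunctionFieldBar N) z) with hf'def
  have hdiv : ∀ v, (n : ℤ) * (Divisor.correspondence B A hβi hαi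
      (D : Divisor (AlgebraicClosure ℚ) (modularFunctionFieldBar N))) v = v.ord f' := by
    intro v
    set E : Divisor (AlgebraicClosure ℚ) (modularFunctionFieldBar N) :=
      (n : ℤ) • (D : Divisor (AlgebraicClosure ℚ) (modularFunctionFieldBar N)) with hE
    have hpull : ∀ w, Divisor.pullbackAlong B hβi E w = w.ord z := fun w => by
      rw [Divisor.pullbackAlong_apply, hE, Finsupp.smul_apply, smul_eq_mul, hD, hzdef,
        Place.ord_restrictAlong B hβi w f]
    have hpush : Divisor.pushforwardAlong A hαi (Divisor.pullbackAlong B hβi E) v = v.ord f' :=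
      hN z hz0 _ hpull v
    rw [← hpush, hE, map_zsmul, map_zsmul, Finsupp.smul_apply, smul_eq_mul]
    rfl
  set X := intComp !![(ℓ : ℤ), 0; 0, 1] (det_scaleUp_pos (NeZero.ne ℓ)) G with hX
  refine ⟨Pic0.degZeroCorrespondence B A hβi hαi hFI D, f',
    ∏ i, slComp (wFun (t i) : SL(2, ℤ)) X, (Pic0.correspondence_mk B A hβi hαi hFI hfin hN D).symm,
    ?_, hdiv, ?_, ?_⟩
  · let := algebraAlong A
    have : Module.Finite (modularFunctionFieldBar N) (modularFunctionFieldBar (N * ℓ)) := hfin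
    exact Algebra.norm_ne_zero_iff.2 hz0
  · rw [hf'def, embed_norm hα hdec hcard hfin z, ← Finset.prod_pow]
    refine Finset.prod_congr rfl fun i _ => ?_
    rw [hzdef, embed_heckeBeta, ← map_pow, hX, ← map_pow, hG]
  · intro γ
    set γ₀ := wFun γ with hγ₀
    set σ := hα.perm γ₀
    set g := hα.cocycle γ₀
    have hmul := hα.mul_eq γ₀
    have hD1 : ∀ i, heckeMatrix ℓ 0 * toGLR ((t i * γ₀ * (t (σ i))⁻¹ : Gamma0 N) : SL(2, ℤ)) =
        toGLR (((h i)⁻¹ * g i * h (σ i) : Gamma0 N) : SL(2, ℤ)) * heckeMatrix ℓ 0 := by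
      intro i
      have h1 := hmul i
      rw [hdec i, hdec (σ i)] at h1
      simp only [toGLR, Subgroup.coe_mul, Subgroup.coe_inv, map_mul, map_inv] at h1 ⊢
      calc _ = (Matrix.SpecialLinearGroup.mapGL ℝ (h i : SL(2, ℤ)))⁻¹ *
            (Matrix.SpecialLinearGroup.mapGL ℝ (h i : SL(2, ℤ)) * heckeMatrix ℓ 0 *
              Matrix.SpecialLinearGroup.mapGL ℝ (t i : SL(2, ℤ)) *
              Matrix.SpecialLinearGroup.mapGL ℝ (γ₀ : SL(2, ℤ))) *
            (Matrix.SpecialLinearGroup.mapGL ℝ (t (σ i) : SL(2, ℤ)))⁻¹ := by group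
        _ = _ := by rw [h1]; simp only [g]; group
    set δ' := fun i => wFun ((h i)⁻¹ * g i * h (σ i)) with hδ'
    have hterm : ∀ i, slComp (γ : SL(2, ℤ)) (slComp (wFun (t i) : SL(2, ℤ)) X) =
        MeroH.const (zeta (φ (Additive.ofMul (δ' i)))) *
          slComp (wFun (t (σ i)) : SL(2, ℤ)) X := by
      intro i
      obtain ⟨-, hMeq⟩ := wFun_mem_and_mul_eq (NeZero.ne ℓ) (hD1 i)
      have e1 : (wFun (t i) : SL(2, ℤ)) * (γ : SL(2, ℤ)) =
          (wFun (t i * γ₀ * (t (σ i))⁻¹) : SL(2, ℤ)) * (wFun (t (σ i)) : SL(2, ℤ)) := by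
        have h2 : wFun (t i * γ₀ * (t (σ i))⁻¹) * wFun (t (σ i)) = wFun (t i) * γ := by
          rw [← wFun_mul, inv_mul_cancel_right, wFun_mul, hγ₀, wFun_wFun]
        exact (congrArg Subtype.val h2).symm
      rw [slComp_slComp, e1, ← slComp_slComp]
      set δ : SL(2, ℤ) := (wFun (t i * γ₀ * (t (σ i))⁻¹) : SL(2, ℤ))
      have hM := det_scaleUp_pos (ℓ := ℓ) (NeZero.ne ℓ)
      have hδ1 : 0 < (δ : Matrix (Fin 2) (Fin 2) ℤ).det := by rw [δ.2]; exact one_pos
      have hδ2 : 0 < ((δ' i : SL(2, ℤ)) : Matrix (Fin 2) (Fin 2) ℤ).det := by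
        rw [(δ' i : SL(2, ℤ)).2]; exact one_pos
      have hX2 : slComp δ X = MeroH.const (zeta (φ (Additive.ofMul (δ' i)))) * X := by
        rw [hX, ← intComp_coe δ hδ1,
          intComp_intComp hM hδ1 (by rw [Matrix.det_mul]; exact mul_pos hM hδ1),
          intComp_congr _ (by rw [Matrix.det_mul]; exact mul_pos hδ2 hM) hMeq,
          ← intComp_intComp hδ2 hM, intComp_coe _ hδ2, hGφ (δ' i), map_mul, intComp_const]
      rw [hX2, map_mul, slComp_const]
    have hsum : twist (hα.transfer (ZMod n) (ZMod n) (twist φ)) (Additive.ofMul γ) =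
        ∑ i, φ (Additive.ofMul (δ' i)) := by
      rw [twist_apply, hα.transfer_apply]
      simp only [hδ', wFun_mul, ofMul_mul, map_add, Finset.sum_add_distrib, twist_apply]
      have hinv : ∀ i, φ (Additive.ofMul (wFun (h i)⁻¹)) = -φ (Additive.ofMul (wFun (h i))) := by
        intro i
        rw [show wFun (h i)⁻¹ = (wFun (h i))⁻¹ from map_inv (wConj (N := N)) (h i), ofMul_inv,
          map_neg]
      simp only [hinv, Finset.sum_neg_distrib]
      rw [Equiv.sum_comp σ (fun i => φ (Additive.ofMul (wFun (h i))))]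
      abel
    rw [hsum, zeta_sum, map_prod, map_prod, ← Equiv.prod_comp σ
      (fun i => slComp (wFun (t i) : SL(2, ℤ)) X), ← Finset.prod_mul_distrib]
    exact Finset.prod_congr rfl fun i _ => hterm i

end General

end Fermat.Agent.Kummer
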