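import Fermat.Agent.Kummer.Surjective
import Fermat.Agent.Kummer.Galois
import Fermat.Agent.Kummer.Hecke

/-!
# Kummer description of the torsion of `J₀(N)`

`J₀(N)[n]` is identified with the homomorphisms `Γ₀(N) → ℤ/n` killing all elements of squared
trace at most `4`: a class `[D]` with `n • D = div f` is sent to the multiplier of an `n`-th root
of `f`, twisted by the Atkin–Lehner involution so that `heckeOperatorBar` becomes `T_ℓ` and `U_q`.
-/

set_option autoImplicit false

noncomputable section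

namespace Fermat.Agent.Kummer

open AlgebraicCurve ModularCurve CongruenceSubgroup
open ModularForm (heckeMatrix heckeDiagMatrix)
open Fermat.Agent.Cosets Fermat.Agent.Periods
open scoped MatrixGroups OnePoint

local notation "Γℚbar" => AlgebraicClosure ℚ ≃ₐ[ℚ] AlgebraicClosure ℚ

/-- The `n`-torsion of `J₀(N)`. -/
abbrev Tors (N n : ℕ) : AddSubgroup (JZero N) :=
  Pic0.torsion (AlgebraicClosure ℚ) (modularFunctionFieldBar N) n

/-! ### Raising a root of unity to a power -/

theorem zeta_pow_castHom {n m n' : ℕ} [NeZero n] [NeZero n'] (h : n * m = n') (a : ZMod n') :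
    zeta (ZMod.castHom (Dvd.intro m h) (ZMod n) a) = zeta a ^ m := by
  subst h
  obtain ⟨k, rfl⟩ := ZMod.intCast_surjective a
  rw [map_intCast, zeta, zeta, ZMod.stdAddChar_coe, ZMod.stdAddChar_coe, ← Complex.exp_nat_mul]
  congr 1
  have hm : (m : ℂ) ≠ 0 := Nat.cast_ne_zero.2 (right_ne_zero_of_mul (NeZero.ne (n * m)))
  push_cast
  field_simp

/-! ### Decompositions of the Hecke coset families -/

variable {N : ℕ}

/-- `T ^ b` in `Γ₀(N)`. -/
def transl (N : ℕ) (b : ℤ) : Gamma0 N :=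
  ⟨ModularGroup.T ^ b, Gamma0_mem.2 (by simp [ModularGroup.coe_T_zpow])⟩

theorem heckeMatrix_eq_decomp {p : ℕ} (hp : p ≠ 0) (j : ℕ) :
    heckeMatrix p j = toGLR ((1 : Gamma0 N) : SL(2, ℤ)) * heckeMatrix p 0 *
      toGLR ((transl N j : Gamma0 N) : SL(2, ℤ)) := by
  have hT : ∀ a b, ((transl N j : Gamma0 N) : SL(2, ℤ)) a b = !![(1 : ℤ), j; 0, 1] a b :=
    fun a b => by
      change (ModularGroup.T ^ (j : ℤ) : SL(2, ℤ)) a b = _
      rw [ModularGroup.coe_T_zpow]
  apply Units.ext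
  ext i k
  fin_cases i <;> fin_cases k <;>
    simp [toGLR, Matrix.mul_apply, Fin.sum_univ_two, ModularForm.val_heckeMatrix hp, hT]

theorem exists_heckeDiag_decomp {p : ℕ} (hp : p.Prime) (hpN : ¬ p ∣ N) :
    ∃ h t : Gamma0 N, heckeDiagMatrix p =
      toGLR (h : SL(2, ℤ)) * heckeMatrix p 0 * toGLR (t : SL(2, ℤ)) := by
  have hcop : IsCoprime ((p : ℤ) * p) (N : ℤ) := by
    have h := Nat.Coprime.mul_left ((hp.coprime_iff_not_dvd).2 hpN)
      ((hp.coprime_iff_not_dvd).2 hpN)
    exact_mod_cast (Nat.isCoprime_iff_coprime.2 h)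
  obtain ⟨u, v, huv⟩ := hcop
  obtain ⟨h, hh⟩ : ∃ h : Gamma0 N,
      ∀ a b, (h : SL(2, ℤ)) a b = !![(p : ℤ) * (p * u), v; -(N : ℤ), 1] a b :=
    ⟨⟨⟨!![(p : ℤ) * (p * u), v; -(N : ℤ), 1], by
      rw [Matrix.det_fin_two_of]; linear_combination huv⟩, Gamma0_mem.2 (by simp)⟩, fun _ _ => rfl⟩
  obtain ⟨t, ht⟩ : ∃ t : Gamma0 N,
      ∀ a b, (t : SL(2, ℤ)) a b = !![(p : ℤ), -v; (N : ℤ), p * u] a b :=
    ⟨⟨⟨!![(p : ℤ), -v; (N : ℤ), p * u], by
      rw [Matrix.det_fin_two_of]; linear_combination huv⟩, Gamma0_mem.2 (by simp)⟩, fun _ _ => rfl⟩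
  refine ⟨h, t, Units.ext ?_⟩
  have hp0 := hp.ne_zero
  have huv' : (u : ℝ) * (p * p) + v * N = 1 := by exact_mod_cast huv
  ext i k
  fin_cases i <;> fin_cases k <;>
    simp [toGLR, Matrix.mul_apply, Fin.sum_univ_two, ModularForm.val_heckeMatrix hp0,
      ModularForm.val_heckeDiagMatrix hp0, hh, ht, -ZMod.natCast_val] <;>
    first
      | ring1
      | linear_combination (-(p : ℝ)) * huv'
      | linear_combination -huv'

theorem dedekindPsi_mul_prime_of_not_dvd {p : ℕ} (hp : p.Prime) (hpN : ¬ p ∣ N) :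
    dedekindPsi (N * p) = (p + 1) * dedekindPsi N := by
  rw [Cosets.dedekindPsi_mul ((hp.coprime_iff_not_dvd).2 hpN).symm, mul_comm]
  have := Cosets.dedekindPsi_prime_pow hp 0
  simp only [zero_add, pow_one, pow_zero] at this
  rw [this]

theorem dedekindPsi_mul_prime_of_dvd [NeZero N] {p : ℕ} (hp : p.Prime) (hpN : p ∣ N) :
    dedekindPsi (N * p) = p * dedekindPsi N := by
  obtain ⟨k, m, hm, hN⟩ := Nat.exists_eq_pow_mul_and_not_dvd (NeZero.ne N) p hp.ne_one
  obtain ⟨k, rfl⟩ : ∃ l, k = l + 1 := by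
    refine Nat.exists_eq_succ_of_ne_zero ?_
    rintro rfl
    rw [pow_zero, one_mul] at hN
    exact hm (hN ▸ hpN)
  have hc : ∀ l, (p ^ l).Coprime m := fun l => Nat.Coprime.pow_left l
    ((hp.coprime_iff_not_dvd).2 hm)
  rw [hN, mul_right_comm, ← pow_succ, Cosets.dedekindPsi_mul (hc _), Cosets.dedekindPsi_mul (hc _),
    Cosets.dedekindPsi_prime_pow hp, Cosets.dedekindPsi_prime_pow hp]
  ring

variable (N) [NeZero N]

/-- The Kummer map as a homomorphism. -/
def kummerHom (n : ℕ) [NeZero n] : Tors N n →+ parEllHoms (ZMod n) (Gamma0 N) (ZMod n) :=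
  AddMonoidHom.mk' (fun x => ⟨twist (multHom ιbar N n x : Additive (Gamma0 N) →+ ZMod n),
    twist_mem (multHom ιbar N n x).2⟩) fun x y => Subtype.ext (by
      change twist _ = twist _ + twist _
      rw [map_add]
      rfl)

theorem kummerHom_bijective (n : ℕ) [NeZero n] : Function.Bijective (kummerHom N n) := by
  refine ⟨fun x y hxy => multHom_injective ιbar (Subtype.ext ?_), fun φ => ?_⟩
  · have h := congrArg (fun ψ : parEllHoms (ZMod n) (Gamma0 N) (ZMod n) =>
      twist (ψ : Additive (Gamma0 N) →+ ZMod n)) hxy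
    simpa [kummerHom, twist_twist] using h
  · obtain ⟨x, hx, hk⟩ := exists_isKummer_of_mem (N := N) (n := n) (twist_mem φ.2)
    refine ⟨⟨x, hx⟩, Subtype.ext ?_⟩
    change twist (multHom ιbar N n ⟨x, hx⟩ : Additive (Gamma0 N) →+ ZMod n) = _
    rw [multHom_eq ιbar (x := ⟨x, hx⟩) hk, twist_twist]

/-- **Kummer description** of the torsion of `J₀(N)`. -/
def kummer (n : ℕ) [NeZero n] : Tors N n ≃+ parEllHoms (ZMod n) (Gamma0 N) (ZMod n) :=
  AddEquiv.ofBijective (kummerHom N n) (kummerHom_bijective N n)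

theorem coe_kummer {n : ℕ} [NeZero n] (x : Tors N n) :
    (kummer N n x : Additive (Gamma0 N) →+ ZMod n) =
      twist (multHom ιbar N n x : Additive (Gamma0 N) →+ ZMod n) := rfl

/-- Multiplication by `m` corresponds to reduction of the coefficients. -/
theorem kummer_mul {n m n' : ℕ} [NeZero n] [NeZero n'] (h : n * m = n') (x : Tors N n')
    (y : Tors N n) (hy : (y : JZero N) = m • (x : JZero N)) (γ : Additive (Gamma0 N)) :
    (kummer N n y : Additive (Gamma0 N) →+ ZMod n) γ =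
      ZMod.castHom (Dvd.intro m h) (ZMod n)
        ((kummer N n' x : Additive (Gamma0 N) →+ ZMod n') γ) := by
  obtain ⟨D, f, G, hDx, hf, hD, hG, hGφ⟩ := isKummer_multHom ιbar x
  set φ := (multHom ιbar N n' x : Additive (Gamma0 N) →+ ZMod n')
  have hk : IsKummer ιbar (y : JZero N)
      ((ZMod.castHom (Dvd.intro m h) (ZMod n)).toAddMonoidHom.comp φ) := by
    refine ⟨m • D, f, G ^ m, ?_, hf, fun v => ?_, by rw [← pow_mul, mul_comm, h, hG],
      fun δ => ?_⟩
    · rw [hy, ← hDx]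
      exact map_nsmul (QuotientAddGroup.mk' _) m D
    · rw [AddSubgroupClass.coe_nsmul, Finsupp.smul_apply, nsmul_eq_mul, ← mul_assoc,
        ← Nat.cast_mul, h, hD]
    · rw [map_pow, hGφ δ, mul_pow, ← map_pow, AddMonoidHom.comp_apply,
        RingHom.toAddMonoidHom_eq_coe, AddMonoidHom.coe_coe, zeta_pow_castHom h]
  rw [coe_kummer, coe_kummer, multHom_eq ιbar hk]
  rfl

/-- `heckeOperatorBar` at a prime `q ∤ N` is the transfer `T_q`. -/
theorem kummer_heckeT {n : ℕ} [NeZero n] (q : Nat.Primes) (hq : ¬ (q : ℕ) ∣ N)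
    (x y : Tors N n) (hy : (y : JZero N) = heckeOperatorBar N q (x : JZero N)) :
    (kummer N n y : Additive (Gamma0 N) →+ ZMod n) =
      heckeTHom (ZMod n) (ZMod n) q.2 hq (kummer N n x) := by
  have : Fact (q : ℕ).Prime := ⟨q.2⟩
  have : NeZero (q : ℕ) := ⟨q.2.ne_zero⟩
  obtain ⟨h0, t0, hdiag⟩ := exists_heckeDiag_decomp (N := N) q.2 hq
  let h : OnePoint (ZMod q) → Gamma0 N := fun i => i.elim h0 fun _ => 1
  let t : OnePoint (ZMod q) → Gamma0 N := fun i => i.elim t0 fun b => transl N b.val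
  have hk := isKummer_hecke (ℓ := (q : ℕ)) (isCosetFamily_heckeT (N := N) hq) (h := h) (t := t)
    (fun i => ?_) ?_ (isKummer_multHom ιbar x)
  · rw [heckeOperatorBar_apply] at hy
    rw [← hy] at hk
    rw [coe_kummer, multHom_eq ιbar hk, twist_twist, coe_kummer]
    rfl
  · induction i using OnePoint.rec with
    | infty => exact hdiag
    | coe b => exact heckeMatrix_eq_decomp q.2.ne_zero b.val
  · rw [dedekindPsi_mul_prime_of_not_dvd q.2 hq]
    congr 1
    exact ((Fintype.card_option (α := ZMod q)).trans (by rw [ZMod.card])).symm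

/-- `heckeOperatorBar` at a prime `q ∣ N` is the transfer `U_q`. -/
theorem kummer_heckeU {n : ℕ} [NeZero n] (q : Nat.Primes) (hq : (q : ℕ) ∣ N)
    (x y : Tors N n) (hy : (y : JZero N) = heckeOperatorBar N q (x : JZero N)) :
    (kummer N n y : Additive (Gamma0 N) →+ ZMod n) =
      heckeUHom (ZMod n) (ZMod n) hq (kummer N n x) := by
  have : NeZero (q : ℕ) := ⟨q.2.ne_zero⟩
  have hk := isKummer_hecke (ℓ := (q : ℕ)) (isCosetFamily_heckeU (N := N) hq) (h := fun _ => 1)
    (t := fun b => transl N b.val) (fun b => heckeMatrix_eq_decomp q.2.ne_zero b.val)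
    (by rw [dedekindPsi_mul_prime_of_dvd q.2 hq, ZMod.card]) (isKummer_multHom ιbar x)
  rw [heckeOperatorBar_apply] at hy
  rw [← hy] at hk
  rw [coe_kummer, multHom_eq ιbar hk, twist_twist, coe_kummer]
  rfl

/-- The Galois action on torsion points factors through a finite extension. -/
theorem torsion_finiteLevel (n : ℕ) [NeZero n] :
    GaloisFactorsThroughFiniteLevel (JZero.torsionGaloisRep N n) :=
  galoisFactorsThroughFiniteLevel_torsion N n

/-- The Galois action commutes with the Hecke operators on the torsion. -/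
theorem heckeOperatorBar_galois {n : ℕ} [NeZero n] (q : Nat.Primes) (σ : Γℚbar)
    (x : Tors N n) :
    heckeOperatorBar N q (σ • (x : JZero N)) = σ • heckeOperatorBar N q (x : JZero N) :=
  heckeOperatorBar_smul N q σ x

end Fermat.Agent.Kummer
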