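import Fermat.Agent.Kummer.IntComp
import Fermat.Agent.LevelOne.JFunction
import Fermat.Prelude.Def_ModularCurve_ArithmeticGalois
import Mathlib.NumberTheory.ModularForms.CongruenceSubgroups

/-!
# The modular function field inside the meromorphic functions on the upper half plane

For a ring homomorphism `ι : L →+* ℂ`, `embed ι N` sends an element of
`laurentBaseChange L (modularFunctionFieldFull N)` to the meromorphic function on `ℍ` with the
given `q`-expansion.
-/

set_option autoImplicit false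

noncomputable section

open Filter Topology Complex
open UpperHalfPlane hiding I continuous_im im re
open CongruenceSubgroup
open scoped MatrixGroups Manifold

namespace Fermat.Agent.Kummer

namespace MeroH

/-- Series which are expansions at `i∞` of elements of `MeroH`. -/
def expField (h : ℝ) (hh : 0 < h) : Subfield (LaurentSeries ℂ) where
  carrier := {s | ∃ x, IsExp h x s}
  one_mem' := ⟨1, IsExp.one⟩
  zero_mem' := ⟨0, IsExp.zero⟩
  mul_mem' := fun ⟨x, hx⟩ ⟨y, hy⟩ => ⟨x * y, hx.mul hy⟩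
  add_mem' := fun ⟨x, hx⟩ ⟨y, hy⟩ => ⟨x + y, hx.add hy⟩
  neg_mem' := fun ⟨x, hx⟩ => ⟨-x, hx.neg⟩
  inv_mem' := fun _ ⟨x, hx⟩ => ⟨x⁻¹, hx.inv hh⟩

/-- The element with a given expansion. -/
def realize (h : ℝ) (hh : 0 < h) : expField h hh →+* MeroH where
  toFun s := s.2.choose
  map_one' := ((IsExp.unique hh (Subtype.prop (1 : expField h hh)).choose_spec IsExp.one)).1 rfl
  map_zero' := ((IsExp.unique hh (Subtype.prop (0 : expField h hh)).choose_spec IsExp.zero)).1 rfl
  map_mul' s t := (IsExp.unique hh (Subtype.prop (s * t)).choose_spec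
    (s.2.choose_spec.mul t.2.choose_spec)).1 rfl
  map_add' s t := (IsExp.unique hh (Subtype.prop (s + t)).choose_spec
    (s.2.choose_spec.add t.2.choose_spec)).1 rfl

theorem isExp_realize (h : ℝ) (hh : 0 < h) (s : expField h hh) :
    IsExp h (realize h hh s) (s : LaurentSeries ℂ) := s.2.choose_spec

theorem slComp_ofHol (γ : SL(2, ℤ)) {f : ℍ → ℂ} (hf : MDiff f)
    (hinv : ∀ τ : ℍ, f (γ • τ) = f τ) : slComp γ (ofHol f hf) = ofHol f hf := by
  rw [ofHol, slComp_mk]
  refine mk_congr _ _ fun z hz => ?_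
  simp only [Function.comp_apply, moeb, ofComplex_apply]
  exact hinv _

theorem isExp_qParam :
    IsExp 1 (ofHol _ Fermat.Agent.LevelOne.mdifferentiable_qParam_one)
      (HahnSeries.single 1 1) := by
  have h := isExp_of_periodic one_pos Fermat.Agent.LevelOne.mdifferentiable_qParam_one
    Fermat.Agent.LevelOne.periodic_qParam_one
    ((qParam_tendsto_atImInfty one_pos).isBigO_one ℝ)
  rwa [Fermat.Agent.LevelOne.qExpansion_qParam, HahnSeries.ofPowerSeries_X] at h

/-- The modular invariant as an element of `MeroH`. -/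
def jMero : MeroH := ofHol Fermat.Agent.LevelOne.jFun Fermat.Agent.LevelOne.mdifferentiable_jFun

theorem slComp_jMero (γ : SL(2, ℤ)) : slComp γ jMero = jMero :=
  slComp_ofHol γ _ (Fermat.Agent.LevelOne.jFun_smul γ)

theorem isExp_jMero : IsExp 1 jMero (ModularCurve.jqModC ℂ) := by
  have h := isExp_of_periodic one_pos Fermat.Agent.LevelOne.mdifferentiable_qMulJ
    Fermat.Agent.LevelOne.periodic_qMulJ Fermat.Agent.LevelOne.isBoundedAtImInfty_qMulJ
  rw [Fermat.Agent.LevelOne.qExpansion_qMulJ] at h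
  set Q := ofHol _ Fermat.Agent.LevelOne.mdifferentiable_qParam_one
  have hmul : ofHol _ Fermat.Agent.LevelOne.mdifferentiable_qMulJ = Q * jMero := rfl
  rw [hmul] at h
  have hQ : Q ≠ 0 := fun h0 =>
    HahnSeries.single_ne_zero one_ne_zero ((isExp_qParam.series_eq_zero_iff one_pos).2 h0)
  have := (isExp_qParam.inv one_pos).mul h
  rw [inv_mul_cancel_left₀ hQ] at this
  convert this using 1
  rw [ModularCurve.jqModC, HahnSeries.inv_single, inv_one]

theorem det_scale {d : ℕ} (hd : 0 < d) : 0 < (!![(d : ℤ), 0; 0, 1]).det :=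
  det_upper_pos (by exact_mod_cast hd) one_pos

/-- `j(d τ)`. -/
def jScale (d : ℕ) (hd : 0 < d) : MeroH := intComp !![(d : ℤ), 0; 0, 1] (det_scale hd) jMero

theorem isExp_jScale (d : ℕ) [NeZero d] :
    IsExp 1 (jScale d (NeZero.pos d)) (ModularCurve.qExpand ℂ d (ModularCurve.jqModC ℂ)) := by
  obtain ⟨t, ht, htc, htz⟩ := isExp_jMero.intComp_upper (b := 0) (a := (d : ℤ)) (d := 1)
    (by exact_mod_cast NeZero.pos d) one_pos (h := 1) (e := d) one_pos (by simp)
  have : t = ModularCurve.qExpand ℂ d (ModularCurve.jqModC ℂ) := by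
    ext k
    by_cases hk : (d : ℤ) ∣ k
    · obtain ⟨m, rfl⟩ := hk
      rw [htc, ModularCurve.qExpand_coeff_mul]
      simp [Function.Periodic.qParam]
    · rw [htz k hk, ModularCurve.qExpand_coeff_of_not_dvd d _ hk]
  rw [this, Nat.cast_one] at ht
  exact ht

theorem slComp_jScale {N d : ℕ} (hd : 0 < d) (hdN : d ∣ N) {γ : SL(2, ℤ)} (hγ : γ ∈ Gamma0 N) :
    slComp γ (jScale d hd) = jScale d hd := by
  obtain ⟨c', hc'⟩ : (d : ℤ) ∣ γ 1 0 :=
    (Int.natCast_dvd_natCast.2 hdN).trans
      ((ZMod.intCast_zmod_eq_zero_iff_dvd _ N).1 (Gamma0_mem.1 hγ))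
  have hγdet := γ.2
  rw [Matrix.det_fin_two] at hγdet
  let δ : SL(2, ℤ) := ⟨!![γ 0 0, d * γ 0 1; c', γ 1 1], by
    rw [Matrix.det_fin_two_of]
    linear_combination hγdet + (γ 0 1) * hc'⟩
  have hmat : (!![(d : ℤ), 0; 0, 1]) * (γ : Matrix (Fin 2) (Fin 2) ℤ)
      = (δ : Matrix (Fin 2) (Fin 2) ℤ) * !![(d : ℤ), 0; 0, 1] := by
    ext i j
    fin_cases i <;> fin_cases j <;> simp [δ, Matrix.mul_apply, Fin.sum_univ_two] <;>
      first | linear_combination hc' | ring1
  have h1 : 0 < ((!![(d : ℤ), 0; 0, 1]) * (γ : Matrix (Fin 2) (Fin 2) ℤ)).det := by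
    rw [Matrix.det_mul, γ.2, mul_one]; exact det_scale hd
  rw [jScale, ← intComp_coe γ (by rw [γ.2]; exact one_pos), intComp_intComp _ _ h1,
    intComp_congr h1 (hmat ▸ h1) hmat,
    ← intComp_intComp (by rw [δ.2]; exact one_pos) (det_scale hd),
    intComp_coe, slComp_jMero]

theorem meroAtCusps_jScale {N d : ℕ} (hN : 0 < N) (hd : 0 < d) (hdN : d ∣ N) :
    MeroAtCusps N (jScale d hd) :=
  meroAtCusps_intComp isExp_jMero slComp_jMero hN _ _ (by
    rw [Matrix.det_fin_two_of, mul_zero, sub_zero, mul_one]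
    exact_mod_cast hdN)

end MeroH

open ModularCurve MeroH

variable {L : Type*} [Field L] [Algebra ℚ L]

omit [Algebra ℚ L] in
theorem coeffMap_algebraMap_laurent (ι : L →+* ℂ) (c : L) :
    coeffMap ι (algebraMap L (LaurentSeries L) c) = HahnSeries.C (ι c) := by
  rw [algebraMap_laurentSeries_eq_single, coeffMap_single, HahnSeries.C_apply]

theorem coeffMap_coeffEmb_qExpand (ι : L →+* ℂ) (d : ℕ) [NeZero d] :
    coeffMap ι (coeffEmb L (qExpand ℚ d jq)) = qExpand ℂ d (jqModC ℂ) := by
  rw [coeffEmb, coeffMap_coeffMap]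
  have h : qExpand ℂ d (jqModC ℂ) =
      coeffMap (ι.comp (algebraMap ℚ L)) (qExpand ℚ d jq) := by
    ext k
    by_cases hk : (d : ℤ) ∣ k
    · obtain ⟨m, rfl⟩ := hk
      rw [qExpand_coeff_mul, coeffMap_coeff, qExpand_coeff_mul, ← jqModC_rat,
        ← map_jqModC (ι.comp (algebraMap ℚ L))]
      rfl
    · rw [qExpand_coeff_of_not_dvd d _ hk, coeffMap_coeff, qExpand_coeff_of_not_dvd d _ hk,
        map_zero]
  rw [h]

theorem mem_expField_of_mem (ι : L →+* ℂ) (N : ℕ) {x : LaurentSeries L}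
    (hx : x ∈ laurentBaseChange L (modularFunctionFieldFull N)) :
    coeffMap ι x ∈ expField 1 one_pos := by
  rw [mem_laurentBaseChange_iff] at hx
  refine (Subfield.closure_le (t := (expField 1 one_pos).comap (coeffMap ι))).2 ?_ hx
  rintro _ (⟨c, rfl⟩ | ⟨y, hy, rfl⟩)
  · rw [SetLike.mem_coe, Subfield.mem_comap, coeffMap_algebraMap_laurent]
    exact ⟨_, IsExp.const (ι c)⟩
  · rw [SetLike.mem_coe, Subfield.mem_comap]
    change y ∈ modularFunctionFieldFull N at hy
    rw [modularFunctionFieldFull, ← IntermediateField.mem_toSubfield,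
      IntermediateField.adjoin_toSubfield] at hy
    refine (Subfield.closure_le
      (t := (expField 1 one_pos).comap ((coeffMap ι).comp (coeffEmb L)))).2 ?_ hy
    rintro _ (⟨c, rfl⟩ | ⟨d, hd, -, rfl⟩)
    · rw [SetLike.mem_coe, Subfield.mem_comap]
      exact ⟨MeroH.const (ι (algebraMap ℚ L c)), by
        simpa [coeffEmb, algebraMap_laurentSeries_eq_single, HahnSeries.C_apply] using
          IsExp.const (h := 1) (ι (algebraMap ℚ L c))⟩
    · rw [SetLike.mem_coe, Subfield.mem_comap]
      have := hd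
      exact ⟨_, (coeffMap_coeffEmb_qExpand ι d).symm ▸ isExp_jScale d⟩

/-- The embedding of the modular function field over `L` into the meromorphic functions on `ℍ`
given by `ι : L →+* ℂ`. -/
def embed (ι : L →+* ℂ) (N : ℕ) :
    laurentBaseChange L (modularFunctionFieldFull N) →+* MeroH :=
  (realize 1 one_pos).comp
    (((coeffMap ι).comp (SubringClass.subtype _)).codRestrict (expField 1 one_pos)
      fun x => mem_expField_of_mem ι N x.2)

variable (ι : L →+* ℂ) {N : ℕ}

theorem isExp_embed (x : laurentBaseChange L (modularFunctionFieldFull N)) :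
    IsExp 1 (embed ι N x) (coeffMap ι (x : LaurentSeries L)) :=
  isExp_realize 1 one_pos _

theorem embed_eq_iff (x : laurentBaseChange L (modularFunctionFieldFull N)) (y : MeroH) :
    embed ι N x = y ↔ IsExp 1 y (coeffMap ι (x : LaurentSeries L)) :=
  ⟨fun h => h ▸ isExp_embed ι x, fun h => ((isExp_embed ι x).unique one_pos h).1 rfl⟩

theorem embed_injective (ι : L →+* ℂ) (N : ℕ) : Function.Injective (embed ι N) :=
  (embed ι N).injective

theorem embed_algebraMap (c : L) :
    embed ι N (algebraMap L (laurentBaseChange L (modularFunctionFieldFull N)) c) =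
      MeroH.const (ι c) := by
  rw [embed_eq_iff]
  simpa [coeffMap_algebraMap_laurent] using IsExp.const (h := 1) (ι c)

theorem embed_jq (d : ℕ) [NeZero d] (hd : d ∣ N) :
    embed ι N ⟨coeffEmb L (qExpand ℚ d jq),
      coeffEmb_mem_laurentBaseChange L (jqd_mem_full N hd)⟩ = jScale d (NeZero.pos d) := by
  rw [embed_eq_iff, coeffMap_coeffEmb_qExpand]
  exact isExp_jScale d

/-- A subfield of `MeroH` containing the constants and all `j(d τ)`, `d ∣ N`, contains the image
of the embedding. -/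
theorem embed_mem_of_generators {S : Subfield MeroH} (hc : ∀ c, MeroH.const c ∈ S)
    (hj : ∀ (d : ℕ) (hd : 0 < d), d ∣ N → jScale d hd ∈ S)
    (x : laurentBaseChange L (modularFunctionFieldFull N)) : embed ι N x ∈ S := by
  have key : ∀ y : LaurentSeries L, y ∈ laurentBaseChange L (modularFunctionFieldFull N) →
      ∃ m ∈ S, IsExp 1 m (coeffMap ι y) := by
    let T : Subfield (LaurentSeries ℂ) :=
      { carrier := {s | ∃ m ∈ S, IsExp 1 m s}
        one_mem' := ⟨1, S.one_mem, IsExp.one⟩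
        zero_mem' := ⟨0, S.zero_mem, IsExp.zero⟩
        mul_mem' := fun ⟨a, ha, h⟩ ⟨b, hb, h'⟩ => ⟨a * b, S.mul_mem ha hb, h.mul h'⟩
        add_mem' := fun ⟨a, ha, h⟩ ⟨b, hb, h'⟩ => ⟨a + b, S.add_mem ha hb, h.add h'⟩
        neg_mem' := fun ⟨a, ha, h⟩ => ⟨-a, S.neg_mem ha, h.neg⟩
        inv_mem' := fun _ ⟨a, ha, h⟩ => ⟨a⁻¹, S.inv_mem ha, h.inv one_pos⟩ }
    intro y hy
    rw [mem_laurentBaseChange_iff] at hy
    refine (Subfield.closure_le (t := T.comap (coeffMap ι))).2 ?_ hy
    rintro _ (⟨c, rfl⟩ | ⟨z, hz, rfl⟩)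
    · rw [SetLike.mem_coe, Subfield.mem_comap, coeffMap_algebraMap_laurent]
      exact ⟨_, hc _, IsExp.const (ι c)⟩
    · rw [SetLike.mem_coe, Subfield.mem_comap]
      change z ∈ modularFunctionFieldFull N at hz
      rw [modularFunctionFieldFull, ← IntermediateField.mem_toSubfield,
        IntermediateField.adjoin_toSubfield] at hz
      refine (Subfield.closure_le (t := T.comap ((coeffMap ι).comp (coeffEmb L)))).2 ?_ hz
      rintro _ (⟨c, rfl⟩ | ⟨d, hd, hdN, rfl⟩)
      · rw [SetLike.mem_coe, Subfield.mem_comap]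
        exact ⟨MeroH.const (ι (algebraMap ℚ L c)), hc _, by
          simpa [coeffEmb, algebraMap_laurentSeries_eq_single, HahnSeries.C_apply] using
            IsExp.const (h := 1) (ι (algebraMap ℚ L c))⟩
      · rw [SetLike.mem_coe, Subfield.mem_comap]
        have := hd
        exact ⟨_, hj d (NeZero.pos d) hdN, (coeffMap_coeffEmb_qExpand ι d).symm ▸ isExp_jScale d⟩
  obtain ⟨m, hm, hexp⟩ := key x x.2
  rwa [(embed_eq_iff ι x m).2 hexp]

/-- Elements of the modular function field are `Γ₀(N)`-invariant. -/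
theorem slComp_embed (x : laurentBaseChange L (modularFunctionFieldFull N)) {γ : SL(2, ℤ)}
    (hγ : γ ∈ Gamma0 N) : slComp γ (embed ι N x) = embed ι N x :=
  embed_mem_of_generators (S := (slComp γ).eqLocusField (RingHom.id MeroH)) ι
    (fun c => slComp_const γ c) (fun _ hd hdN => slComp_jScale hd hdN hγ) x

/-- Elements of the modular function field are meromorphic at all cusps. -/
theorem meroAtCusps_embed [NeZero N] (x : laurentBaseChange L (modularFunctionFieldFull N)) :
    MeroAtCusps N (embed ι N x) := by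
  intro γ
  have hN : (0 : ℝ) < N := by exact_mod_cast NeZero.pos N
  let S : Subfield MeroH :=
    { carrier := {m | ∃ s, IsExp N (slComp γ m) s}
      one_mem' := ⟨1, by simpa using IsExp.one⟩
      zero_mem' := ⟨0, by simpa using IsExp.zero⟩
      mul_mem' := fun ⟨a, ha⟩ ⟨b, hb⟩ => ⟨a * b, by simpa using ha.mul hb⟩
      add_mem' := fun ⟨a, ha⟩ ⟨b, hb⟩ => ⟨a + b, by simpa using ha.add hb⟩
      neg_mem' := fun ⟨a, ha⟩ => ⟨-a, by simpa using ha.neg⟩
      inv_mem' := fun _ ⟨a, ha⟩ => ⟨a⁻¹, by simpa using ha.inv hN⟩ }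
  exact embed_mem_of_generators (S := S) ι (fun c => ⟨_, by simpa using IsExp.const c⟩)
    (fun _ hd hdN => meroAtCusps_jScale (NeZero.pos N) hd hdN γ) x

end Fermat.Agent.Kummer
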