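import Fermat.Agent.Kummer.Expansion
import Mathlib.RingTheory.Int.Basic

/-!
# Precomposition with integral matrices of positive determinant
-/

set_option autoImplicit false

noncomputable section

open Filter Topology Complex
open UpperHalfPlane hiding I continuous_im im re
open scoped MatrixGroups

namespace Fermat.Agent.Kummer

/-- An integral matrix of positive determinant in `GL(2, ℝ)`. -/
def intGL (M : Matrix (Fin 2) (Fin 2) ℤ) (hM : 0 < M.det) : GL (Fin 2) ℝ :=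
  Matrix.GeneralLinearGroup.mkOfDetNeZero (M.map (Int.cast : ℤ → ℝ)) (by
    rw [← Int.cast_det]; exact_mod_cast hM.ne')

theorem intGL_apply (M : Matrix (Fin 2) (Fin 2) ℤ) (hM : 0 < M.det) (i j : Fin 2) :
    intGL M hM i j = (M i j : ℝ) := rfl

theorem det_intGL_pos (M : Matrix (Fin 2) (Fin 2) ℤ) (hM : 0 < M.det) :
    0 < (intGL M hM).det.val := by
  rw [Matrix.GeneralLinearGroup.val_det_apply]
  change 0 < (M.map (Int.cast : ℤ → ℝ)).det
  rw [← Int.cast_det]
  exact_mod_cast hM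

theorem intGL_mul (M M' : Matrix (Fin 2) (Fin 2) ℤ) (hM : 0 < M.det) (hM' : 0 < M'.det)
    (h : 0 < (M * M').det) : intGL (M * M') h = intGL M hM * intGL M' hM' := by
  ext i j
  simp [intGL_apply, Matrix.mul_apply, Fin.sum_univ_two]

theorem intGL_coe (γ : SL(2, ℤ)) (h : 0 < (γ : Matrix (Fin 2) (Fin 2) ℤ).det) :
    intGL (γ : Matrix (Fin 2) (Fin 2) ℤ) h = (γ : GL (Fin 2) ℝ) := by
  ext i j
  rfl

namespace MeroH

theorem moeb_intGL {M : Matrix (Fin 2) (Fin 2) ℤ} (hM : 0 < M.det) {z : ℂ} (hz : z ∈ uhp) :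
    moeb (intGL M hM) z = (M 0 0 * z + M 0 1) / (M 1 0 * z + M 1 1) := by
  rw [moeb, coe_smul_of_det_pos (det_intGL_pos M hM), ofComplex_apply_of_im_pos hz]
  simp [UpperHalfPlane.num, UpperHalfPlane.denom, intGL_apply]

/-- Precomposition with an integral matrix of positive determinant. -/
def intComp (M : Matrix (Fin 2) (Fin 2) ℤ) (hM : 0 < M.det) : MeroH →+* MeroH :=
  comp (intGL M hM) (det_intGL_pos M hM)

theorem intComp_mk {M : Matrix (Fin 2) (Fin 2) ℤ} (hM : 0 < M.det) {f : ℂ → ℂ}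
    (hf : MeromorphicOn f uhp) :
    intComp M hM (mk f hf) = mk (f ∘ moeb (intGL M hM))
      (fun z hz => (hf _ (moeb_mem _ z)).comp_analyticAt
        (analyticAt_moeb (det_intGL_pos M hM) hz)) := rfl

theorem intComp_congr {M M' : Matrix (Fin 2) (Fin 2) ℤ} (hM : 0 < M.det) (hM' : 0 < M'.det)
    (h : M = M') (x : MeroH) : intComp M hM x = intComp M' hM' x := by
  subst h; rfl

@[simp]
theorem intComp_const {M : Matrix (Fin 2) (Fin 2) ℤ} (hM : 0 < M.det) (c : ℂ) :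
    intComp M hM (const c) = const c := rfl

theorem intComp_intComp {M M' : Matrix (Fin 2) (Fin 2) ℤ} (hM : 0 < M.det) (hM' : 0 < M'.det)
    (h : 0 < (M * M').det) (x : MeroH) :
    intComp M' hM' (intComp M hM x) = intComp (M * M') h x := by
  obtain ⟨f, hf, rfl⟩ := exists_rep x
  rw [intComp_mk, intComp_mk, intComp_mk]
  refine mk_congr _ _ fun z _ => ?_
  simp [intGL_mul M M' hM hM' h, moeb_mul]

theorem intComp_coe (γ : SL(2, ℤ)) (h : 0 < (γ : Matrix (Fin 2) (Fin 2) ℤ).det) (x : MeroH) :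
    intComp (γ : Matrix (Fin 2) (Fin 2) ℤ) h x = slComp γ x := by
  obtain ⟨f, hf, rfl⟩ := exists_rep x
  rw [intComp_mk, slComp_mk]
  exact mk_congr _ _ fun z _ => by rw [intGL_coe]

/-- Left multiplication by `SL(2, ℤ)` makes an integral matrix upper triangular. -/
theorem exists_sl_mul_upper (M : Matrix (Fin 2) (Fin 2) ℤ) (hM : 0 < M.det) :
    ∃ (γ : SL(2, ℤ)) (a b d : ℤ), 0 < a ∧ 0 < d ∧ a * d = M.det ∧
      M = (γ : Matrix (Fin 2) (Fin 2) ℤ) * !![a, b; 0, d] := by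
  have hdet : M.det = M 0 0 * M 1 1 - M 0 1 * M 1 0 := Matrix.det_fin_two M
  set g : ℕ := Int.gcd (M 0 0) (M 1 0) with hg
  have hg0 : 0 < g := by
    rw [hg, Int.gcd_pos_iff]
    by_contra h
    push Not at h
    rw [hdet, h.1, h.2] at hM
    simp at hM
  have hgZ : (0 : ℤ) < g := by exact_mod_cast hg0
  obtain ⟨p, hp⟩ : (g : ℤ) ∣ M 0 0 := Int.gcd_dvd_left _ _
  obtain ⟨r, hr⟩ : (g : ℤ) ∣ M 1 0 := Int.gcd_dvd_right _ _
  set u := Int.gcdA (M 0 0) (M 1 0)
  set v := Int.gcdB (M 0 0) (M 1 0)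
  have hb : (g : ℤ) = M 0 0 * u + M 1 0 * v := Int.gcd_eq_gcd_ab _ _
  have h1 : p * u + r * v = 1 := by
    have h := hb
    rw [hp, hr] at h
    have : (g : ℤ) * (p * u + r * v) = g * 1 := by linear_combination -h
    exact mul_left_cancel₀ hgZ.ne' this
  have hdd : (g : ℤ) * (p * M 1 1 - r * M 0 1) = M.det := by
    rw [hdet, hp, hr]; ring
  refine ⟨⟨!![p, -v; r, u], by rw [Matrix.det_fin_two_of]; linear_combination h1⟩, g,
    u * M 0 1 + v * M 1 1, p * M 1 1 - r * M 0 1, hgZ, ?_, hdd, ?_⟩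
  · exact pos_of_mul_pos_right (hdd ▸ hM) hgZ.le
  · ext i j
    fin_cases i <;> fin_cases j <;> simp [Matrix.mul_apply, Fin.sum_univ_two]
    · rw [hp]; ring
    · linear_combination (-(M 0 1)) * h1
    · rw [hr]; ring
    · linear_combination (-(M 1 1)) * h1

theorem det_upper_pos {a b d : ℤ} (ha : 0 < a) (hd : 0 < d) :
    0 < (!![a, b; 0, d] : Matrix (Fin 2) (Fin 2) ℤ).det := by
  rw [Matrix.det_fin_two_of, mul_zero, sub_zero]
  exact mul_pos ha hd

/-- Expansion after `z ↦ (a z + b) / d`. -/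
theorem IsExp.intComp_upper {x : MeroH} {s : LaurentSeries ℂ} (hx : IsExp 1 x s) {a b d : ℤ}
    (ha : 0 < a) (hd : 0 < d) {h e : ℕ} (hh : 0 < h) (he : a * h = d * e) :
    ∃ t, IsExp h (intComp !![a, b; 0, d] (det_upper_pos ha hd) x) t ∧
      (∀ k, t.coeff ((e : ℤ) * k) =
        Function.Periodic.qParam 1 ((b : ℂ) / d) ^ k * s.coeff k) ∧
      ∀ k, ¬ (e : ℤ) ∣ k → t.coeff k = 0 := by
  have hepos : 0 < e := by
    rcases Nat.eq_zero_or_pos e with h0 | h0
    · subst h0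
      simp only [Nat.cast_zero, mul_zero] at he
      have : (0 : ℤ) < a * h := mul_pos ha (by exact_mod_cast hh)
      omega
    · exact h0
  obtain ⟨F, hF, ex⟩ := hx
  obtain ⟨t1, ht1, ht1c⟩ :=
    hF.comp_mul_left (Function.Periodic.qParam_ne_zero (h := 1) ((b : ℂ) / d))
  obtain ⟨t, ht, htc, htz⟩ := ht1.comp_pow hepos.ne'
  refine ⟨t, ⟨_, ht, ?_⟩, fun k => by rw [htc, ht1c], htz⟩
  obtain ⟨f, hf, rfl⟩ := exists_rep x
  rw [res_mk, Germ.coe_eq] at ex
  rw [intComp_mk, res_mk, Germ.coe_eq]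
  obtain ⟨A, hA0, hA⟩ := exists_nhdsNE_of_eventually_cuspFilter ex
  have hM := det_upper_pos (b := b) ha hd
  have hmoeb : ∀ w ∈ uhp, moeb (intGL !![a, b; 0, d] hM) w = ((a : ℂ) * w + b) / d := fun w hw => by
    rw [moeb_intGL hM hw]; simp
  refine eventually_cuspFilter_of_nhdsNE ((d : ℝ) / a * A) fun z hz hzA => ?_
  have h1 := hA (moeb (intGL !![a, b; 0, d] hM) z) (by
    rw [hmoeb z hz]
    have : (((a : ℂ) * z + b) / d).im = (a : ℝ) * z.im / d := by
      simp [Complex.div_im, Complex.normSq_apply]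
      field_simp
    rw [this, lt_div_iff₀ (by exact_mod_cast hd)]
    have ha' : (0 : ℝ) < a := by exact_mod_cast ha
    rw [div_mul_eq_mul_div, div_lt_iff₀ ha'] at hzA
    linarith)
  filter_upwards [(tendsto_moeb_nhdsNE (det_intGL_pos _ hM) hz).eventually h1,
    mem_nhdsWithin_of_mem_nhds (isOpen_uhp.mem_nhds hz)] with w hw hwu
  simp only [Function.comp_apply] at hw ⊢
  rw [hw, hmoeb w hwu]
  congr 1
  simp only [Function.Periodic.qParam, ← Complex.exp_nat_mul, ← Complex.exp_add]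
  congr 1
  have hd0 : (d : ℂ) ≠ 0 := by exact_mod_cast hd.ne'
  have hh0 : (h : ℂ) ≠ 0 := by exact_mod_cast hh.ne'
  have he' : (a : ℂ) * h = d * e := by exact_mod_cast he
  push_cast
  field_simp
  linear_combination w * he'

/-- `x` is meromorphic at every cusp, in the parameter of width `h`. -/
def MeroAtCusps (h : ℕ) (x : MeroH) : Prop :=
  ∀ γ : SL(2, ℤ), ∃ s, IsExp h (slComp γ x) s

/-- A `SL(2, ℤ)`-invariant element, composed with an integral matrix of determinant dividing `h`,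
is meromorphic at all cusps with width `h`. -/
theorem meroAtCusps_intComp {x : MeroH} {s : LaurentSeries ℂ} (hx : IsExp 1 x s)
    (hinv : ∀ γ : SL(2, ℤ), slComp γ x = x) {h : ℕ} (hh : 0 < h) (M : Matrix (Fin 2) (Fin 2) ℤ)
    (hM : 0 < M.det) (hdvd : M.det ∣ h) : MeroAtCusps h (intComp M hM x) := by
  intro γ
  have hγ : 0 < (γ : Matrix (Fin 2) (Fin 2) ℤ).det := by
    rw [γ.2]; exact one_pos
  have hMγ : 0 < (M * (γ : Matrix (Fin 2) (Fin 2) ℤ)).det := by
    rw [Matrix.det_mul, γ.2, mul_one]; exact hM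
  obtain ⟨δ, a, b, d, ha, hd, had, heq⟩ :=
    exists_sl_mul_upper (M * (γ : Matrix (Fin 2) (Fin 2) ℤ)) hMγ
  rw [Matrix.det_mul, γ.2, mul_one] at had
  obtain ⟨q, hq⟩ := hdvd
  have hq0 : 0 < q := pos_of_mul_pos_right (by rw [← hq]; exact_mod_cast hh) hM.le
  obtain ⟨t, ht, -, -⟩ := hx.intComp_upper (b := b) ha hd (h := h) (e := (a ^ 2 * q).toNat) hh (by
    rw [Int.toNat_of_nonneg (mul_nonneg (sq_nonneg a) hq0.le), hq, ← had]; ring)
  refine ⟨t, ?_⟩
  rw [← intComp_coe γ hγ, intComp_intComp hM hγ hMγ, intComp_congr hMγ (heq ▸ hMγ) heq,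
    ← intComp_intComp (by rw [δ.2]; exact one_pos) (det_upper_pos ha hd), intComp_coe, hinv]
  exact ht

end MeroH

end Fermat.Agent.Kummer
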