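import Fermat.Agent.Kummer.Embed
import Mathlib.NumberTheory.Modular
import Mathlib.NumberTheory.ModularForms.LevelOne.Basic
import Fermat.Prelude.Thm_ModularCurve_coeff_jqModC_neg_one
import Fermat.Prelude.Thm_ModularCurve_coeff_jqModC_pow_of_lt

/-!
# Invariant meromorphic functions are rational in `j(τ)` and `j(Nτ)`

An element of `MeroH` invariant under `Γ₀(N)` and meromorphic at all cusps lies in the modular
function field over `ℂ`.
-/

set_option autoImplicit false

noncomputable section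

open Filter Topology Complex
open UpperHalfPlane hiding I continuous_im im re
open CongruenceSubgroup
open scoped MatrixGroups Manifold ModularForm

namespace Fermat.Agent.Kummer

namespace MeroH

/-- Expansion of `j` in `exp (2 π i z / N)`. -/
theorem exists_isExp_jMero (N : ℕ) [NeZero N] :
    ∃ t, IsExp N jMero t ∧ t.coeff (-(N : ℤ)) = 1 ∧ ∀ m, m < -(N : ℤ) → t.coeff m = 0 := by
  obtain ⟨t, ht, htc, htz⟩ := isExp_jMero.intComp_upper (a := 1) (b := 0) (d := 1) one_pos one_pos
    (h := N) (e := N) (NeZero.pos N) rfl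
  have h1 : intComp !![(1 : ℤ), 0; 0, 1] (det_upper_pos one_pos one_pos) jMero = jMero := by
    rw [intComp_congr _ (by simp) (show (!![(1 : ℤ), 0; 0, 1] : Matrix (Fin 2) (Fin 2) ℤ) =
      ((1 : SL(2, ℤ)) : Matrix (Fin 2) (Fin 2) ℤ) by simp [Matrix.one_fin_two]), intComp_coe,
      slComp_jMero]
  rw [h1] at ht
  refine ⟨t, ht, ?_, fun m hm => ?_⟩
  · rw [show -(N : ℤ) = (N : ℤ) * (-1) by ring, htc]
    simp [Function.Periodic.qParam, ModularCurve.coeff_jqModC_neg_one]
  · by_cases hd : (N : ℤ) ∣ m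
    · obtain ⟨k, rfl⟩ := hd
      rw [htc]
      have hk : k < -1 := by
        by_contra hk
        push Not at hk
        nlinarith [(show (0 : ℤ) < N by exact_mod_cast NeZero.pos N)]
      have h0 := ModularCurve.coeff_jqModC_pow_of_lt ℂ (b := 1) (m := k) (by simpa using hk)
      rw [pow_one] at h0
      rw [h0, mul_zero]
    · exact htz m hd

theorem mdifferentiable_nf {x : MeroH} (hhol : ∀ z ∈ uhp, 0 ≤ ordAt x z) :
    ∃ (φ : ℍ → ℂ) (hφ : MDiff φ), ofHol φ hφ = x := by
  obtain ⟨f, hf, rfl⟩ := exists_rep x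
  set F := toMeromorphicNFOn f uhp
  have hFan : ∀ z ∈ uhp, AnalyticAt ℂ F z := fun z hz => by
    have hn : MeromorphicNFAt F z := meromorphicNFOn_toMeromorphicNFOn f uhp hz
    refine hn.meromorphicOrderAt_nonneg_iff_analyticAt.1 ?_
    change 0 ≤ meromorphicOrderAt (toMeromorphicNFOn f uhp) z
    rw [meromorphicOrderAt_congr (hf.toMeromorphicNFOn_eq_self_on_nhdsNE hz), ← ordAt_mk hf hz]
    exact hhol z hz
  have hφ : MDiff (fun τ : ℍ => F τ) := by
    rw [UpperHalfPlane.mdifferentiable_iff]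
    intro z hz
    refine ((hFan z hz).differentiableAt.congr_of_eventuallyEq ?_).differentiableWithinAt
    filter_upwards [isOpen_uhp.mem_nhds hz] with w hw
    simp [ofComplex_apply_of_im_pos hw]
  refine ⟨fun τ => F τ, hφ, ?_⟩
  rw [ofHol, mk_eq_mk_iff]
  intro z hz
  filter_upwards [hf.toMeromorphicNFOn_eq_self_on_nhdsNE hz,
    mem_nhdsWithin_of_mem_nhds (isOpen_uhp.mem_nhds hz)] with w hw hwu
  simp only [Function.comp_apply, ofComplex_apply_of_im_pos hwu]
  exact hw

theorem eq_of_ofHol_eq {φ ψ : ℍ → ℂ} {hφ : MDiff φ} {hψ : MDiff ψ}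
    (h : ofHol φ hφ = ofHol ψ hψ) : φ = ψ := by
  funext τ
  have h1 := mk_eq_mk_iff.1 h τ τ.im_pos
  have hc : ∀ g : ℍ → ℂ, MDiff g →
      Tendsto (g ∘ ofComplex) (𝓝[≠] (τ : ℂ)) (𝓝 (g τ)) := fun g hg => by
    have := (((UpperHalfPlane.mdifferentiable_iff.1 hg).differentiableAt
      (isOpen_uhp.mem_nhds τ.im_pos)).continuousAt.tendsto).mono_left
        (nhdsWithin_le_nhds (s := {(τ : ℂ)}ᶜ))
    simpa [ofComplex_apply] using this
  exact tendsto_nhds_unique (hc φ hφ) ((hc ψ hψ).congr' h1.symm)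

/-- A holomorphic invariant element with non negative order at infinity is constant. -/
theorem exists_eq_const {x : MeroH} (hinv : ∀ γ : SL(2, ℤ), slComp γ x = x)
    (hhol : ∀ z ∈ uhp, 0 ≤ ordAt x z) {h : ℝ} (hh : 0 < h) {s : LaurentSeries ℂ}
    (hx : IsExp h x s) (hs : ∀ m < (0 : ℤ), s.coeff m = 0) : ∃ c, x = const c := by
  obtain ⟨φ, hφ, rfl⟩ := mdifferentiable_nf hhol
  have hinv' : ∀ (γ : SL(2, ℤ)) (τ : ℍ), φ (γ • τ) = φ τ := by
    intro γ τ
    have hd : MDiff (fun τ : ℍ => φ (γ • τ)) :=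
      hφ.comp (mdifferentiable_smul (det_SL_pos γ))
    have h2 : slComp γ (ofHol φ hφ) = ofHol (fun τ : ℍ => φ (γ • τ)) hd := by
      rw [ofHol, ofHol, slComp_mk]
      refine mk_congr _ _ fun z _ => ?_
      simp [moeb, ofComplex_apply]
    exact congrFun (eq_of_ofHol_eq (h2.symm.trans (hinv γ))) τ
  obtain ⟨F, hF, ex⟩ := hx
  rw [ofHol, res_mk, Germ.coe_eq] at ex
  -- `F` tends to a limit at `0`
  obtain ⟨n, g, hg, hFg, hser⟩ := hF
  have hlim : ∃ l, Tendsto F (𝓝[≠] 0) (𝓝 l) := by
    have hord : 0 ≤ meromorphicOrderAt F 0 := by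
      by_contra hlt
      push Not at hlt
      have hFm : MeromorphicAt F 0 :=
        HasLaurent.meromorphicAt (s := s) ⟨n, g, hg, hFg, hser⟩
      obtain ⟨m, hm⟩ := WithTop.ne_top_iff_exists.1 hlt.ne_top
      obtain ⟨g', hg', hg'0, hFg'⟩ := (meromorphicOrderAt_eq_int_iff hFm).1 hm.symm
      have e2 : HasLaurent F (shiftSeries m (taylor g')) :=
        ⟨m, g', hg', EventuallyEq.trans hFg' (Eventually.of_forall fun z => by simp), rfl⟩
      have e1 : HasLaurent F s := ⟨n, g, hg, hFg, hser⟩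
      have hse : s = shiftSeries m (taylor g') := (e1.unique e2).1 (EventuallyEq.refl _ _)
      have hm0 : m < 0 := by rw [← hm] at hlt; exact_mod_cast hlt
      have := hs m hm0
      rw [hse, shiftSeries, HahnSeries.coeff_single_mul, one_mul, sub_self,
        show (0 : ℤ) = ((0 : ℕ) : ℤ) from rfl, HahnSeries.ofPowerSeries_apply_coeff,
        PowerSeries.coeff_zero_eq_constantCoeff, constantCoeff_taylor] at this
      exact hg'0 this
    exact (tendsto_nhds_iff_meromorphicOrderAt_nonneg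
      (HasLaurent.meromorphicAt (s := s) ⟨n, g, hg, hFg, hser⟩)).2 hord
  obtain ⟨l, hl⟩ := hlim
  obtain ⟨A, hA0, hA⟩ := exists_nhdsNE_of_eventually_cuspFilter ex
  have heq : ∀ τ : ℍ, A < τ.im → (∀ q, q = Function.Periodic.qParam h τ → ContinuousAt F q) →
      φ τ = F (Function.Periodic.qParam h τ) := by
    intro τ hτ hc
    have hev := hA τ hτ
    have h1 : Tendsto (φ ∘ ofComplex) (𝓝[≠] (τ : ℂ)) (𝓝 (φ τ)) := by
      have := (((UpperHalfPlane.mdifferentiable_iff.1 hφ).differentiableAt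
        (isOpen_uhp.mem_nhds τ.im_pos)).continuousAt.tendsto).mono_left
          (nhdsWithin_le_nhds (s := {(τ : ℂ)}ᶜ))
      simpa [ofComplex_apply] using this
    have h2 : Tendsto (F ∘ Function.Periodic.qParam h) (𝓝[≠] (τ : ℂ))
        (𝓝 (F (Function.Periodic.qParam h τ))) :=
      ((hc _ rfl).comp
        Function.Periodic.differentiable_qParam.continuous.continuousAt).tendsto.mono_left
        nhdsWithin_le_nhds
    exact tendsto_nhds_unique h1 (h2.congr' (hev.mono fun w hw => hw.symm))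
  have han : ∀ᶠ q in 𝓝[≠] (0 : ℂ), ContinuousAt F q :=
    (HasLaurent.meromorphicAt (s := s) ⟨n, g, hg, hFg, hser⟩).eventually_continuousAt
  obtain ⟨B, hB⟩ := exists_of_eventually_imAtTop
    ((Function.Periodic.qParam_tendsto hh).eventually han)
  have hbdd : IsBoundedAtImInfty φ := by
    have h1 : Tendsto φ atImInfty (𝓝 l) := by
      refine Tendsto.congr' ?_ (hl.comp ((Function.Periodic.qParam_tendsto hh).comp
        (show Tendsto ((↑) : ℍ → ℂ) atImInfty imAtTop from ?_)))
      · filter_upwards [(atImInfty_mem _).2 ⟨max A B + 1, fun τ hτ => hτ⟩] with τ hτ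
        have : max A B < τ.im := by
          have : max A B + 1 ≤ τ.im := hτ
          linarith
        exact (heq τ (lt_of_le_of_lt (le_max_left _ _) this)
          (fun q hq => hq ▸ hB τ (lt_of_le_of_lt (le_max_right _ _) this))).symm
      · rw [tendsto_comap_iff]
        exact tendsto_comap
    exact h1.isBigO_one ℝ
  let M : ModularForm 𝒮ℒ 0 :=
    { toFun := φ
      slash_action_eq' := by
        rintro _ ⟨γ, rfl⟩
        funext τ
        change (φ ∣[(0 : ℤ)] γ) τ = φ τ
        rw [ModularForm.SL_slash_apply, hinv', neg_zero, zpow_zero, mul_one]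
      holo' := hφ
      bdd_at_cusps' := by
        intro c hc
        rw [Subgroup.IsArithmetic.isCusp_iff_isCusp_SL2Z] at hc
        rw [OnePoint.isBoundedAt_iff_forall_SL2Z hc]
        intro γ _
        have : φ ∣[(0 : ℤ)] γ = φ := by
          funext τ
          rw [ModularForm.SL_slash_apply, hinv', neg_zero, zpow_zero, mul_one]
        rw [this]
        exact hbdd }
  obtain ⟨c, hc⟩ := ModularFormClass.levelOne_weight_zero_const M
  refine ⟨c, ?_⟩
  rw [ofHol, const_apply]
  exact mk_congr _ _ fun z _ => by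
    simp only [Function.comp_apply]
    exact congrFun hc _

/-- `ℂ(j)`. -/
def jField : Subfield MeroH := Subfield.closure (Set.range const ∪ {jMero})

theorem jMero_mem_jField : jMero ∈ jField := Subfield.subset_closure (Or.inr rfl)

theorem const_mem_jField (c : ℂ) : const c ∈ jField := Subfield.subset_closure (Or.inl ⟨c, rfl⟩)

theorem ordAt_jMero_nonneg {z : ℂ} (hz : z ∈ uhp) : 0 ≤ ordAt jMero z := by
  rw [jMero, ofHol, ordAt_mk _ hz]
  exact (((UpperHalfPlane.mdifferentiable_iff.1
    Fermat.Agent.LevelOne.mdifferentiable_jFun).analyticOnNhd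
      isOpen_uhp) z hz).meromorphicOrderAt_nonneg

theorem ordAt_const_nonneg (c : ℂ) {z : ℂ} (hz : z ∈ uhp) : 0 ≤ ordAt (const c) z := by
  rcases eq_or_ne c 0 with rfl | hc
  · rw [map_zero, ordAt_zero hz]; exact le_top
  · rw [ordAt_const hc hz]

theorem ordAt_pow_nonneg {x : MeroH} {z : ℂ} (hz : z ∈ uhp) (h : 0 ≤ ordAt x z) (k : ℕ) :
    0 ≤ ordAt (x ^ k) z := by
  induction k with
  | zero => rw [pow_zero, ordAt_one hz]
  | succ k ih => rw [pow_succ, ordAt_mul _ _ hz]; exact add_nonneg ih h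

/-- A holomorphic invariant element which is meromorphic at infinity is a polynomial in `j`. -/
theorem mem_jField_of_holomorphic {x : MeroH} (hinv : ∀ γ : SL(2, ℤ), slComp γ x = x)
    (hhol : ∀ z ∈ uhp, 0 ≤ ordAt x z) (N : ℕ) [NeZero N] {s : LaurentSeries ℂ}
    (hx : IsExp N x s) : x ∈ jField := by
  have hN : (0 : ℝ) < N := by exact_mod_cast NeZero.pos N
  obtain ⟨t, ht, htlead, htlow⟩ := exists_isExp_jMero N
  suffices H : ∀ (b : ℕ) (x : MeroH) (s : LaurentSeries ℂ), (∀ γ : SL(2, ℤ), slComp γ x = x) →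
      (∀ z ∈ uhp, 0 ≤ ordAt x z) → IsExp N x s → (∀ m < -(b : ℤ), s.coeff m = 0) → x ∈ jField by
    refine H (-s.order).toNat x s hinv hhol hx fun m hm => HahnSeries.coeff_eq_zero_of_lt_order ?_
    omega
  intro b
  induction b with
  | zero =>
    intro x s hinv hhol hx hlow
    obtain ⟨c, rfl⟩ := exists_eq_const hinv hhol hN hx (by simpa using hlow)
    exact const_mem_jField c
  | succ b ih =>
    intro x s hinv hhol hx hlow
    by_cases hc : s.coeff (-((b : ℤ) + 1)) = 0
    · refine ih x s hinv hhol hx fun m hm => ?_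
      rcases lt_or_eq_of_le (show m ≤ -((b : ℤ) + 1) by omega) with h | h
      · exact hlow m (by push_cast; omega)
      · rw [h]; exact hc
    · have hs : s ≠ 0 := fun h => hc (by rw [h]; simp)
      have hord : s.order = -((b : ℤ) + 1) := by
        refine le_antisymm (HahnSeries.order_le_of_coeff_ne_zero hc) ?_
        by_contra hlt
        push Not at hlt
        exact HahnSeries.coeff_order_eq_zero.not.2 hs (hlow _ (by push_cast; omega))
      have hω := hx.eq_qParam_zpow_order hN hs (k := 1) (c := 1)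
        (by rw [zpow_one, hinv, map_one, one_mul])
      obtain ⟨m, hm⟩ : (N : ℤ) ∣ s.order := by
        have hprim := Complex.isPrimitiveRoot_exp N (NeZero.ne N)
        refine (hprim.zpow_eq_one_iff_dvd _).1 ?_
        rw [hω]
        simp [Function.Periodic.qParam]
      have hm0 : m < 0 := by
        by_contra hm0
        push Not at hm0
        have : 0 ≤ (N : ℤ) * m := mul_nonneg (by omega) hm0
        omega
      obtain ⟨k, hk⟩ : ∃ k : ℕ, m = -(k : ℤ) := ⟨(-m).toNat, by omega⟩
      have hbk : (b : ℤ) + 1 = N * k := by rw [hm, hk] at hord; linarith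
      set c := s.coeff (-((b : ℤ) + 1)) with hcdef
      have hy : IsExp N (x - const c * jMero ^ k) (s - HahnSeries.C c * t ^ k) :=
        hx.sub ((IsExp.const c).mul (ht.pow k))
      have ht0 : t ≠ 0 := fun h => by rw [h] at htlead; simp at htlead
      have htord : t.order = -(N : ℤ) := by
        refine le_antisymm
          (HahnSeries.order_le_of_coeff_ne_zero (by rw [htlead]; exact one_ne_zero)) ?_
        by_contra hlt
        push Not at hlt
        exact HahnSeries.coeff_order_eq_zero.not.2 ht0 (htlow _ hlt)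
      have hpord : (t ^ k).order = -((b : ℤ) + 1) := by
        rw [HahnSeries.order_pow, htord, hbk, nsmul_eq_mul]; ring
      have hplead : (t ^ k).coeff (-((b : ℤ) + 1)) = 1 := by
        have hl : ∀ j : ℕ, (t ^ j).leadingCoeff = 1 := by
          intro j
          induction j with
          | zero => simp
          | succ j ihj =>
            rw [pow_succ, HahnSeries.leadingCoeff_mul, ihj, one_mul, HahnSeries.leadingCoeff_eq,
              htord, htlead]
        rw [← hpord, ← HahnSeries.leadingCoeff_eq, hl]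
      have hmem := ih _ _
        (fun γ => by rw [map_sub, map_mul, map_pow, slComp_const, slComp_jMero, hinv])
        (fun z hz => by
          rw [sub_eq_add_neg]
          refine le_trans (le_min (hhol z hz) ?_) (ordAt_add _ _ hz)
          rw [ordAt_neg _ hz, ordAt_mul _ _ hz]
          exact add_nonneg (ordAt_const_nonneg c hz)
            (ordAt_pow_nonneg hz (ordAt_jMero_nonneg hz) k))
        hy (fun i hi => by
          rw [HahnSeries.coeff_sub, HahnSeries.C_mul_eq_smul, HahnSeries.coeff_smul, smul_eq_mul]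
          rcases lt_or_eq_of_le (show i ≤ -((b : ℤ) + 1) by omega) with h | h
          · rw [hlow i (by push_cast; omega),
              HahnSeries.coeff_eq_zero_of_lt_order (hpord.symm ▸ h), mul_zero, sub_zero]
          · rw [h, hplead, mul_one, ← hcdef, sub_self])
      have := jField.add_mem hmem (jField.mul_mem (const_mem_jField c) (pow_mem jMero_mem_jField k))
      rwa [sub_add_cancel] at this

/-- An invariant element which is meromorphic at infinity lies in `ℂ(j)`. -/
theorem mem_jField {x : MeroH} (hinv : ∀ γ : SL(2, ℤ), slComp γ x = x) (N : ℕ) [NeZero N]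
    {s : LaurentSeries ℂ} (hx : IsExp N x s) : x ∈ jField := by
  by_cases hx0 : x = 0
  · rw [hx0]; exact zero_mem _
  have hN : (0 : ℝ) < N := by exact_mod_cast NeZero.pos N
  obtain ⟨F, hF, ex⟩ := hx
  obtain ⟨f, hf, rfl⟩ := exists_rep x
  rw [res_mk, Germ.coe_eq] at ex
  obtain ⟨A, hA0, hA⟩ := exists_nhdsNE_of_eventually_cuspFilter ex
  obtain ⟨B, hB⟩ := exists_of_eventually_imAtTop ((Function.Periodic.qParam_tendsto hN).eventually
    hF.meromorphicAt.eventually_analyticAt)
  have hhigh : ∀ z : ℂ, max A B < z.im → 0 ≤ ordAt (mk f hf) z := by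
    intro z hz
    have hz' : z ∈ uhp := lt_of_le_of_lt (hA0.trans (le_max_left A B)) hz
    rw [ordAt_mk hf hz', meromorphicOrderAt_congr (hA z (lt_of_le_of_lt (le_max_left _ _) hz))]
    exact ((hB z (lt_of_le_of_lt (le_max_right _ _) hz)).comp
      (Function.Periodic.differentiable_qParam.analyticAt z)).meromorphicOrderAt_nonneg
  set T := ((↑) : ℍ → ℂ) '' ModularGroup.truncatedFundamentalDomain (max A B)
  have hT : IsCompact T :=
    (ModularGroup.isCompact_truncatedFundamentalDomain _).image UpperHalfPlane.continuous_coe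
  have hTsub : T ⊆ uhp := by rintro _ ⟨τ, -, rfl⟩; exact τ.im_pos
  have hfin := (MeromorphicOn.divisor f T).finiteSupport hT
  set e : ℂ → ℕ := fun p => (-(MeromorphicOn.divisor f T p)).toNat
  set Q : MeroH :=
    ∏ p ∈ hfin.toFinset, (jMero - const (Fermat.Agent.LevelOne.jFun (ofComplex p))) ^ e p
  have hfac : ∀ (c : ℂ) (z : ℂ), z ∈ uhp → 0 ≤ ordAt (jMero - const c) z := fun c z hz => by
    rw [sub_eq_add_neg]
    refine le_trans (le_min (ordAt_jMero_nonneg hz) ?_) (ordAt_add _ _ hz)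
    rw [ordAt_neg _ hz]; exact ordAt_const_nonneg c hz
  have hfacinv : ∀ (c : ℂ) (γ : SL(2, ℤ)), slComp γ (jMero - const c) = jMero - const c :=
    fun c γ => by rw [map_sub, slComp_jMero, slComp_const]
  have hfac1 : ∀ p ∈ uhp,
      1 ≤ ordAt (jMero - const (Fermat.Agent.LevelOne.jFun (ofComplex p))) p := by
    intro p hp
    rw [jMero, ofHol, const_apply, mk_sub, ordAt_mk _ hp]
    have ha : AnalyticAt ℂ ((Fermat.Agent.LevelOne.jFun ∘ ofComplex) -
        fun _ => Fermat.Agent.LevelOne.jFun (ofComplex p)) p :=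
      ((((UpperHalfPlane.mdifferentiable_iff.1
        Fermat.Agent.LevelOne.mdifferentiable_jFun).analyticOnNhd isOpen_uhp) p hp)).sub
          analyticAt_const
    have hpos : (0 : WithTop ℤ) < meromorphicOrderAt ((Fermat.Agent.LevelOne.jFun ∘ ofComplex) -
        fun _ => Fermat.Agent.LevelOne.jFun (ofComplex p)) p := by
      rw [← tendsto_zero_iff_meromorphicOrderAt_pos ha.meromorphicAt]
      have := ha.continuousAt.tendsto.mono_left (nhdsWithin_le_nhds (s := ({p} : Set ℂ)ᶜ))
      simpa using this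
    revert hpos
    cases meromorphicOrderAt ((Fermat.Agent.LevelOne.jFun ∘ ofComplex) -
        fun _ => Fermat.Agent.LevelOne.jFun (ofComplex p)) p with
    | top => intro _; exact le_top
    | coe a => intro h; exact_mod_cast h
  have hQinv : ∀ γ : SL(2, ℤ), slComp γ Q = Q := fun γ => by
    simp only [Q, map_prod, map_pow, hfacinv]
  have hord : ∀ z ∈ uhp, 0 ≤ ordAt (mk f hf * Q) z := by
    suffices H : ∀ τ ∈ ModularGroup.fd, 0 ≤ ordAt (mk f hf * Q) (τ : ℂ) by
      intro z hz
      obtain ⟨γ, hγ⟩ := ModularGroup.exists_smul_mem_fd ⟨z, hz⟩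
      have h := H _ hγ
      have hmoeb : moeb (γ : GL (Fin 2) ℝ) z = ((γ • (⟨z, hz⟩ : ℍ) : ℍ) : ℂ) := by
        rw [moeb, ofComplex_apply_of_im_pos hz]; rfl
      rw [← hmoeb, ← ordAt_comp _ (det_SL_pos γ) _ hz] at h
      change 0 ≤ ordAt (slComp γ (mk f hf * Q)) z at h
      rwa [map_mul, hinv, hQinv] at h
    intro τ hτ
    have hτu : (τ : ℂ) ∈ uhp := τ.im_pos
    have hQ0 : ∀ s : Finset ℂ, 0 ≤ ordAt
        (∏ p ∈ s, (jMero - const (Fermat.Agent.LevelOne.jFun (ofComplex p))) ^ e p) (τ : ℂ) := by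
      intro s
      induction s using Finset.induction with
      | empty => rw [Finset.prod_empty, ordAt_one hτu]
      | insert a s ha ih =>
        rw [Finset.prod_insert ha, ordAt_mul _ _ hτu]
        exact add_nonneg (ordAt_pow_nonneg hτu (hfac _ _ hτu) _) ih
    rw [ordAt_mul _ _ hτu]
    rcases le_or_gt 0 (ordAt (mk f hf) (τ : ℂ)) with h0 | h0
    · exact add_nonneg h0 (hQ0 _)
    have himle : τ.im ≤ max A B := not_lt.1 fun h => (not_le.2 h0) (hhigh τ h)
    have hτT : (τ : ℂ) ∈ T := ⟨τ, ⟨hτ, himle⟩, rfl⟩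
    obtain ⟨v, hv⟩ := WithTop.ne_top_iff_exists.1 h0.ne_top
    have hdiv : MeromorphicOn.divisor f T (τ : ℂ) = v := by
      rw [MeromorphicOn.divisor_apply (hf.mono_set hTsub) hτT, ← ordAt_mk hf hτu, ← hv,
        WithTop.untop₀_coe]
    have hv0 : v < 0 := by rw [← hv] at h0; exact_mod_cast h0
    have hmem : (τ : ℂ) ∈ hfin.toFinset := by
      rw [Set.Finite.mem_toFinset, Function.mem_support, hdiv]; exact hv0.ne
    simp only [Q]
    rw [← Finset.mul_prod_erase _ _ hmem, ordAt_mul _ _ hτu, ← hv]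
    have h1 : ((-v : ℤ) : WithTop ℤ) ≤
        ordAt ((jMero - const (Fermat.Agent.LevelOne.jFun (ofComplex (τ : ℂ)))) ^ e τ) (τ : ℂ) := by
      rw [ordAt_pow _ _ hτu]
      have h1' := hfac1 τ hτu
      have he : e τ = (-v).toNat := by simp only [e, hdiv]
      revert h1'
      cases ordAt (jMero - const (Fermat.Agent.LevelOne.jFun (ofComplex (τ : ℂ)))) (τ : ℂ) with
      | top =>
        intro _
        rw [WithTop.mul_top (by rw [he]; exact_mod_cast (show (-v).toNat ≠ 0 by omega))]
        exact le_top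
      | coe a =>
        intro h
        have ha : 1 ≤ a := by exact_mod_cast h
        rw [show ((e (τ : ℂ) : WithTop ℤ)) = (((e (τ : ℂ) : ℕ) : ℤ) : WithTop ℤ) from rfl,
          ← WithTop.coe_mul, WithTop.coe_le_coe, he]
        have : (((-v).toNat : ℕ) : ℤ) = -v := Int.toNat_of_nonneg (by omega)
        rw [this]
        nlinarith
    calc (0 : WithTop ℤ) = ((v : ℤ) : WithTop ℤ) + (((-v : ℤ) : WithTop ℤ) + 0) := by
          rw [add_zero, ← WithTop.coe_add]; simp
      _ ≤ _ := add_le_add le_rfl (add_le_add h1 (hQ0 _))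
  obtain ⟨t, ht, -, -⟩ := exists_isExp_jMero N
  have hQ : ∃ u, IsExp N Q u := by
    have : ∀ s : Finset ℂ, ∃ u, IsExp N
        (∏ p ∈ s, (jMero - const (Fermat.Agent.LevelOne.jFun (ofComplex p))) ^ e p) u := by
      intro s
      induction s using Finset.induction with
      | empty => exact ⟨1, by simpa using IsExp.one⟩
      | insert a s ha ih =>
        obtain ⟨u, hu⟩ := ih
        rw [Finset.prod_insert ha]
        exact ⟨_, ((ht.sub (IsExp.const _)).pow _).mul hu⟩
    exact this _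
  obtain ⟨u, hu⟩ := hQ
  have hxQ := mem_jField_of_holomorphic (x := mk f hf * Q)
    (fun γ => by rw [map_mul, hinv, hQinv]) hord N
    ((show IsExp N (mk f hf) s from ⟨F, hF, by rw [res_mk]; exact Germ.coe_eq.2 ex⟩).mul hu)
  have hQne : Q ≠ 0 := by
    simp only [Q]
    refine Finset.prod_ne_zero_iff.2 fun p _ => pow_ne_zero _ fun h => ?_
    rw [sub_eq_zero] at h
    obtain ⟨t', ht', htlead, -⟩ := exists_isExp_jMero N
    rw [h] at ht'
    rw [(ht'.unique hN (IsExp.const _)).2 rfl] at htlead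
    have : (-(N : ℤ)) ≠ 0 := by simpa using NeZero.ne N
    simp [HahnSeries.C_apply, HahnSeries.coeff_single_of_ne this] at htlead
  have hQmem : Q ∈ jField :=
    prod_mem fun p _ => pow_mem (jField.sub_mem jMero_mem_jField (const_mem_jField _)) _
  have := jField.div_mem hxQ hQmem
  rwa [mul_div_cancel_right₀ _ hQne] at this

/-- Only `Γ₀(N)` fixes `j(Nτ)`. -/
theorem mem_Gamma0_of_slComp_jScale_eq {N : ℕ} [NeZero N] {γ : SL(2, ℤ)}
    (h : slComp γ (jScale N (NeZero.pos N)) = jScale N (NeZero.pos N)) : γ ∈ Gamma0 N := by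
  have hN : (0 : ℝ) < N := by exact_mod_cast NeZero.pos N
  have hNZ : (0 : ℤ) < N := by exact_mod_cast NeZero.pos N
  obtain ⟨t₀, ht₀, ht₀c, -⟩ := isExp_jMero.intComp_upper (a := (N : ℤ)) (b := 0) (d := 1)
    hNZ one_pos (h := N) (e := N * N) (NeZero.pos N) (by push_cast; ring)
  have hMγ : 0 < ((!![(N : ℤ), 0; 0, 1]) * (γ : Matrix (Fin 2) (Fin 2) ℤ)).det := by
    rw [Matrix.det_mul, γ.2, mul_one]; exact det_scale (NeZero.pos N)
  obtain ⟨δ, a, b, d, ha, hd, had, heq⟩ := exists_sl_mul_upper _ hMγ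
  rw [Matrix.det_mul, γ.2, mul_one, Matrix.det_fin_two_of, mul_zero, sub_zero, mul_one] at had
  obtain ⟨t₁, ht₁, ht₁c, ht₁z⟩ := isExp_jMero.intComp_upper (b := b) ha hd (h := N)
    (e := (a ^ 2).toNat) (NeZero.pos N) (by rw [Int.toNat_of_nonneg (sq_nonneg a), ← had]; ring)
  have e1 : slComp γ (jScale N (NeZero.pos N)) =
      intComp !![a, b; 0, d] (det_upper_pos ha hd) jMero := by
    rw [jScale, ← intComp_coe γ (by rw [γ.2]; exact one_pos), intComp_intComp _ _ hMγ,
      intComp_congr hMγ (heq ▸ hMγ) heq,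
      ← intComp_intComp (by rw [δ.2]; exact one_pos) (det_upper_pos ha hd), intComp_coe,
      slComp_jMero]
  rw [e1] at h
  have heqs : t₁ = t₀ := (ht₁.unique hN ht₀).2 h
  have h1 := ht₀c (-1)
  rw [← heqs, ModularCurve.coeff_jqModC_neg_one] at h1
  have h2 := fun k => ht₁c k
  rw [Int.toNat_of_nonneg (sq_nonneg a)] at ht₁z
  simp only [Int.toNat_of_nonneg (sq_nonneg a)] at h2
  simp only [Int.cast_zero, zero_div, mul_one] at h1
  push_cast at h1
  have hdvd : a ^ 2 ∣ (N : ℤ) * N * -1 := by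
    by_contra hnd
    rw [ht₁z _ hnd] at h1
    simp [Function.Periodic.qParam] at h1
  obtain ⟨k, hk⟩ := hdvd
  rw [hk, h2] at h1
  have hk1 : -1 ≤ k := by
    by_contra hk1
    push Not at hk1
    have h0 := ModularCurve.coeff_jqModC_pow_of_lt ℂ (b := 1) (m := k) (by simpa using hk1)
    rw [pow_one] at h0
    rw [h0] at h1
    simp [Function.Periodic.qParam] at h1
  have hk0 : k < 0 := by
    by_contra hk0
    push Not at hk0
    have : 0 ≤ a ^ 2 * k := mul_nonneg (sq_nonneg a) hk0
    nlinarith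
  obtain rfl : k = -1 := by omega
  have haN : a = N := by nlinarith
  have h10 := congrFun (congrFun heq 1) 0
  simp [Matrix.mul_apply, Fin.sum_univ_two] at h10
  rw [Gamma0_mem, h10, haN]
  simp

/-- A `Γ₀(N)`-invariant element, meromorphic at all cusps, is rational in `j(τ)` and `j(Nτ)`. -/
theorem mem_closure_of_invariant {N : ℕ} [NeZero N] {x : MeroH}
    (hinv : ∀ γ ∈ Gamma0 N, slComp γ x = x) (hx : MeroAtCusps N x) :
    x ∈ Subfield.closure (Set.range const ∪ {jMero, jScale N (NeZero.pos N)}) := by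
  classical
  set S := Subfield.closure (Set.range const ∪ {jMero, jScale N (NeZero.pos N)})
  have hjS : jField ≤ S := Subfield.closure_le.2 (by
    rintro y (hy | rfl)
    · exact Subfield.subset_closure (Or.inl hy)
    · exact Subfield.subset_closure (Or.inr (Or.inl rfl)))
  set G := jScale N (NeZero.pos N)
  have hGinv : ∀ γ ∈ Gamma0 N, slComp γ G = G :=
    fun γ hγ => slComp_jScale (NeZero.pos N) dvd_rfl hγ
  have hGc : MeroAtCusps N G := meroAtCusps_jScale (NeZero.pos N) (NeZero.pos N) dvd_rfl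
  have : (Gamma0 N).FiniteIndex := inferInstance
  have : Fintype (SL(2, ℤ) ⧸ Gamma0 N) := Fintype.ofFinite _
  -- conjugates
  obtain ⟨cj, hcjdef⟩ : ∃ c : MeroH → SL(2, ℤ) ⧸ Gamma0 N → MeroH,
      ∀ y q, c y q = slComp q.out⁻¹ y := ⟨fun y q => slComp q.out⁻¹ y, fun _ _ => rfl⟩
  have hcj : ∀ y : MeroH, (∀ γ ∈ Gamma0 N, slComp γ y = y) → ∀ (g : SL(2, ℤ))
      (q : SL(2, ℤ) ⧸ Gamma0 N), slComp g (cj y q) = cj y (g⁻¹ • q) := by
    intro y hy g q
    have hmem : (q.out⁻¹ * g) * (g⁻¹ • q).out ∈ Gamma0 N := by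
      have h1 : ((g⁻¹ * q.out : SL(2, ℤ)) : SL(2, ℤ) ⧸ Gamma0 N) = ((g⁻¹ • q).out : SL(2, ℤ)) := by
        rw [QuotientGroup.out_eq', ← smul_eq_mul, ← MulAction.Quotient.smul_coe,
          QuotientGroup.out_eq']
      have := QuotientGroup.eq.1 h1
      simpa [mul_inv_rev, inv_inv] using this
    rw [hcjdef, hcjdef]
    rw [slComp_slComp,
      show q.out⁻¹ * g = ((q.out⁻¹ * g) * (g⁻¹ • q).out) * (g⁻¹ • q).out⁻¹ by group,
      ← slComp_slComp, hy _ hmem]
  have hcusp : ∀ y : MeroH, MeroAtCusps N y → ∀ q, ∃ u, IsExp N (cj y q) u :=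
    fun y hy q => by rw [hcjdef]; exact hy _
  -- the interpolation polynomial
  set P : Polynomial MeroH := ∑ q, Polynomial.C (cj x q) *
    ∏ r ∈ Finset.univ.erase q, (Polynomial.X - Polynomial.C (cj G r))
  have hPinv : ∀ g : SL(2, ℤ), P.map (slComp g) = P := by
    intro g
    simp only [P, Polynomial.map_sum, Polynomial.map_mul, Polynomial.map_C, Polynomial.map_prod,
      Polynomial.map_sub, Polynomial.map_X, hcj x hinv, hcj G hGinv]
    refine Fintype.sum_equiv (MulAction.toPerm g⁻¹) _ _ fun q => ?_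
    simp only [MulAction.toPerm_apply]
    congr 1
    refine Finset.prod_bij (fun r _ => g⁻¹ • r) (fun r hr => ?_) (fun r _ r' _ h => ?_)
      (fun r hr => ⟨g • r, ?_, by simp⟩) (fun r _ => rfl)
    · simp only [Finset.mem_erase, Finset.mem_univ, and_true] at hr ⊢
      exact fun h => hr (MulAction.injective g⁻¹ h)
    · exact MulAction.injective g⁻¹ h
    · simp only [Finset.mem_erase, Finset.mem_univ, and_true] at hr ⊢
      intro h
      exact hr (by rw [← h]; simp)
  let E : Subfield MeroH :=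
    { carrier := {m | ∃ u, IsExp N m u}
      one_mem' := ⟨1, IsExp.one⟩
      zero_mem' := ⟨0, IsExp.zero⟩
      mul_mem' := fun ⟨a, ha⟩ ⟨b, hb⟩ => ⟨a * b, ha.mul hb⟩
      add_mem' := fun ⟨a, ha⟩ ⟨b, hb⟩ => ⟨a + b, ha.add hb⟩
      neg_mem' := fun ⟨a, ha⟩ => ⟨-a, ha.neg⟩
      inv_mem' := fun _ ⟨a, ha⟩ => ⟨a⁻¹, ha.inv (by exact_mod_cast NeZero.pos N)⟩ }
  have hPexp : ∀ i, P.coeff i ∈ E := by
    have hP : ∃ Q : Polynomial E, Q.map E.subtype = P := by
      refine ⟨∑ q, Polynomial.C (⟨cj x q, hcusp x hx q⟩ : E) * ∏ r ∈ Finset.univ.erase q,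
        (Polynomial.X - Polynomial.C (⟨cj G r, hcusp G hGc r⟩ : E)), ?_⟩
      simp [P, Polynomial.map_sum, Polynomial.map_prod]
    obtain ⟨Q, hQ⟩ := hP
    intro i
    rw [← hQ, Polynomial.coeff_map]
    exact (Q.coeff i).2
  have hPcoeff : ∀ i, P.coeff i ∈ S := by
    intro i
    obtain ⟨u, hu⟩ := hPexp i
    refine hjS (mem_jField (fun g => ?_) N hu)
    conv_rhs => rw [← hPinv g]
    rw [Polynomial.coeff_map]
  set q1 : SL(2, ℤ) ⧸ Gamma0 N := ((1 : SL(2, ℤ)) : SL(2, ℤ) ⧸ Gamma0 N)
  have hcj1 : ∀ y : MeroH, (∀ γ ∈ Gamma0 N, slComp γ y = y) → cj y q1 = y := by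
    intro y hy
    rw [hcjdef]
    refine hy _ ?_
    have : (q1.out : SL(2, ℤ) ⧸ Gamma0 N) = ((1 : SL(2, ℤ)) : SL(2, ℤ) ⧸ Gamma0 N) :=
      QuotientGroup.out_eq' q1
    have := QuotientGroup.eq.1 this
    simpa using this
  have heval : P.eval G = x * ∏ r ∈ Finset.univ.erase q1, (G - cj G r) := by
    rw [Polynomial.eval_finsetSum, Finset.sum_eq_single q1]
    · simp [Polynomial.eval_prod, hcj1 x hinv]
    · intro q _ hq
      rw [Polynomial.eval_mul, Polynomial.eval_prod, Finset.prod_eq_zero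
        (Finset.mem_erase.2 ⟨Ne.symm hq, Finset.mem_univ q1⟩) (by simp [hcj1 G hGinv]), mul_zero]
    · simp
  have hne : ∏ r ∈ Finset.univ.erase q1, (G - cj G r) ≠ 0 := by
    refine Finset.prod_ne_zero_iff.2 fun r hr h => ?_
    rw [sub_eq_zero, hcjdef] at h
    have hmem := mem_Gamma0_of_slComp_jScale_eq (γ := r.out⁻¹) h.symm
    refine (Finset.mem_erase.1 hr).1 ?_
    rw [← QuotientGroup.out_eq' r]
    refine QuotientGroup.eq.2 ?_
    simpa using hmem
  have hGS : G ∈ S := Subfield.subset_closure (Or.inr (Or.inr rfl))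
  have hPG : P.eval G ∈ S := by
    rw [Polynomial.eval_eq_sum, Polynomial.sum_def]
    exact sum_mem fun i _ => mul_mem (hPcoeff i) (pow_mem hGS i)
  -- the same argument with `x = 1` gives the denominator
  have hden : ∏ r ∈ Finset.univ.erase q1, (G - cj G r) ∈ S := by
    set R : Polynomial MeroH :=
        ∑ q, ∏ r ∈ Finset.univ.erase q, (Polynomial.X - Polynomial.C (cj G r))
    have hR : R = Polynomial.derivative (∏ q, (Polynomial.X - Polynomial.C (cj G q))) := by
      rw [Polynomial.derivative_prod_finset]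
      simp [R]
    set Φ : Polynomial MeroH := ∏ q, (Polynomial.X - Polynomial.C (cj G q))
    have hΦinv : ∀ g : SL(2, ℤ), Φ.map (slComp g) = Φ := by
      intro g
      simp only [Φ, Polynomial.map_prod, Polynomial.map_sub, Polynomial.map_X, Polynomial.map_C,
        hcj G hGinv]
      exact Fintype.prod_equiv (MulAction.toPerm g⁻¹) _ _ fun q => rfl
    have hΦexp : ∀ i, Φ.coeff i ∈ E := by
      have hP : ∃ Q : Polynomial E, Q.map E.subtype = Φ :=
        ⟨∏ r, (Polynomial.X - Polynomial.C (⟨cj G r, hcusp G hGc r⟩ : E)),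
          by simp [Φ, Polynomial.map_prod]⟩
      obtain ⟨Q, hQ⟩ := hP
      intro i
      rw [← hQ, Polynomial.coeff_map]
      exact (Q.coeff i).2
    have hΦcoeff : ∀ i, Φ.coeff i ∈ S := by
      intro i
      obtain ⟨u, hu⟩ := hΦexp i
      refine hjS (mem_jField (fun g => ?_) N hu)
      conv_rhs => rw [← hΦinv g]
      rw [Polynomial.coeff_map]
    have heq : R.eval G = ∏ r ∈ Finset.univ.erase q1, (G - cj G r) := by
      rw [Polynomial.eval_finsetSum, Finset.sum_eq_single q1]
      · simp [Polynomial.eval_prod]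
      · intro q _ hq
        rw [Polynomial.eval_prod, Finset.prod_eq_zero
          (Finset.mem_erase.2 ⟨Ne.symm hq, Finset.mem_univ q1⟩) (by simp [hcj1 G hGinv])]
      · simp
    rw [← heq, hR, Polynomial.eval_eq_sum, Polynomial.sum_def]
    refine sum_mem fun i _ => mul_mem ?_ (pow_mem hGS i)
    rw [Polynomial.coeff_derivative]
    exact mul_mem (hΦcoeff _) (add_mem (natCast_mem S i) S.one_mem)
  have := S.div_mem hPG hden
  rwa [heval, mul_div_cancel_right₀ _ hne] at this

theorem jScale_one : jScale 1 one_pos = jMero := by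
  have h := isExp_jScale 1
  rw [ModularCurve.qExpand_one_apply] at h
  exact (h.unique one_pos isExp_jMero).1 rfl

end MeroH

open ModularCurve MeroH

/-- An element of `MeroH` invariant under `Γ₀(N)` and meromorphic at all cusps is a modular
function over `ℂ`. -/
theorem exists_embed_eq [Algebra ℚ ℂ] {N : ℕ} [NeZero N] {x : MeroH}
    (hinv : ∀ γ ∈ Gamma0 N, slComp γ x = x) (hx : MeroAtCusps N x) :
    ∃ y : laurentBaseChange ℂ (modularFunctionFieldFull N), embed (RingHom.id ℂ) N y = x := by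
  have h : Subfield.closure (Set.range MeroH.const ∪ {jMero, jScale N (NeZero.pos N)}) ≤
      (embed (RingHom.id ℂ) N).fieldRange := by
    refine Subfield.closure_le.2 ?_
    rintro y (⟨c, rfl⟩ | rfl | rfl)
    · exact ⟨algebraMap ℂ _ c, by rw [embed_algebraMap]; rfl⟩
    · exact ⟨_, (embed_jq (RingHom.id ℂ) 1 (one_dvd N)).trans jScale_one⟩
    · exact ⟨_, embed_jq (RingHom.id ℂ) N dvd_rfl⟩
  exact h (mem_closure_of_invariant hinv hx)

end Fermat.Agent.Kummer
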