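import Fermat.Agent.Kummer.MeroH
import Mathlib.Analysis.Meromorphic.FactorizedRational
import Mathlib.Analysis.Meromorphic.Divisor
import Mathlib.Analysis.Complex.HasPrimitives
import Mathlib.Analysis.SpecialFunctions.Complex.Log
import Mathlib.RingTheory.RootsOfUnity.Complex

/-!
# `n`-th roots of meromorphic functions on the upper half plane

A meromorphic function on the upper half plane all of whose orders are divisible by `n` is the
`n`-th power of a meromorphic function; two such roots differ by a constant root of unity.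
-/

set_option autoImplicit false

noncomputable section

open Filter Topology Complex Metric

namespace Fermat.Agent.Kummer

namespace MeroH

/-- A holomorphic function without zeros on a disc is an exponential. -/
private theorem exists_exp_eq {g : ℂ → ℂ} {c : ℂ} {r : ℝ} (hr : 0 < r)
    (hg : AnalyticOnNhd ℂ g (ball c r)) (h0 : ∀ z ∈ ball c r, g z ≠ 0) :
    ∃ P : ℂ → ℂ, AnalyticOnNhd ℂ P (ball c r) ∧ ∀ z ∈ ball c r, exp (P z) = g z := by
  have hd : DifferentiableOn ℂ (fun z => deriv g z / g z) (ball c r) := fun z hz =>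
    (((hg z hz).deriv.div (hg z hz) (h0 z hz)).differentiableAt).differentiableWithinAt
  obtain ⟨P, hPc, hP⟩ := hd.isExactOn_ball.with_val_at c (log (g c))
  refine ⟨P, (DifferentiableOn.analyticOnNhd
    (fun z hz => (hP z hz).differentiableAt.differentiableWithinAt) isOpen_ball), fun z hz => ?_⟩
  have hder : ∀ w ∈ ball c r, HasDerivAt (fun w => exp (-P w) * g w) 0 w := by
    intro w hw
    have h := ((hP w hw).neg.cexp).mul (hg w hw).differentiableAt.hasDerivAt
    refine h.congr_deriv ?_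
    simp only [Pi.neg_apply]
    field_simp [h0 w hw]
    ring
  have hconst := isOpen_ball.is_const_of_deriv_eq_zero (convex_ball c r).isPreconnected
    (fun w hw => (hder w hw).differentiableAt.differentiableWithinAt)
    (fun w hw => (hder w hw).deriv) hz (mem_ball_self hr)
  simp only [hPc] at hconst
  rw [exp_neg, exp_neg, exp_log (h0 c (mem_ball_self hr)),
    inv_mul_cancel₀ (h0 c (mem_ball_self hr))] at hconst
  field_simp at hconst
  exact hconst.symm

/-- `n`-th roots on a disc. -/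
private theorem exists_root_ball {f : ℂ → ℂ} {c : ℂ} {r : ℝ} (hr : 0 < r)
    (hf : MeromorphicOn f (closedBall c r))
    (hne : ∀ u ∈ closedBall c r, meromorphicOrderAt f u ≠ ⊤) {n : ℕ} (hn : n ≠ 0)
    (hdiv : ∀ u ∈ closedBall c r, (n : ℤ) ∣ (meromorphicOrderAt f u).untop₀) :
    ∃ R : ℂ → ℂ, MeromorphicOn R (ball c r) ∧ ∀ z ∈ ball c r, R ^ n =ᶠ[𝓝[≠] z] f := by
  have hfin : (MeromorphicOn.divisor f (closedBall c r)).support.Finite :=
    (MeromorphicOn.divisor f (closedBall c r)).finiteSupport (isCompact_closedBall c r)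
  obtain ⟨g, hg, hg0, heq⟩ := hf.extract_zeros_poles (fun u => hne u u.2) hfin
  obtain ⟨P, hP, hexp⟩ := exists_exp_eq hr (hg.mono ball_subset_closedBall)
    (fun z hz => hg0 ⟨z, ball_subset_closedBall hz⟩)
  set d : ℂ → ℤ := ⇑(MeromorphicOn.divisor f (closedBall c r)) with hd_def
  set e : ℂ → ℤ := fun u => d u / n with he_def
  have hdvd : ∀ u, (n : ℤ) ∣ d u := by
    intro u
    by_cases hu : u ∈ closedBall c r
    · rw [hd_def, MeromorphicOn.divisor_apply hf hu]
      exact hdiv u hu
    · rw [hd_def, Function.locallyFinsuppWithin.apply_eq_zero_of_notMem _ hu]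
      exact dvd_zero _
  have hefin : e.HasFiniteSupport := hfin.subset (fun u hu hdu => hu (by
    simp [he_def, hd_def, hdu]))
  refine ⟨(∏ᶠ u, (· - u) ^ e u) * fun z => exp (P z / n), fun z hz => ?_, fun z hz => ?_⟩
  · refine MeromorphicAt.mul ?_ ?_
    · exact (Function.FactorizedRational.meromorphicNFOn_univ e).meromorphicOn z trivial
    · exact ((hP z hz).div_const.cexp).meromorphicAt
  · have h1 : ∀ᶠ w in 𝓝[≠] z, f w = ((∏ᶠ u, (· - u) ^ d u) • g) w := by
      obtain ⟨t, ht, hdis⟩ := (codiscreteWithin_iff_locallyEmptyComplementWithin.1 heq) z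
        (ball_subset_closedBall hz)
      filter_upwards [ht, mem_nhdsWithin_of_mem_nhds (isOpen_ball.mem_nhds hz)] with w hwt hwb
      by_contra hne'
      have : w ∈ t ∩ (closedBall c r \ {x | f x = ((∏ᶠ u, (· - u) ^ d u) • g) x}) :=
        ⟨hwt, ball_subset_closedBall hwb, hne'⟩
      rw [hdis] at this
      exact this
    filter_upwards [h1, mem_nhdsWithin_of_mem_nhds (isOpen_ball.mem_nhds hz)] with w hw hwb
    rw [hw, Pi.pow_apply, Pi.mul_apply, mul_pow, Pi.smul_apply', smul_eq_mul,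
      Function.FactorizedRational.finprod_eq_fun hefin,
      Function.FactorizedRational.finprod_eq_fun (hfin : d.HasFiniteSupport)]
    congr 1
    · simp only
      rw [finprod_eq_prod_of_mulSupport_subset (s := hfin.toFinset) _ ?_,
        finprod_eq_prod_of_mulSupport_subset (s := hfin.toFinset) _ ?_, ← Finset.prod_pow]
      · refine Finset.prod_congr rfl fun u _ => ?_
        rw [← zpow_natCast, ← zpow_mul, he_def]
        simp only
        rw [Int.ediv_mul_cancel (hdvd u)]
      all_goals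
        intro u hu
        simp only [Function.mem_mulSupport] at hu
        simp only [Set.Finite.coe_toFinset, Function.mem_support]
        intro hdu
        apply hu
        simp [he_def, hd_def, hdu]
    · rw [← exp_nat_mul, mul_div_cancel₀ _ (Nat.cast_ne_zero.2 hn), hexp w hwb]

/-- Two roots on a connected open set differ by a root of unity. -/
theorem exists_root_unity_mul {U : Set ℂ} (hU : IsConnected U) {R S : ℂ → ℂ}
    (hR : MeromorphicOn R U) (hS : MeromorphicOn S U) {z0 : ℂ} (hz0 : z0 ∈ U) {n : ℕ}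
    (hn : n ≠ 0) (heq : R ^ n =ᶠ[𝓝[≠] z0] S ^ n) :
    ∃ ζ : ℂ, ζ ^ n = 1 ∧ ∀ z ∈ U, R =ᶠ[𝓝[≠] z] fun w => ζ * S w := by
  have hm : ∀ ζ : ℂ, MeromorphicOn (R - fun w => ζ * S w) U := fun ζ z hz =>
    (hR z hz).sub ((MeromorphicAt.const ζ z).mul (hS z hz))
  have key : ∃ ζ ∈ Polynomial.nthRootsFinset n (1 : ℂ),
      meromorphicOrderAt (R - fun w => ζ * S w) z0 = ⊤ := by
    by_contra hall
    push Not at hall
    have h1 : ∀ᶠ w in 𝓝[≠] z0, ∀ ζ ∈ Polynomial.nthRootsFinset n (1 : ℂ),
        R w - ζ * S w ≠ 0 := by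
      refine (eventually_all_finset _).2 fun ζ hζ => ?_
      exact (meromorphicOrderAt_ne_top_iff_eventually_ne_zero (hm ζ z0 hz0)).1 (hall ζ hζ)
    obtain ⟨w, hw, hw'⟩ := (h1.and heq).exists
    have hw'' : R w ^ n = S w ^ n := hw'
    by_cases hs : S w = 0
    · rw [hs, zero_pow hn] at hw''
      exact hw 1 ((Polynomial.mem_nthRootsFinset (Nat.pos_of_ne_zero hn) _).2 (one_pow n))
        (by simp [hs, pow_eq_zero_iff hn |>.1 hw''])
    · exact hw (R w / S w) ((Polynomial.mem_nthRootsFinset (Nat.pos_of_ne_zero hn) _).2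
        (by rw [div_pow, hw'', div_self (pow_ne_zero n hs)])) (by field_simp; ring)
  obtain ⟨ζ, hζ, htop⟩ := key
  refine ⟨ζ, (Polynomial.mem_nthRootsFinset (Nat.pos_of_ne_zero hn) _).1 hζ, fun z hz => ?_⟩
  have htop' : meromorphicOrderAt (R - fun w => ζ * S w) z = ⊤ := by
    by_contra hne
    exact ((hm ζ).exists_meromorphicOrderAt_ne_top_iff_forall hU).1 ⟨⟨z, hz⟩, hne⟩ ⟨z0, hz0⟩ htop
  filter_upwards [meromorphicOrderAt_eq_top_iff.1 htop'] with w hw
  exact sub_eq_zero.1 hw

/-- Exhausting discs. -/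
private def center (m : ℕ) : ℂ := ((m : ℝ) + 2 : ℝ) * I

private def radius (m : ℕ) : ℝ := ((m : ℝ) + 2) - 1 / ((m : ℝ) + 2)

private theorem radius_pos (m : ℕ) : 0 < radius m := by
  have h : (2 : ℝ) ≤ (m : ℝ) + 2 := by simp
  have : 1 / ((m : ℝ) + 2) ≤ 1 / 2 := one_div_le_one_div_of_le (by norm_num) h
  unfold radius; linarith

private theorem closedBall_subset (m : ℕ) : closedBall (center m) (radius m) ⊆ uhp := by
  intro z hz
  rw [mem_closedBall, dist_eq_norm] at hz
  have h := (abs_im_le_norm (z - center m)).trans hz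
  simp only [center, sub_im, mul_im, ofReal_re, I_im, ofReal_im, I_re, mul_one, mul_zero,
    add_zero] at h
  have : 0 < 1 / ((m : ℝ) + 2) := by positivity
  unfold radius at h
  have := abs_le.1 h
  show 0 < z.im
  linarith

private theorem ball_mono {m k : ℕ} (h : m ≤ k) :
    ball (center m) (radius m) ⊆ ball (center k) (radius k) := by
  apply ball_subset_ball'
  have hk : (m : ℝ) ≤ k := by exact_mod_cast h
  have hd : dist (center m) (center k) = (k : ℝ) - m := by
    rw [dist_eq_norm, center, center, ← sub_mul, ← ofReal_sub, norm_mul, norm_I, mul_one,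
      norm_real, Real.norm_eq_abs, abs_of_nonpos (by linarith)]
    ring
  have : 1 / ((k : ℝ) + 2) ≤ 1 / ((m : ℝ) + 2) :=
    one_div_le_one_div_of_le (by positivity) (by linarith)
  rw [hd]
  unfold radius
  linarith

private theorem exists_mem_ball {z : ℂ} (hz : z ∈ uhp) :
    ∃ m : ℕ, z ∈ ball (center m) (radius m) := by
  have hy : 0 < z.im := hz
  obtain ⟨m, hm⟩ := exists_nat_gt ((z.re ^ 2 + z.im ^ 2 + 2) / (2 * z.im))
  refine ⟨m, ?_⟩
  have hm' : z.re ^ 2 + z.im ^ 2 + 2 < (m : ℝ) * (2 * z.im) := by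
    rwa [div_lt_iff₀ (by positivity)] at hm
  set M : ℝ := (m : ℝ) + 2 with hM
  have hMpos : 0 < M := by positivity
  have hsq : ‖z - center m‖ ^ 2 < radius m ^ 2 := by
    rw [Complex.sq_norm, normSq_apply]
    simp only [center, sub_re, mul_re, ofReal_re, I_re, mul_zero, ofReal_im, I_im, sub_im, mul_im,
      mul_one, add_zero, sub_zero, radius, ← hM]
    have h2 : (M - 1 / M) ^ 2 = M ^ 2 - 2 + (1 / M) ^ 2 := by field_simp; ring
    nlinarith
  rw [mem_ball, dist_eq_norm]
  exact lt_of_pow_lt_pow_left₀ 2 (radius_pos m).le hsq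

/-- A meromorphic function on `ℍ` with all orders divisible by `n` is an `n`-th power. -/
theorem exists_pow_eq {x : MeroH} (hx : x ≠ 0) {n : ℕ} (hn : n ≠ 0)
    (hdiv : ∀ z ∈ uhp, ∃ k : ℤ, ordAt x z = ((n * k : ℤ) : WithTop ℤ)) :
    ∃ y : MeroH, y ^ n = x := by
  obtain ⟨f, hf, rfl⟩ := exists_rep x
  have hne : ∀ z ∈ uhp, meromorphicOrderAt f z ≠ ⊤ := fun z hz => by
    rw [← ordAt_mk hf hz]; exact ordAt_ne_top hx hz
  have hdvd : ∀ z ∈ uhp, (n : ℤ) ∣ (meromorphicOrderAt f z).untop₀ := fun z hz => by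
    obtain ⟨k, hk⟩ := hdiv z hz
    rw [ordAt_mk hf hz] at hk
    rw [hk, WithTop.untop₀_coe]
    exact dvd_mul_right _ _
  set z0 : ℂ := center 0
  have hz0 : ∀ m, z0 ∈ ball (center m) (radius m) := fun m =>
    ball_mono (Nat.zero_le m) (mem_ball_self (radius_pos 0))
  choose S hS hSeq using fun m => exists_root_ball (radius_pos m)
    (hf.mono_set (closedBall_subset m)) (fun u hu => hne u (closedBall_subset m hu)) hn
    (fun u hu => hdvd u (closedBall_subset m hu))
  have hcon : ∀ m, IsConnected (ball (center m) (radius m)) := fun m =>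
    ⟨⟨_, mem_ball_self (radius_pos m)⟩, (convex_ball _ _).isPreconnected⟩
  -- normalise all roots at the base point
  have hR : ∀ m, ∃ R : ℂ → ℂ, MeromorphicOn R (ball (center m) (radius m)) ∧
      (∀ z ∈ ball (center m) (radius m), R ^ n =ᶠ[𝓝[≠] z] f) ∧ R =ᶠ[𝓝[≠] z0] S 0 := by
    intro m
    have hsub := ball_mono (Nat.zero_le m)
    obtain ⟨ζ, hζ, hζeq⟩ := exists_root_unity_mul (hcon 0) (hS 0) ((hS m).mono_set hsub)
      (hz0 0) hn ((hSeq 0 z0 (hz0 0)).trans (hSeq m z0 (hz0 m)).symm)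
    refine ⟨fun w => ζ * S m w, fun z hz => (MeromorphicAt.const ζ z).mul (hS m z hz),
      fun z hz => ?_, (hζeq z0 (hz0 0)).symm⟩
    filter_upwards [hSeq m z hz] with w hw
    simpa [mul_pow, hζ] using hw
  choose R hRm hRpow hR0 using hR
  have hcompat : ∀ k m, k ≤ m → ∀ z ∈ ball (center k) (radius k), R k =ᶠ[𝓝[≠] z] R m := by
    intro k m hkm z hz
    have hsub := ball_mono hkm
    have hmm : MeromorphicOn (R k - R m) (ball (center k) (radius k)) := fun w hw =>
      (hRm k w hw).sub (hRm m w (hsub hw))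
    have htop0 : meromorphicOrderAt (R k - R m) z0 = ⊤ := by
      rw [meromorphicOrderAt_eq_top_iff]
      filter_upwards [(hR0 k).trans (hR0 m).symm] with w hw
      simp [hw]
    have htop : meromorphicOrderAt (R k - R m) z = ⊤ := by
      by_contra hne'
      exact (hmm.exists_meromorphicOrderAt_ne_top_iff_forall (hcon k)).1 ⟨⟨z, hz⟩, hne'⟩
        ⟨z0, hz0 k⟩ htop0
    filter_upwards [meromorphicOrderAt_eq_top_iff.1 htop] with w hw
    exact sub_eq_zero.1 hw
  classical
  set G : ℂ → ℂ := fun z => if h : ∃ m, z ∈ ball (center m) (radius m)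
    then toMeromorphicNFAt (R (Nat.find h)) z z else 0 with hG
  have hGeq : ∀ m, ∀ z ∈ ball (center m) (radius m),
      G z = toMeromorphicNFOn (R m) (ball (center m) (radius m)) z := by
    intro m z hz
    have h : ∃ m, z ∈ ball (center m) (radius m) := ⟨m, hz⟩
    rw [toMeromorphicNFOn_eq_toMeromorphicNFAt (hRm m) hz, hG]
    simp only [dif_pos h]
    exact (toMeromorphicNFAt_eventuallyEq_nhds_congr
      (hcompat _ m (Nat.find_le hz) z (Nat.find_spec h))).self_of_nhds
  have hloc : ∀ m, ∀ z ∈ ball (center m) (radius m), G =ᶠ[𝓝[≠] z] R m := by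
    intro m z hz
    refine EventuallyEq.trans ?_ ((hRm m).toMeromorphicNFOn_eq_self_on_nhdsNE hz)
    filter_upwards [mem_nhdsWithin_of_mem_nhds (isOpen_ball.mem_nhds hz)] with w hw
    exact hGeq m w hw
  have hGm : MeromorphicOn G uhp := fun z hz => by
    obtain ⟨m, hm⟩ := exists_mem_ball hz
    exact (hRm m z hm).congr (hloc m z hm).symm
  refine ⟨mk G hGm, ?_⟩
  rw [mk_pow, mk_eq_mk_iff]
  intro z hz
  obtain ⟨m, hm⟩ := exists_mem_ball hz
  exact ((hloc m z hm).pow_const n).trans (hRpow m z hm)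

/-- `n`-th roots of unity in `MeroH` are constant. -/
theorem exists_const_of_pow_eq_one {x : MeroH} {n : ℕ} (hn : 0 < n) (hx : x ^ n = 1) :
    ∃ ζ : ℂ, ζ ^ n = 1 ∧ x = const ζ := by
  have hprim := (Complex.isPrimitiveRoot_exp n hn.ne').map_of_injective const_injective
  have : NeZero n := ⟨hn.ne'⟩
  obtain ⟨i, _, hi⟩ := hprim.eq_pow_of_pow_eq_one hx
  exact ⟨exp (2 * Real.pi * I / n) ^ i,
    by rw [← pow_mul, Nat.mul_comm, pow_mul, (Complex.isPrimitiveRoot_exp n hn.ne').pow_eq_one,
      one_pow], by rw [map_pow, hi]⟩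

/-- Two `n`-th roots differ by a constant root of unity. -/
theorem exists_const_mul_of_pow_eq_pow {x y : MeroH} {n : ℕ} (hn : 0 < n) (h : x ^ n = y ^ n) :
    ∃ ζ : ℂ, ζ ^ n = 1 ∧ x = const ζ * y := by
  by_cases hy : y = 0
  · subst hy
    rw [zero_pow hn.ne'] at h
    exact ⟨1, one_pow n, by simp [eq_zero_of_pow_eq_zero h]⟩
  · obtain ⟨ζ, hζ, hxy⟩ := exists_const_of_pow_eq_one hn
      (x := x / y) (by rw [div_pow, h, div_self (pow_ne_zero n hy)])
    exact ⟨ζ, hζ, by rw [← hxy, div_mul_cancel₀ _ hy]⟩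

end MeroH

end Fermat.Agent.Kummer
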