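import Fermat.Agent.Kummer.Main

/-!
# The number of torsion points of `J₀(N)`
-/

set_option autoImplicit false

noncomputable section

namespace Fermat.Agent.Kummer

open AlgebraicCurve ModularCurve CongruenceSubgroup Fermat.Agent.Cosets

/-- `#J₀(N)[n] = n ^ (2 g)`. -/
theorem natCard_torsion (N : ℕ) [NeZero N] (n : ℕ) [NeZero n] :
    Nat.card (Tors N n) = n ^ homRank N := by
  rw [Nat.card_congr (kummer N n).toEquiv, natCard_parEllHoms, Nat.card_zmod]

end Fermat.Agent.Kummer
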