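import Fermat.Agent.Kummer.Divide

/-!
# A canonical representative in a class modulo constants and `n`-th powers

Among the elements `c * f₀ * h ^ n` with poles only above `j = ∞`, of bounded order there, the one
of maximal order at `i∞`, normalised to have leading coefficient `1`, is unique.
-/

set_option autoImplicit false

noncomputable section

open AlgebraicCurve ModularCurve

namespace Fermat.Agent.Kummer

open Fermat.Agent.MFGenus (FL jElt IsOrd)

/-- An order function trivial on constants vanishes identically or is a positive multiple of the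
order at a place. -/
theorem exists_place_of_isOrd {K F : Type*} [Field K] [Field F] [Algebra K F]
    [FF.IsFunctionField K F] {o : F → ℤ} (ho : IsOrd o) (hc : ∀ a, o (algebraMap K F a) = 0) :
    (∀ f : F, f ≠ 0 → o f = 0) ∨
      ∃ (v : Place K F) (e : ℤ), 0 ≤ e ∧ ∀ f : F, f ≠ 0 → o f = v.ord f * e := by
  by_cases htriv : ∀ f : F, f ≠ 0 → o f = 0
  · exact Or.inl htriv
  push Not at htriv
  obtain ⟨g, hg, hog⟩ := htriv
  have hK : ∀ a : K, algebraMap K F a ∈ ho.valuationSubring := fun a =>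
    (IsOrd.mem_valuationSubring ho).2 (Or.inr (hc a).ge)
  have hne : ho.valuationSubring ≠ ⊤ := by
    intro htop
    have h1 : ∀ x : F, x ≠ 0 → 0 ≤ o x := fun x hx => by
      have : x ∈ ho.valuationSubring := htop ▸ ValuationSubring.mem_top x
      exact ((IsOrd.mem_valuationSubring ho).1 this).resolve_left hx
    have h2 := h1 g⁻¹ (inv_ne_zero hg)
    rw [ho.map_inv hg] at h2
    have := h1 g hg
    omega
  let v : Place K F :=
    ⟨ho.valuationSubring, hK, hne, FF.isPrincipalIdealRing_valuationSubring_of_ne_top _ hK⟩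
  obtain ⟨π, hπ0, hπ⟩ := MFGenus.exists_ord_eq_one v
  have hπm : π ∈ v.toValuationSubring :=
    (MFGenus.mem_iff_ord_nonneg v hπ0).2 (by rw [hπ]; exact zero_le_one)
  exact Or.inr ⟨v, o π, ((IsOrd.mem_valuationSubring ho).1 hπm).resolve_left hπ0,
    fun f hf => MFGenus.isOrd_eq_mul_ord v ho
      (fun y hy hy0 => ((IsOrd.mem_valuationSubring ho).1 hy).resolve_left hy0) hπ0 hπ hf⟩

/-- An order function trivial on constants is bounded above on the elements with poles bounded by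
an effective divisor. -/
theorem exists_bound_of_isOrd {K F : Type*} [Field K] [Field F] [Algebra K F] [IsAlgClosed K]
    [FF.IsFunctionField K F] {o : F → ℤ} (ho : IsOrd o) (hc : ∀ a, o (algebraMap K F a) = 0)
    {A : Divisor K F} (hA : 0 ≤ A) :
    ∃ B : ℤ, ∀ f : F, f ≠ 0 → (∀ v, 0 ≤ v.ord f + A v) → o f ≤ B := by
  rcases exists_place_of_isOrd ho hc with h | ⟨v, e, he, h⟩
  · exact ⟨0, fun f hf _ => (h f hf).le⟩
  refine ⟨Divisor.degree A * e, fun f hf hfA => ?_⟩
  rw [h f hf]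
  refine mul_le_mul_of_nonneg_right ?_ he
  have h1 : Finsupp.single v (v.ord f + A v) ≤ FF.divOf K f + A := fun w => by
    rcases eq_or_ne w v with rfl | hw
    · simp
    · rw [Finsupp.single_eq_of_ne hw, Finsupp.add_apply, FF.divOf_apply]
      exact hfA w
  have h2 := FF.degree_mono h1
  rw [map_add, FF.degree_divOf, zero_add, Divisor.degree_single, FF.deg_eq_one, Nat.cast_one,
    mul_one] at h2
  have h3 := hA v
  rw [Finsupp.coe_zero, Pi.zero_apply] at h3
  linarith

section Abstract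

variable {K F : Type*} [Field K] [Field F] [Algebra K F] (n : ℕ)

/-- `f` is in the class of `f₀`, with poles bounded by `m` times the poles of `j`. -/
def Adm (j f₀ : F) (m : ℕ) (f : F) : Prop :=
  (∃ (c : K) (h : F), c ≠ 0 ∧ h ≠ 0 ∧ f = algebraMap K F c * f₀ * h ^ n) ∧
    ∀ v : Place K F, 0 ≤ v.ord f + m * max (-v.ord j) 0

variable {n} {j f₀ : F}

theorem Adm.ne_zero {m : ℕ} {f : F} (hf₀ : f₀ ≠ 0) (hf : Adm (K := K) n j f₀ m f) : f ≠ 0 := by
  obtain ⟨⟨c, h, hc, hh, rfl⟩, -⟩ := hf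
  exact mul_ne_zero (mul_ne_zero ((map_ne_zero _).2 hc) hf₀) (pow_ne_zero n hh)

variable [IsAlgClosed K] [FF.IsFunctionField K F]

theorem exists_adm (hn : n ≠ 0) (hjt : Transcendental K j) (hf₀ : f₀ ≠ 0) :
    ∃ (m : ℕ) (f : F), Adm (K := K) n j f₀ m f := by
  classical
  have hj0 : j ≠ 0 := fun h => hjt (h.symm ▸ isAlgebraic_zero)
  have hjc : ∀ a : K, j - algebraMap K F a ≠ 0 := fun a h =>
    hjt ((sub_eq_zero.1 h).symm ▸ isAlgebraic_algebraMap a)
  obtain ⟨T, hTmem⟩ : ∃ T : Finset (Place K F), ∀ v, v ∈ T ↔ v.ord f₀ ≠ 0 ∧ 0 ≤ v.ord j :=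
    ⟨(FF.divOf K f₀).support.filter fun v => 0 ≤ v.ord j, fun v => by
      rw [Finset.mem_filter, Finsupp.mem_support_iff, FF.divOf_apply]⟩
  have hT : ∀ v ∈ T, ∃ a : K, 0 < v.ord (j - algebraMap K F a) := fun v hv => by
    obtain ⟨a, ha⟩ := exists_const_sub_ord_pos v
      ((MFGenus.mem_iff_ord_nonneg v hj0).2 ((hTmem v).1 hv).2)
    exact ⟨a, ha.resolve_left fun h => hjc a (sub_eq_zero.2 h)⟩
  obtain ⟨h, hh0, hhnn, hhT⟩ : ∃ h : F, h ≠ 0 ∧ (∀ v : Place K F, 0 ≤ v.ord j → 0 ≤ v.ord h) ∧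
      ∀ v ∈ T, -v.ord f₀ ≤ v.ord h := by
    clear hTmem
    induction T using Finset.induction with
    | empty => exact ⟨1, one_ne_zero, fun v _ => by simp, by simp⟩
    | insert w S hwS ih =>
      obtain ⟨g, hg0, hgnn, hgS⟩ := ih fun v hv => hT v (Finset.mem_insert_of_mem hv)
      obtain ⟨a, ha⟩ := hT w (Finset.mem_insert_self w S)
      set p := j - algebraMap K F a
      have hp0 : p ≠ 0 := hjc a
      have hpnn : ∀ v : Place K F, 0 ≤ v.ord j → 0 ≤ v.ord p := fun v hv =>
        FF.ord_nonneg_of_mem v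
          (sub_mem ((MFGenus.mem_iff_ord_nonneg v hj0).2 hv) (v.algebraMap_mem' a))
      have hwj : 0 ≤ w.ord j := by
        have h1 := FF.ord_nonneg_of_mem w (w.algebraMap_mem' a)
        have hmem : p ∈ w.toValuationSubring := (MFGenus.mem_iff_ord_nonneg w hp0).2 ha.le
        have h2 := FF.ord_nonneg_of_mem w (add_mem hmem (w.algebraMap_mem' a))
        rwa [sub_add_cancel] at h2
      set k := (-(w.ord f₀)).toNat
      refine ⟨g * p ^ k, mul_ne_zero hg0 (pow_ne_zero k hp0), fun v hv => ?_, fun v hv => ?_⟩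
      · rw [v.ord_mul hg0 (pow_ne_zero k hp0), FF.ord_pow]
        exact add_nonneg (hgnn v hv) (mul_nonneg (Nat.cast_nonneg k) (hpnn v hv))
      · rw [v.ord_mul hg0 (pow_ne_zero k hp0), FF.ord_pow]
        have hkk : -(w.ord f₀) ≤ (k : ℤ) := Int.self_le_toNat _
        rcases eq_or_ne v w with rfl | hvw
        · have h3 : (k : ℤ) ≤ k * v.ord p := le_mul_of_one_le_right (Nat.cast_nonneg k) ha
          have h4 := hgnn v hwj
          linarith
        · have hvS := (Finset.mem_insert.1 hv).resolve_left hvw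
          obtain ⟨b, hb⟩ := hT v hv
          have hvj : 0 ≤ v.ord j := by
            have hmem : j - algebraMap K F b ∈ v.toValuationSubring :=
              (MFGenus.mem_iff_ord_nonneg v (hjc b)).2 hb.le
            have h2 := FF.ord_nonneg_of_mem v (add_mem hmem (v.algebraMap_mem' b))
            rwa [sub_add_cancel] at h2
          have h3 := mul_nonneg (Nat.cast_nonneg (α := ℤ) k) (hpnn v hvj)
          have h4 := hgS v hvS
          linarith
  set f := algebraMap K F 1 * f₀ * h ^ n with hfdef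
  obtain ⟨U, hU⟩ : ∃ U : Finset (Place K F), ∀ w, w.ord f < 0 → w ∈ U :=
    ⟨(FF.divOf K f).support, fun w hw => by
      rw [Finsupp.mem_support_iff, FF.divOf_apply]; exact hw.ne⟩
  refine ⟨∑ w ∈ U, (-(w.ord f)).toNat, f, ⟨1, h, one_ne_zero, hh0, rfl⟩, fun v => ?_⟩
  rcases le_or_gt 0 (v.ord j) with hv | hv
  · have hvf : 0 ≤ v.ord f := by
      rw [hfdef, map_one, one_mul, v.ord_mul hf₀ (pow_ne_zero n hh0), FF.ord_pow]
      have h2 : (1 : ℤ) ≤ n := by omega
      have h3 := hhnn v hv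
      by_cases hvT : v ∈ T
      · have h1 := hhT v hvT
        nlinarith
      · have hv0 : v.ord f₀ = 0 := by
          by_contra hne
          exact hvT ((hTmem v).2 ⟨hne, hv⟩)
        rw [hv0, zero_add]
        positivity
    positivity
  · have h1 : (1 : ℤ) ≤ max (-v.ord j) 0 := le_max_of_le_left (by omega)
    rcases le_or_gt 0 (v.ord f) with h2 | h2
    · positivity
    have hmem : v ∈ U := hU v h2
    have h3 : -(v.ord f) ≤ ((∑ w ∈ U, (-(w.ord f)).toNat : ℕ) : ℤ) := by
      rw [Nat.cast_sum]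
      exact (Int.self_le_toNat _).trans
        (Finset.single_le_sum (f := fun w => ((-(w.ord f)).toNat : ℤ))
          (fun w _ => Nat.cast_nonneg _) hmem)
    nlinarith

/-- Uniqueness of the normalised representative of maximal order. -/
theorem exists_canonical_aux (hn : n ≠ 0) (hjt : Transcendental K j) (hf₀ : f₀ ≠ 0) {o : F → ℤ}
    (ho : IsOrd o) (hc : ∀ a, o (algebraMap K F a) = 0) {lead : F → K}
    (hl0 : ∀ f, f ≠ 0 → lead f ≠ 0) (hl : ∀ a f, a ≠ 0 → lead (algebraMap K F a * f) = a * lead f)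
    (hres : ∀ u, u ≠ 0 → o u = 0 → u - algebraMap K F (lead u) ≠ 0 →
      0 < o (u - algebraMap K F (lead u))) :
    ∃ (m : ℕ) (f₁ : F), Adm (K := K) n j f₀ m f₁ ∧ lead f₁ = 1 ∧
      ∀ f, Adm (K := K) n j f₀ m f → lead f = 1 → o f₁ ≤ o f → f = f₁ := by
  classical
  obtain ⟨m, g, hg⟩ := exists_adm (K := K) hn hjt hf₀
  obtain ⟨B, hB⟩ := exists_bound_of_isOrd ho hc (A := (m : ℤ) • FF.poleDiv K j)
    (smul_nonneg (Nat.cast_nonneg m) (FF.poleDiv_nonneg _))
  obtain ⟨z, ⟨f', hf', rfl⟩, hmax⟩ := Int.exists_greatest_of_bdd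
    (P := fun z => ∃ f, Adm (K := K) n j f₀ m f ∧ o f = z)
    ⟨B, fun z ⟨f, hf, hz⟩ => hz ▸ hB f (hf.ne_zero hf₀) fun v => by
      simpa [FF.poleDiv_apply] using hf.2 v⟩ ⟨o g, g, hg, rfl⟩
  have hf'0 := hf'.ne_zero hf₀
  have hlf := hl0 f' hf'0
  set f₁ := algebraMap K F (lead f')⁻¹ * f' with hf₁def
  have hscale : ∀ (a : K) (f : F), a ≠ 0 → Adm (K := K) n j f₀ m f →
      Adm (K := K) n j f₀ m (algebraMap K F a * f) := by
    rintro a f ha hf
    have hf0 := hf.ne_zero hf₀
    obtain ⟨⟨c, h, hc, hh, rfl⟩, hv⟩ := hf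
    refine ⟨⟨a * c, h, mul_ne_zero ha hc, hh, by rw [map_mul]; ring⟩, fun v => ?_⟩
    rw [v.ord_mul ((map_ne_zero _).2 ha) hf0, FF.ord_algebraMap, zero_add]
    exact hv v
  have hadm₁ : Adm (K := K) n j f₀ m f₁ := hscale _ _ (inv_ne_zero hlf) hf'
  have hord₁ : o f₁ = o f' := by
    rw [hf₁def, ho.map_mul _ _ ((map_ne_zero _).2 (inv_ne_zero hlf)) hf'0, hc, zero_add]
  have hlead₁ : lead f₁ = 1 := by
    rw [hf₁def, hl _ _ (inv_ne_zero hlf), inv_mul_cancel₀ hlf]
  refine ⟨m, f₁, hadm₁, hlead₁, fun f hf hlead hle => ?_⟩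
  have hf₁0 := hadm₁.ne_zero hf₀
  have hordeq : o f = o f₁ := le_antisymm (hord₁ ▸ hmax _ ⟨f, hf, rfl⟩) hle
  obtain ⟨⟨c₁, h₁, hc₁, hh₁, he₁⟩, hv₁⟩ := id hadm₁
  obtain ⟨⟨c, h, hc', hh, he⟩, hv⟩ := id hf
  set u := h / h₁ with hu
  have hu0 : u ≠ 0 := div_ne_zero hh hh₁
  have hcc : algebraMap K F (c / c₁) ≠ 0 := (map_ne_zero _).2 (div_ne_zero hc' hc₁)
  have hf_eq : f = algebraMap K F (c / c₁) * f₁ * u ^ n := by
    have hc'' : (algebraMap K F c₁) ≠ 0 := (map_ne_zero _).2 hc₁
    rw [he, he₁, hu, map_div₀, div_pow]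
    field_simp
  have hordu : o u = 0 := by
    have h2 := congrArg o hf_eq
    rw [ho.map_mul _ _ (mul_ne_zero hcc hf₁0) (pow_ne_zero n hu0), ho.map_mul _ _ hcc hf₁0, hc,
      ho.map_pow hu0, hordeq] at h2
    have h3 : (n : ℤ) * o u = 0 := by linarith
    exact (mul_eq_zero.1 h3).resolve_left (by exact_mod_cast hn)
  set a := lead u with ha
  by_cases hz : u - algebraMap K F a = 0
  · have hf2 : f = algebraMap K F (c / c₁ * a ^ n) * f₁ := by
      rw [hf_eq, sub_eq_zero.1 hz, map_mul, map_pow]; ring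
    have hne : c / c₁ * a ^ n ≠ 0 :=
      mul_ne_zero (div_ne_zero hc' hc₁) (pow_ne_zero n (hl0 u hu0))
    have hl2 : lead f = c / c₁ * a ^ n := by rw [hf2, hl _ _ hne, hlead₁, mul_one]
    rw [hf2, ← hl2, hlead, map_one, one_mul]
  exfalso
  set w := u - algebraMap K F a
  set f₂ := f₁ * w ^ n with hf₂
  have hadm₂ : Adm (K := K) n j f₀ m f₂ := by
    refine ⟨⟨c₁, h₁ * w, hc₁, mul_ne_zero hh₁ hz, by rw [hf₂, he₁]; ring⟩, fun v => ?_⟩
    have h4 : min (v.ord u) 0 ≤ v.ord w := by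
      have := FF.min_ord_le_ord_add v (f := u) (g := -algebraMap K F a)
        (by rwa [← sub_eq_add_neg])
      rwa [← sub_eq_add_neg, FF.ord_neg, FF.ord_algebraMap] at this
    have h5 : v.ord f = v.ord f₁ + n * v.ord u := by
      rw [hf_eq, v.ord_mul (mul_ne_zero hcc hf₁0) (pow_ne_zero n hu0), v.ord_mul hcc hf₁0,
        FF.ord_algebraMap, FF.ord_pow, zero_add]
    have h6 : v.ord f₂ = v.ord f₁ + n * v.ord w := by
      rw [hf₂, v.ord_mul hf₁0 (pow_ne_zero n hz), FF.ord_pow]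
    have h7 : (n : ℤ) * min (v.ord u) 0 ≤ n * v.ord w :=
      mul_le_mul_of_nonneg_left h4 (Nat.cast_nonneg n)
    rcases le_total (v.ord u) 0 with hle0 | hle0
    · rw [min_eq_left hle0] at h7
      have := hv v
      linarith
    · rw [min_eq_right hle0, mul_zero] at h7
      have := hv₁ v
      linarith
  have hlt : 0 < o w := hres u hu0 hordu hz
  have h9 : o f₂ = o f₁ + n * o w := by
    rw [hf₂, ho.map_mul _ _ hf₁0 (pow_ne_zero n hz), ho.map_pow hz]
  have h10 := hmax _ ⟨f₂, hadm₂, rfl⟩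
  have h11 : (1 : ℤ) ≤ n := by omega
  nlinarith

end Abstract

variable {L : Type*} [Field L] [Algebra ℚ L] {N : ℕ}

/-- The order at `i∞`. -/
def qOrder (f : FL L N) : ℤ := (f : LaurentSeries L).order

/-- The leading coefficient at `i∞`. -/
def qLead (f : FL L N) : L := (f : LaurentSeries L).coeff (qOrder f)

theorem coe_ne_zero {f : FL L N} (hf : f ≠ 0) : (f : LaurentSeries L) ≠ 0 := fun h =>
  hf (Subtype.ext h)

theorem isOrd_qOrder : IsOrd (qOrder : FL L N → ℤ) where
  map_mul a b ha hb := by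
    change ((a : LaurentSeries L) * (b : LaurentSeries L)).order = _
    exact HahnSeries.order_mul (coe_ne_zero ha) (coe_ne_zero hb)
  map_add _ _ _ _ hab := HahnSeries.min_order_le_order_add (coe_ne_zero hab)

theorem qOrder_algebraMap (a : L) : qOrder (algebraMap L (FL L N) a) = 0 := by
  change (algebraMap L (LaurentSeries L) a).order = 0
  rw [algebraMap_laurentSeries_eq_single]
  rcases eq_or_ne a 0 with rfl | ha
  · simp
  · exact HahnSeries.order_single ha

theorem qLead_ne_zero {f : FL L N} (hf : f ≠ 0) : qLead f ≠ 0 :=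
  HahnSeries.coeff_order_eq_zero.not.2 (coe_ne_zero hf)

theorem qLead_mul {a : L} (ha : a ≠ 0) (f : FL L N) :
    qLead (algebraMap L (FL L N) a * f) = a * qLead f := by
  rcases eq_or_ne f 0 with rfl | hf
  · simp [qLead]
  rw [qLead, isOrd_qOrder.map_mul _ _ ((map_ne_zero _).2 ha) hf, qOrder_algebraMap, zero_add]
  change (algebraMap L (LaurentSeries L) a * (f : LaurentSeries L)).coeff _ = _
  rw [algebraMap_laurentSeries_eq_single, HahnSeries.coeff_single_zero_mul]
  rfl

theorem qOrder_sub_qLead_pos {u : FL L N} (hu : qOrder u = 0)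
    (hz : u - algebraMap L (FL L N) (qLead u) ≠ 0) :
    0 < qOrder (u - algebraMap L (FL L N) (qLead u)) := by
  have h8 : ∀ k : ℤ, k ≤ 0 →
      ((u - algebraMap L (FL L N) (qLead u) : FL L N) : LaurentSeries L).coeff k = 0 := by
    intro k hk
    change ((u : LaurentSeries L) - algebraMap L (LaurentSeries L) (qLead u)).coeff k = 0
    rw [HahnSeries.coeff_sub, algebraMap_laurentSeries_eq_single]
    rcases eq_or_lt_of_le hk with rfl | hk0
    · rw [HahnSeries.coeff_single_same, qLead, hu, sub_self]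
    · rw [HahnSeries.coeff_single_of_ne hk0.ne, sub_zero]
      by_contra hne'
      have := HahnSeries.order_le_of_coeff_ne_zero hne'
      change qOrder u ≤ k at this
      omega
  by_contra hle0
  exact HahnSeries.coeff_order_eq_zero.not.2 (coe_ne_zero hz) (h8 _ (not_lt.1 hle0))

/-- **A canonical representative.** Some admissible `f₁` in the class of `f₀` with leading
coefficient `1` is the only such function whose order at `i∞` is at least its own. -/
theorem exists_canonical [IsAlgClosed L] [NeZero N] (ι : L →+* ℂ) {n : ℕ} (hn : n ≠ 0)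
    {f₀ : FL L N} (hf₀ : f₀ ≠ 0) :
    ∃ (m : ℕ) (f₁ : FL L N), Adm (K := L) n (jElt L N) f₀ m f₁ ∧ qLead f₁ = 1 ∧
      ∀ f, Adm (K := L) n (jElt L N) f₀ m f → qLead f = 1 → qOrder f₁ ≤ qOrder f → f = f₁ :=
  haveI := isFunctionField_FL (N := N) ι
  exists_canonical_aux hn (MFGenus.transcendental_jElt ι) hf₀ isOrd_qOrder qOrder_algebraMap
    (fun _ => qLead_ne_zero) (fun _ f ha => qLead_mul ha f) fun _ _ => qOrder_sub_qLead_pos

end Fermat.Agent.Kummer
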