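import Fermat.Agent.Kummer.Invariant
import Mathlib.LinearAlgebra.Basis.VectorSpace

/-!
# Descent of the field of constants

An invariant meromorphic function all of whose coefficients at `i∞` lie in `ι(L)` comes from the
modular function field over `L`.
-/

set_option autoImplicit false

noncomputable section

open HahnSeries
open CongruenceSubgroup

namespace Fermat.Agent.Kummer

open ModularCurve MeroH

/-- Multiplication by a series with coefficients in a subfield commutes with applying a linear
functional to the coefficients. -/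
theorem map_mul_of_coeff_linear (π : ℂ →+ ℂ) (x y : LaurentSeries ℂ)
    (hπ : ∀ k c, π (x.coeff k * c) = x.coeff k * π c) :
    (x * y).map π = x * y.map π := by
  ext a
  have hsub : (y.map π).support ⊆ y.support := fun k hk h0 => hk (by simp [h0])
  rw [HahnSeries.map_coeff, HahnSeries.coeff_mul, HahnSeries.coeff_mul_right' y.isPWO_support hsub,
    map_sum]
  exact Finset.sum_congr rfl fun ij _ => by rw [hπ, HahnSeries.map_coeff]

variable {L : Type*} [Field L] [Algebra ℚ L]

/-- **Descent of constants.** An invariant element of `MeroH`, meromorphic at the cusps, with all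
coefficients at `i∞` in `ι(L)`, comes from the function field over `L`. -/
theorem exists_embed_eq_of_coeff [Algebra ℚ ℂ] (ι : L →+* ℂ) {N : ℕ} [NeZero N] {x : MeroH}
    (hinv : ∀ γ ∈ Gamma0 N, slComp γ x = x) (hx : MeroAtCusps N x) {s : LaurentSeries ℂ}
    (hs : IsExp 1 x s) (hcoeff : ∀ k, ∃ a : L, ι a = s.coeff k) :
    ∃ z : laurentBaseChange L (modularFunctionFieldFull N), embed ι N z = x := by
  classical
  obtain ⟨z, hz⟩ := exists_embed_eq hinv hx
  have hsz : s = (z : LaurentSeries ℂ) := by
    have h := (hs.unique one_pos (isExp_embed (RingHom.id ℂ) z)).2 hz.symm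
    rwa [coeffMap_id] at h
  let _ : Algebra L ℂ := ι.toAlgebra
  have halg : ∀ a : L, algebraMap L ℂ a = ι a := fun a => rfl
  set S : Subfield (LaurentSeries ℂ) :=
    (laurentBaseChange L (modularFunctionFieldFull N)).toSubfield.map (coeffMap ι) with hS
  set A : Subalgebra ℂ (LaurentSeries ℂ) := Algebra.adjoin ℂ (S : Set (LaurentSeries ℂ)) with hA
  have hclosure : Submonoid.closure (S : Set (LaurentSeries ℂ)) = S.toSubring.toSubmonoid :=
    Submonoid.closure_eq S.toSubring.toSubmonoid
  -- applying a linear functional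
  have hW : ∀ y ∈ A, ∀ π : ℂ →ₗ[L] L, y.map (ι.toAddMonoidHom.comp π.toAddMonoidHom) ∈ S := by
    intro y hy
    rw [hA, ← Subalgebra.mem_toSubmodule, Algebra.adjoin_eq_span, hclosure] at hy
    induction hy using Submodule.span_induction with
    | mem y hy =>
      intro π
      obtain ⟨w, hw, rfl⟩ := Subfield.mem_map.1 (show y ∈ S from hy)
      have : (coeffMap ι w).map (ι.toAddMonoidHom.comp π.toAddMonoidHom) =
          HahnSeries.C (ι (π 1)) * coeffMap ι w := by
        ext k
        rw [HahnSeries.map_coeff, HahnSeries.C_mul_eq_smul, HahnSeries.coeff_smul, coeffMap_coeff]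
        change ι (π (ι (w.coeff k))) = ι (π 1) • ι (w.coeff k)
        rw [show ι (w.coeff k) = w.coeff k • (1 : ℂ) by rw [Algebra.smul_def, mul_one, halg],
          map_smul, smul_eq_mul, map_mul, smul_eq_mul]
        simp [Algebra.smul_def, halg, mul_comm]
      rw [this]
      exact mul_mem (Subfield.mem_map.2 ⟨algebraMap L _ (π 1),
        (laurentBaseChange L (modularFunctionFieldFull N)).algebraMap_mem _,
        coeffMap_algebraMap_laurent ι _⟩) (Subfield.mem_map.2 ⟨w, hw, rfl⟩)
    | zero =>
      intro π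
      have h0 : (0 : LaurentSeries ℂ).map (ι.toAddMonoidHom.comp π.toAddMonoidHom) = 0 := by
        ext k; simp
      rw [h0]; exact S.zero_mem
    | add a b _ _ ha hb =>
      intro π
      rw [HahnSeries.map_add]
      exact add_mem (ha π) (hb π)
    | smul c a _ ha =>
      intro π
      convert ha (π.comp (LinearMap.mulLeft L c)) using 1
      ext k
      rw [HahnSeries.map_coeff, HahnSeries.map_coeff, Algebra.smul_def,
        algebraMap_laurentSeries_eq_single, HahnSeries.coeff_single_zero_mul]
      rfl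
  -- the field over `ℂ` consists of quotients of elements of `A`
  have hzA : ∃ a ∈ A, ∃ b ∈ A, a / b = (z : LaurentSeries ℂ) := by
    obtain ⟨a, ha, b, hb, hab⟩ := Subfield.mem_closure_iff.1 (mem_laurentBaseChange_iff.1 z.2)
    have hsub : Subring.closure (Set.range (algebraMap ℂ (LaurentSeries ℂ)) ∪
        ⇑(coeffEmb ℂ) '' (modularFunctionFieldFull N : Set (LaurentSeries ℚ))) ≤ A.toSubring := by
      refine Subring.closure_le.2 ?_
      rintro y (⟨c, rfl⟩ | ⟨w, hw, rfl⟩)
      · exact Subalgebra.algebraMap_mem A c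
      · refine Algebra.subset_adjoin (Subfield.mem_map.2
          ⟨coeffEmb L w, coeffEmb_mem_laurentBaseChange L hw, ?_⟩)
        rw [coeffEmb, coeffMap_coeffMap]
        exact coeffMap_congr (RingHom.ext_rat _ _) w
    exact ⟨a, hsub ha, b, hsub hb, hab⟩
  obtain ⟨a, ha, b, hb, hab⟩ := hzA
  by_cases hb0 : b = 0
  · refine ⟨0, ?_⟩
    rw [hb0, div_zero] at hab
    rw [map_zero, ← hz, show z = 0 from Subtype.ext hab.symm, map_zero]
  obtain ⟨k, hk⟩ : ∃ k, b.coeff k ≠ 0 := by
    by_contra h
    push Not at h
    exact hb0 (HahnSeries.ext (funext h))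
  obtain ⟨π, hπ⟩ : ∃ π : ℂ →ₗ[L] L, π (b.coeff k) ≠ 0 := by
    obtain ⟨f, hf⟩ := LinearMap.exists_extend_of_notMem (p := (⊥ : Submodule L ℂ)) 0
      (by simpa using hk) (1 : L)
    exact ⟨f, by rw [hf.2]; exact one_ne_zero⟩
  set φ : ℂ →+ ℂ := ι.toAddMonoidHom.comp π.toAddMonoidHom with hφdef
  have hφ : s * b.map φ = a.map φ := by
    rw [← map_mul_of_coeff_linear φ s b, hsz, ← hab, div_mul_cancel₀ a hb0]
    intro j c
    obtain ⟨e, he⟩ := hcoeff j
    rw [← he]
    change ι (π (ι e * c)) = ι e * ι (π c)
    rw [show ι e * c = e • c from (Algebra.smul_def e c).symm, map_smul, smul_eq_mul, map_mul]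
  have hbne : b.map φ ≠ 0 := by
    intro h0
    have := congrArg (fun u : LaurentSeries ℂ => u.coeff k) h0
    exact hπ (ι.injective (this.trans (map_zero ι).symm))
  have hmem : s ∈ S := by
    rw [show s = a.map φ / b.map φ by rw [← hφ, mul_div_cancel_right₀ _ hbne]]
    exact div_mem (hW a ha π) (hW b hb π)
  obtain ⟨w, hw, hws⟩ := Subfield.mem_map.1 hmem
  exact ⟨⟨w, hw⟩, (embed_eq_iff ι _ x).2 (hws ▸ hs)⟩

end Fermat.Agent.Kummer
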