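import Fermat.Agent.Kummer.TorsionMap
import Fermat.Agent.MFGenus.AnalyticPlaces

/-!
# Roots with parabolic–elliptic multiplier have divisors divisible by `n`
-/

set_option autoImplicit false

noncomputable section

open CongruenceSubgroup AlgebraicCurve ModularCurve
open scoped MatrixGroups

namespace Fermat.Agent.Kummer

open MeroH
open Fermat.Agent.MFGenus (FL jElt ordInfty cuspEmbed cuspSubfield PointOrbit pointStab conjEmbed)
open Fermat.Agent.Cosets (parEllHoms mem_parEllHoms_iff)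

/-- At a degree one place, a regular element is a constant plus an element of positive order. -/
theorem exists_const_sub_ord_pos {K F : Type*} [Field K] [Field F] [Algebra K F]
    [IsAlgClosed K] [FF.IsFunctionField K F] (v : Place K F) {f : F}
    (hf : f ∈ v.toValuationSubring) :
    ∃ c : K, f = algebraMap K F c ∨ 0 < v.ord (f - algebraMap K F c) := by
  have h1 : Module.finrank K v.ResidueField = 1 := FF.deg_eq_one v
  obtain ⟨c, hc⟩ : ∃ c : K, c • (1 : v.ResidueField) =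
      IsLocalRing.residue v.toValuationSubring ⟨f, hf⟩ :=
    (finrank_eq_one_iff_of_nonzero' (1 : v.ResidueField) one_ne_zero).1 h1 _
  refine ⟨c, ?_⟩
  rcases eq_or_ne (f - algebraMap K F c) 0 with h | h
  · exact Or.inl (sub_eq_zero.1 h)
  refine Or.inr ?_
  have hz : IsLocalRing.residue v.toValuationSubring
      (⟨f, hf⟩ - algebraMap K v.toValuationSubring c) = 0 := by
    rw [map_sub, ← hc, Algebra.smul_def, mul_one, sub_eq_zero]
    rfl
  rw [IsLocalRing.residue_eq_zero_iff] at hz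
  have hmem := ValuationSubring.coe_mem_nonunits_iff.2 hz
  rw [AddSubgroupClass.coe_sub, Place.coe_algebraMap, ValuationSubring.mem_nonunits_iff_or,
    MFGenus.mem_iff_ord_nonneg v (inv_ne_zero h), v.ord_inv] at hmem
  have := hmem.resolve_left h
  omega

variable {N : ℕ} [NeZero N] {n : ℕ} [NeZero n] {G : MeroH}
  {φ : Additive (Gamma0 N) →+ ZMod n}

omit [NeZero N] in
theorem slComp_out_invariant (hG : HasMult G φ)
    (hφ : φ ∈ parEllHoms (ZMod n) (Gamma0 N) (ZMod n)) {g : SL(2, ℤ)}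
    (ht : (g : Matrix (Fin 2) (Fin 2) ℤ).trace ^ 2 ≤ 4) {q : SL(2, ℤ) ⧸ Gamma0 N}
    (hq : g • q = q) : slComp g (slComp q.out⁻¹ G) = slComp q.out⁻¹ G := by
  have hmem : q.out⁻¹ * g * q.out ∈ Gamma0 N := by
    rw [mul_assoc, ← QuotientGroup.eq, QuotientGroup.out_eq', ← smul_eq_mul,
      ← MulAction.Quotient.smul_coe, QuotientGroup.out_eq', hq]
  have htr : ((q.out⁻¹ * g * q.out : SL(2, ℤ)) : Matrix (Fin 2) (Fin 2) ℤ).trace ^ 2 ≤ 4 := by
    have h := Cosets.TraceClass.trace_conj q.out⁻¹ g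
    rw [inv_inv] at h
    rwa [h]
  rw [slComp_slComp, show q.out⁻¹ * g = (q.out⁻¹ * g * q.out) * q.out⁻¹ by group,
    ← slComp_slComp, hG ⟨_, hmem⟩, mem_parEllHoms_iff.1 hφ ⟨_, hmem⟩ htr, zeta_zero, map_one,
    one_mul]

variable {L : Type*} [Field L] [Algebra ℚ L] [IsAlgClosed L] (ι : L →+* ℂ) {f : FL L N}
  (hf : f ≠ 0) (hGf : G ^ n = embed ι N f) (hGc : MeroAtCusps N G) (hG : HasMult G φ)
  (hφ : φ ∈ parEllHoms (ZMod n) (Gamma0 N) (ZMod n))

include hf hGf hGc hG hφ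

theorem dvd_ord_cusp (v : Place L (FL L N)) (hv : 0 < v.ord (jElt L N)⁻¹) :
    (n : ℤ) ∣ v.ord f := by
  obtain ⟨e, he⟩ := MFGenus.exists_cusp_equiv (N := N) ι
  obtain ⟨q, hq⟩ := Quotient.mk''_surjective (e.symm ⟨v, hv⟩)
  obtain ⟨-, h⟩ := he q
  have h1 := h f hf
  rw [hq, Equiv.apply_symm_apply] at h1
  set w := Cosets.cuspWidth q
  obtain ⟨t, ht⟩ := hGc q.out⁻¹
  let y : cuspSubfield N := ⟨slComp q.out⁻¹ G, t, ht⟩
  have hpow : cuspEmbed ι q f = y ^ n := Subtype.ext (by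
    change slComp q.out⁻¹ (embed ι N f) = slComp q.out⁻¹ G ^ n
    rw [← hGf, map_pow])
  have hy0 : y ≠ 0 := fun h0 => by
    rw [h0, zero_pow (NeZero.ne n)] at hpow
    exact (map_ne_zero _).2 hf hpow
  obtain ⟨k, hk⟩ := MFGenus.dvd_ordInfty (MFGenus.cuspWidth_dvd q) hy0 (slComp_out_invariant hG hφ
    (g := ModularGroup.T ^ (w : ℤ)) (by rw [Cosets.trace_T_zpow]; norm_num)
    ((Cosets.T_zpow_smul_eq_self_iff _ q).2 dvd_rfl))
  rw [hpow, (MFGenus.isOrd_ordInfty N).map_pow hy0, hk] at h1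
  have hpos : ((N / w : ℕ) : ℤ) ≠ 0 := by
    exact_mod_cast (Nat.div_pos (Nat.le_of_dvd (NeZero.pos N) (MFGenus.cuspWidth_dvd q))
      (Cosets.cuspWidth_pos q)).ne'
  exact ⟨k, mul_right_cancel₀ hpos (by linear_combination -h1)⟩

omit hGc in
theorem dvd_ord_point {τ₀ : UpperHalfPlane} {x₀ : L} (hx₀ : ι x₀ = LevelOne.jFun τ₀)
    {g : SL(2, ℤ)} (hg : g • τ₀ = τ₀) {m : ℕ}
    (hord : analyticOrderAt
      (fun w => LevelOne.jFun (UpperHalfPlane.ofComplex w) - LevelOne.jFun τ₀) τ₀ = (m : ℕ))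
    (hm : m = 1 ∨ m.Prime ∧ MFGenus.rot g⁻¹ τ₀ ≠ 1 ∧ MFGenus.rot g⁻¹ τ₀ ^ m = 1)
    (hgm : ∀ q : SL(2, ℤ) ⧸ Gamma0 N, g ^ m • q = q)
    (htr : ((g⁻¹ : SL(2, ℤ)) : Matrix (Fin 2) (Fin 2) ℤ).trace ^ 2 ≤ 4)
    (v : Place L (FL L N)) (hv : 0 < v.ord (jElt L N - algebraMap L (FL L N) x₀)) :
    (n : ℤ) ∣ v.ord f := by
  obtain ⟨e, he⟩ := MFGenus.exists_point_equiv (N := N) ι hx₀ hg hord hm hgm
  obtain ⟨o, ho⟩ : ∃ o, e o = ⟨v, hv⟩ := e.surjective _
  obtain ⟨-, h⟩ := he o.out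
  have h1 := h f hf
  rw [Quotient.out_eq', ho] at h1
  set y := slComp o.out.out⁻¹ G with hy
  have hpow : conjEmbed ι o.out f = y ^ n := by
    change slComp o.out.out⁻¹ (embed ι N f) = y ^ n
    rw [← hGf, map_pow]
  have hy0 : y ≠ 0 := fun h0 => by
    rw [h0, zero_pow (NeZero.ne n)] at hpow
    exact (map_ne_zero _).2 hf hpow
  obtain ⟨k, hk⟩ : ((pointStab m o : ℕ) : ℤ) ∣ MFGenus.ordPoint τ₀ y := by
    rw [pointStab]
    split_ifs with hfix
    · rcases hm with rfl | ⟨hp, hz1, hzp⟩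
      · exact one_dvd _
      have hgi : g⁻¹ • τ₀ = τ₀ := by rw [inv_smul_eq_iff, hg]
      refine MFGenus.prime_dvd_of_zpow_eq_one hp hz1 hzp
        (MFGenus.rot_zpow_ordPoint hgi hy0 (slComp_out_invariant hG hφ htr ?_))
      rw [inv_smul_eq_iff, hfix]
    · exact one_dvd _
  rw [hpow, (MFGenus.isOrd_ordPoint τ₀).map_pow hy0, hk] at h1
  have hpos : ((pointStab m o : ℕ) : ℤ) ≠ 0 := by
    rw [pointStab]
    split_ifs
    · rcases hm with rfl | ⟨hp, -, -⟩
      · simp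
      · exact_mod_cast hp.pos.ne'
    · simp
  exact ⟨k, mul_right_cancel₀ hpos (by linear_combination -h1)⟩

/-- If `f` is the `n`-th power of a function with parabolic–elliptic multiplier, then its divisor
is a multiple of `n`. -/
theorem dvd_ord_of_hasMult (v : Place L (FL L N)) : (n : ℤ) ∣ v.ord f := by
  have := isFunctionField_FL (N := N) ι
  rcases lt_or_ge 0 (v.ord (jElt L N)⁻¹) with hv | hv
  · exact dvd_ord_cusp ι hf hGf hGc hG hφ v hv
  rw [v.ord_inv, neg_nonpos] at hv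
  have hj0 : jElt L N ≠ 0 := fun h => MFGenus.transcendental_jElt (N := N) ι
    (h ▸ isAlgebraic_zero)
  obtain ⟨x₀, hx⟩ := exists_const_sub_ord_pos v ((MFGenus.mem_iff_ord_nonneg v hj0).2 hv)
  have hpos : 0 < v.ord (jElt L N - algebraMap L (FL L N) x₀) := hx.resolve_left fun h =>
    MFGenus.transcendental_jElt (N := N) ι (h ▸ isAlgebraic_algebraMap x₀)
  have htr1 : ((1⁻¹ : SL(2, ℤ)) : Matrix (Fin 2) (Fin 2) ℤ).trace ^ 2 ≤ 4 := by
    simp
  by_cases h0 : ι x₀ = 0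
  · refine dvd_ord_point ι hf hGf hG hφ (τ₀ := LevelOne.rho) (h0.trans LevelOne.jFun_rho.symm)
      (g := ModularGroup.S * ModularGroup.T) ?_ (m := 3)
      (LevelOne.analyticOrderAt_jFun_of_E₄_eq_zero LevelOne.E₄_rho)
      (Or.inr ⟨Nat.prime_three, ?_, ?_⟩) Cosets.ST_pow_three_smul ?_ v hpos
    · apply UpperHalfPlane.ext
      rw [Poincare.coe_smul_apply, div_eq_iff (Poincare.denom_ne_zero' _ _),
        show (ModularGroup.S * ModularGroup.T) 0 0 = 0 by decide,
        show (ModularGroup.S * ModularGroup.T) 0 1 = -1 by decide,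
        show (ModularGroup.S * ModularGroup.T) 1 0 = 1 by decide,
        show (ModularGroup.S * ModularGroup.T) 1 1 = 1 by decide]
      push_cast
      linear_combination -LevelOne.rho_sq_add
    · intro h
      rw [MFGenus.rot, show (ModularGroup.S * ModularGroup.T)⁻¹ 1 0 = -1 by decide,
        show (ModularGroup.S * ModularGroup.T)⁻¹ 1 1 = 0 by decide] at h
      simp at h
      rcases h with h | h <;>
        · have := congrArg Complex.im h
          simp [LevelOne.rho] at this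
    · have h2 := LevelOne.rho_sq_add
      have h3 : (LevelOne.rho : ℂ) ^ 3 = 1 := by linear_combination ((LevelOne.rho : ℂ) - 1) * h2
      rw [MFGenus.rot, show (ModularGroup.S * ModularGroup.T)⁻¹ 1 0 = -1 by decide,
        show (ModularGroup.S * ModularGroup.T)⁻¹ 1 1 = 0 by decide]
      push_cast
      rw [div_pow, one_pow, add_zero, neg_one_mul, neg_sq, ← pow_mul,
        show 2 * 3 = 3 * 2 from rfl, pow_mul, h3, one_pow, div_one]
    · decide
  by_cases h1728 : ι x₀ = 1728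
  · refine dvd_ord_point ι hf hGf hG hφ (τ₀ := UpperHalfPlane.I)
      (h1728.trans LevelOne.jFun_I.symm) (g := ModularGroup.S) ?_ (m := 2)
      (LevelOne.analyticOrderAt_jFun_of_E₆_eq_zero LevelOne.E₆_I)
      (Or.inr ⟨Nat.prime_two, ?_, ?_⟩) ?_ ?_ v hpos
    · apply UpperHalfPlane.ext
      rw [Poincare.coe_smul_apply, div_eq_iff (Poincare.denom_ne_zero' _ _)]
      simp [ModularGroup.S]
    · rw [MFGenus.rot, show ModularGroup.S⁻¹ 1 0 = -1 by decide,
        show ModularGroup.S⁻¹ 1 1 = 0 by decide]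
      simp
      norm_num
    · rw [MFGenus.rot, show ModularGroup.S⁻¹ 1 0 = -1 by decide,
        show ModularGroup.S⁻¹ 1 1 = 0 by decide]
      simp
    · intro q
      rw [pow_two, mul_smul, Cosets.S_smul_S_smul]
    · decide
  obtain ⟨τ, hτ⟩ := LevelOne.jFun_surjective (ι x₀)
  refine dvd_ord_point ι hf hGf hG hφ hτ.symm (g := 1) (one_smul _ _) (m := 1)
    (LevelOne.analyticOrderAt_jFun_sub ?_ ?_) (Or.inl rfl) (fun q => by simp) htr1 v hpos
  · exact fun h => h0 (hτ.symm.trans (LevelOne.jFun_eq_zero_iff.2 h))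
  · exact fun h => h1728 (hτ.symm.trans (LevelOne.jFun_eq_1728_iff.2 h))

end Fermat.Agent.Kummer
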