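import Mathlib.Analysis.SpecialFunctions.Complex.Analytic
import Mathlib.RingTheory.LaurentSeries
import Mathlib.RingTheory.PowerSeries.Basic

/-!
# Laurent expansions at `0` of meromorphic functions

`HasLaurent F s` means that, on a punctured neighbourhood of `0`, `F z = z ^ n * g z` with `g`
analytic at `0` and `s = X ^ n * (Taylor series of g)`.
-/

set_option autoImplicit false

noncomputable section

open Filter Topology

namespace Fermat.Agent.Kummer

/-- Taylor series at `0`. -/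
def taylor (g : ℂ → ℂ) : PowerSeries ℂ :=
  PowerSeries.mk fun n => (↑n.factorial)⁻¹ * iteratedDeriv n g 0

theorem coeff_taylor (g : ℂ → ℂ) (n : ℕ) :
    (taylor g).coeff n = (↑n.factorial)⁻¹ * iteratedDeriv n g 0 := by simp [taylor]

theorem taylor_mul {f g : ℂ → ℂ} (hf : AnalyticAt ℂ f 0) (hg : AnalyticAt ℂ g 0) :
    taylor (f * g) = taylor f * taylor g := by
  ext
  simp only [coeff_taylor, iteratedDeriv_mul hf.contDiffAt hg.contDiffAt, Finset.mul_sum,
    PowerSeries.coeff_mul, Finset.Nat.sum_antidiagonal_eq_sum_range_succ_mk,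
    Nat.succ_eq_add_one]
  refine Finset.sum_congr rfl fun i hi => ?_
  rw [Nat.cast_choose _ (by grind)]
  field_simp [Nat.factorial_ne_zero]

theorem taylor_add {f g : ℂ → ℂ} (hf : AnalyticAt ℂ f 0) (hg : AnalyticAt ℂ g 0) :
    taylor (f + g) = taylor f + taylor g := by
  ext m
  simp [coeff_taylor, iteratedDeriv_add hf.contDiffAt hg.contDiffAt, mul_add]

theorem taylor_const (c : ℂ) : taylor (fun _ => c) = PowerSeries.C c := by
  ext m
  rcases m with _ | m <;> simp [coeff_taylor, iteratedDeriv_const, PowerSeries.coeff_C]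

theorem taylor_congr {f g : ℂ → ℂ} (h : f =ᶠ[𝓝 0] g) : taylor f = taylor g := by
  ext m
  rw [coeff_taylor, coeff_taylor, h.iteratedDeriv_eq]

theorem constantCoeff_taylor (g : ℂ → ℂ) : PowerSeries.constantCoeff (taylor g) = g 0 := by
  rw [← PowerSeries.coeff_zero_eq_constantCoeff_apply, coeff_taylor]
  simp

theorem hasFPowerSeriesAt_taylor {g : ℂ → ℂ} (hg : AnalyticAt ℂ g 0) :
    HasFPowerSeriesAt g (FormalMultilinearSeries.ofScalars ℂ fun n => (taylor g).coeff n) 0 := by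
  have h : (fun n => (taylor g).coeff n) = fun n => iteratedDeriv n g 0 / n.factorial := by
    funext n
    rw [coeff_taylor, div_eq_inv_mul]
  rw [h]
  exact hg.hasFPowerSeriesAt

theorem eventuallyEq_of_taylor_eq {f g : ℂ → ℂ} (hf : AnalyticAt ℂ f 0) (hg : AnalyticAt ℂ g 0)
    (h : taylor f = taylor g) : f =ᶠ[𝓝 0] g := by
  obtain ⟨r, hr⟩ := hasFPowerSeriesAt_taylor hf
  obtain ⟨r', hr'⟩ := hasFPowerSeriesAt_taylor hg
  rw [← h] at hr'
  have hR : (0 : ENNReal) < min r r' := lt_min hr.r_pos hr'.r_pos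
  exact ((hr.mono hR (min_le_left _ _)).unique (hr'.mono hR (min_le_right _ _))).eventuallyEq_of_mem
    (Metric.eball_mem_nhds 0 hR)

theorem taylor_eq_mk_of_hasSum {g : ℂ → ℂ} {a : ℕ → ℂ}
    (h : ∀ᶠ z in 𝓝 (0 : ℂ), HasSum (fun n => z ^ n * a n) (g z)) :
    AnalyticAt ℂ g 0 ∧ taylor g = PowerSeries.mk a := by
  have hp : HasFPowerSeriesAt g (FormalMultilinearSeries.ofScalars ℂ a) 0 := by
    rw [hasFPowerSeriesAt_iff]
    filter_upwards [h] with z hz
    simpa [FormalMultilinearSeries.coeff_ofScalars, smul_eq_mul] using hz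
  refine ⟨hp.analyticAt, ?_⟩
  have := (hasFPowerSeriesAt_taylor hp.analyticAt).eq_formalMultilinearSeries hp
  ext n
  have h' := congrArg (fun p : FormalMultilinearSeries ℂ ℂ ℂ => p.coeff n) this
  simpa [FormalMultilinearSeries.coeff_ofScalars] using h'

theorem taylor_id_pow (k : ℕ) : taylor (fun z => z ^ k) = PowerSeries.X ^ k := by
  have h : ∀ᶠ z in 𝓝 (0 : ℂ),
      HasSum (fun n => z ^ n * (if n = k then 1 else 0)) ((fun z => z ^ k) z) := by
    refine Eventually.of_forall fun z => ?_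
    refine (hasSum_ite_eq k (z ^ k)).congr_fun fun n => ?_
    split_ifs with hn
    · rw [hn, mul_one]
    · rw [mul_zero]
  rw [(taylor_eq_mk_of_hasSum h).2]
  ext n
  simp [PowerSeries.coeff_X_pow]

theorem eventually_hasSum_taylor {g : ℂ → ℂ} (hg : AnalyticAt ℂ g 0) :
    ∀ᶠ z in 𝓝 (0 : ℂ), HasSum (fun n => z ^ n * (taylor g).coeff n) (g z) := by
  have := (hasFPowerSeriesAt_iff.1 (hasFPowerSeriesAt_taylor hg))
  filter_upwards [this] with z hz
  simpa [FormalMultilinearSeries.coeff_ofScalars, smul_eq_mul] using hz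

/-- The Laurent series `X ^ n * p`. -/
def shiftSeries (n : ℤ) (p : PowerSeries ℂ) : LaurentSeries ℂ :=
  HahnSeries.single n 1 * HahnSeries.ofPowerSeries ℤ ℂ p

theorem shiftSeries_mul (n m : ℤ) (p q : PowerSeries ℂ) :
    shiftSeries n p * shiftSeries m q = shiftSeries (n + m) (p * q) := by
  simp only [shiftSeries, map_mul]
  rw [mul_mul_mul_comm, HahnSeries.single_mul_single, one_mul]

theorem shiftSeries_add_nat (n : ℤ) (k : ℕ) (p : PowerSeries ℂ) :
    shiftSeries (n + k) p = shiftSeries n (PowerSeries.X ^ k * p) := by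
  simp only [shiftSeries, map_mul, HahnSeries.ofPowerSeries_X_pow]
  rw [← mul_assoc, HahnSeries.single_mul_single, one_mul]

/-- `F` has Laurent expansion `s` at `0`. -/
def HasLaurent (F : ℂ → ℂ) (s : LaurentSeries ℂ) : Prop :=
  ∃ (n : ℤ) (g : ℂ → ℂ), AnalyticAt ℂ g 0 ∧ F =ᶠ[𝓝[≠] 0] (fun z => z ^ n * g z) ∧
    s = shiftSeries n (taylor g)

namespace HasLaurent

theorem congr {F F' : ℂ → ℂ} {s : LaurentSeries ℂ} (h : HasLaurent F s)
    (he : F =ᶠ[𝓝[≠] 0] F') : HasLaurent F' s := by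
  obtain ⟨n, g, hg, hF, hs⟩ := h
  exact ⟨n, g, hg, he.symm.trans hF, hs⟩

theorem of_analytic {g : ℂ → ℂ} (hg : AnalyticAt ℂ g 0) :
    HasLaurent g (HahnSeries.ofPowerSeries ℤ ℂ (taylor g)) := by
  refine ⟨0, g, hg, ?_, ?_⟩
  · filter_upwards with z
    simp
  · simp [shiftSeries]

theorem const (c : ℂ) : HasLaurent (fun _ => c) (HahnSeries.C c) := by
  simpa [taylor_const, HahnSeries.ofPowerSeries_C] using
    of_analytic (g := fun _ => c) analyticAt_const

theorem meromorphicAt {F : ℂ → ℂ} {s : LaurentSeries ℂ} (h : HasLaurent F s) :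
    MeromorphicAt F 0 := by
  obtain ⟨n, g, hg, hF, -⟩ := h
  exact (((MeromorphicAt.id 0).zpow n).mul hg.meromorphicAt).congr hF.symm

theorem of_meromorphicAt {F : ℂ → ℂ} (h : MeromorphicAt F 0) : ∃ s, HasLaurent F s := by
  obtain ⟨n, g, hg, hF⟩ := MeromorphicAt.iff_eventuallyEq_zpow_smul_analyticAt.1 h
  exact ⟨_, n, g, hg, EventuallyEq.trans hF (Eventually.of_forall fun z => by simp), rfl⟩

theorem lower {F : ℂ → ℂ} {n : ℤ} {g : ℂ → ℂ} (hg : AnalyticAt ℂ g 0)
    (hF : F =ᶠ[𝓝[≠] 0] fun z => z ^ n * g z) (k : ℕ) :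
    ∃ g' : ℂ → ℂ, AnalyticAt ℂ g' 0 ∧ (F =ᶠ[𝓝[≠] 0] fun z => z ^ (n - k) * g' z) ∧
      shiftSeries n (taylor g) = shiftSeries (n - k) (taylor g') := by
  refine ⟨(fun z => z ^ k) * g, (analyticAt_id.pow k).mul hg, ?_, ?_⟩
  · filter_upwards [hF, self_mem_nhdsWithin] with z hz hz0
    rw [hz, Pi.mul_apply, ← mul_assoc, ← zpow_natCast z k, ← zpow_add₀ hz0, sub_add_cancel]
  · rw [taylor_mul (f := fun z => z ^ k) (analyticAt_id.pow k) hg, taylor_id_pow,
      ← shiftSeries_add_nat, sub_add_cancel]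

theorem add {F F' : ℂ → ℂ} {s s' : LaurentSeries ℂ} (h : HasLaurent F s)
    (h' : HasLaurent F' s') : HasLaurent (F + F') (s + s') := by
  obtain ⟨n, g, hg, hF, rfl⟩ := h
  obtain ⟨m, g', hg', hF', rfl⟩ := h'
  obtain ⟨a, ha, hFa, hea⟩ := lower hg hF (n - min n m).toNat
  obtain ⟨b, hb, hFb, heb⟩ := lower hg' hF' (m - min n m).toNat
  have e1 : n - ((n - min n m).toNat : ℤ) = min n m := by omega
  have e2 : m - ((m - min n m).toNat : ℤ) = min n m := by omega
  rw [e1] at hFa hea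
  rw [e2] at hFb heb
  refine ⟨min n m, a + b, ha.add hb, ?_, ?_⟩
  · filter_upwards [hFa, hFb] with z hz hz'
    rw [Pi.add_apply, hz, hz', Pi.add_apply, mul_add]
  · rw [hea, heb, taylor_add ha hb, shiftSeries, shiftSeries, shiftSeries, map_add, mul_add]

theorem mul {F F' : ℂ → ℂ} {s s' : LaurentSeries ℂ} (h : HasLaurent F s)
    (h' : HasLaurent F' s') : HasLaurent (F * F') (s * s') := by
  obtain ⟨n, g, hg, hF, rfl⟩ := h
  obtain ⟨m, g', hg', hF', rfl⟩ := h'
  refine ⟨n + m, g * g', hg.mul hg', ?_, ?_⟩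
  · filter_upwards [hF, hF', self_mem_nhdsWithin] with z hz hz' hz0
    rw [Pi.mul_apply, hz, hz', Pi.mul_apply, zpow_add₀ hz0]
    ring
  · rw [shiftSeries_mul, taylor_mul hg hg']

theorem neg {F : ℂ → ℂ} {s : LaurentSeries ℂ} (h : HasLaurent F s) : HasLaurent (-F) (-s) := by
  have := (const (-1)).mul h
  rw [map_neg, map_one, neg_one_mul s] at this
  exact this.congr (Eventually.of_forall fun z => by simp)

theorem sub {F F' : ℂ → ℂ} {s s' : LaurentSeries ℂ} (h : HasLaurent F s)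
    (h' : HasLaurent F' s') : HasLaurent (F - F') (s - s') := by
  simpa [sub_eq_add_neg] using h.add h'.neg

theorem series_eq_zero_iff {F : ℂ → ℂ} {s : LaurentSeries ℂ} (h : HasLaurent F s) :
    s = 0 ↔ ∀ᶠ z in 𝓝[≠] 0, F z = 0 := by
  obtain ⟨n, g, hg, hF, rfl⟩ := h
  have h1 : shiftSeries n (taylor g) = 0 ↔ taylor g = 0 := by
    simp [shiftSeries, map_eq_zero_iff _ HahnSeries.ofPowerSeries_injective]
  have h2 : taylor (0 : ℂ → ℂ) = 0 := by
    simpa [Pi.zero_def] using taylor_const 0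
  rw [h1]
  constructor
  · intro ht
    have h0 : g =ᶠ[𝓝 0] 0 := eventuallyEq_of_taylor_eq hg analyticAt_const (by rw [ht, h2])
    filter_upwards [hF, mem_nhdsWithin_of_mem_nhds h0] with z hz hz0
    rw [hz]
    simp [show g z = 0 from hz0]
  · intro h0
    have : ∀ᶠ z in 𝓝[≠] (0 : ℂ), g z = 0 := by
      filter_upwards [hF, h0, self_mem_nhdsWithin] with z hz hz0 hne
      rw [hz0] at hz
      exact (mul_eq_zero.1 hz.symm).resolve_left (zpow_ne_zero n hne)
    rw [taylor_congr (g := (0 : ℂ → ℂ)) (hg.frequently_zero_iff_eventually_zero.1 this.frequently),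
      h2]

theorem unique {F F' : ℂ → ℂ} {s s' : LaurentSeries ℂ} (h : HasLaurent F s)
    (h' : HasLaurent F' s') : F =ᶠ[𝓝[≠] 0] F' ↔ s = s' := by
  rw [← sub_eq_zero (a := s), (h.sub h').series_eq_zero_iff]
  exact eventually_congr (Eventually.of_forall fun z => by simp [sub_eq_zero])

theorem exists_inv {F : ℂ → ℂ} {s : LaurentSeries ℂ} (h : HasLaurent F s) :
    HasLaurent F⁻¹ s⁻¹ := by
  obtain ⟨t, ht⟩ := of_meromorphicAt h.meromorphicAt.inv
  by_cases hs : s = 0
  · subst hs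
    have h0 : ∀ᶠ z in 𝓝[≠] 0, F⁻¹ z = 0 := by
      filter_upwards [h.series_eq_zero_iff.1 rfl] with z hz
      simp [hz]
    rwa [ht.series_eq_zero_iff.2 h0, ← inv_zero] at ht
  · have hev : ∀ᶠ z in 𝓝[≠] 0, F z ≠ 0 := by
      rcases h.meromorphicAt.eventually_eq_zero_or_eventually_ne_zero with h0 | h0
      · exact absurd (h.series_eq_zero_iff.2 h0) hs
      · exact h0
    have : s * t = 1 := by
      rw [← map_one HahnSeries.C]
      refine ((h.mul ht).unique (const 1)).1 ?_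
      filter_upwards [hev] with z hz
      simp [hz]
    rwa [← eq_inv_of_mul_eq_one_right this]

/-- Substituting `z ↦ ω * z`. -/
theorem comp_mul_left {F : ℂ → ℂ} {s : LaurentSeries ℂ} (h : HasLaurent F s) {ω : ℂ}
    (hω : ω ≠ 0) : ∃ t, HasLaurent (fun z => F (ω * z)) t ∧ ∀ k, t.coeff k = ω ^ k * s.coeff k := by
  obtain ⟨n, g, hg, hF, rfl⟩ := h
  have hlim : Tendsto (fun z : ℂ => ω * z) (𝓝 0) (𝓝 0) := by
    simpa using (continuous_const_mul ω).tendsto (0 : ℂ)
  have hs : ∀ᶠ z in 𝓝 (0 : ℂ),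
      HasSum (fun m => z ^ m * (ω ^ n * ω ^ m * (taylor g).coeff m)) (ω ^ n * g (ω * z)) := by
    filter_upwards [hlim.eventually (eventually_hasSum_taylor hg)] with z hz
    refine (hz.mul_left (ω ^ n)).congr_fun fun m => ?_
    rw [mul_pow]; ring
  obtain ⟨hg', ht⟩ := taylor_eq_mk_of_hasSum hs
  refine ⟨_, ⟨n, fun z => ω ^ n * g (ω * z), hg', ?_, rfl⟩, fun k => ?_⟩
  · have hmul : Tendsto (fun z : ℂ => ω * z) (𝓝[≠] 0) (𝓝[≠] 0) :=
      tendsto_nhdsWithin_of_tendsto_nhds_of_eventually_within _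
        (hlim.mono_left nhdsWithin_le_nhds)
        (eventually_mem_nhdsWithin.mono fun z hz => mul_ne_zero hω hz)
    filter_upwards [hmul.eventually hF] with z hz
    rw [hz, mul_zpow]; ring
  · rw [ht, shiftSeries, shiftSeries, HahnSeries.coeff_single_mul, one_mul,
      HahnSeries.coeff_single_mul, one_mul]
    rcases lt_or_ge (k - n) 0 with hk | hk
    · have : ∀ p : PowerSeries ℂ, (HahnSeries.ofPowerSeries ℤ ℂ p).coeff (k - n) = 0 := by
        intro p
        rw [HahnSeries.ofPowerSeries_apply]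
        refine HahnSeries.embDomain_of_notMem_range ?_
        rintro ⟨m, hm⟩
        change (m : ℤ) = k - n at hm
        omega
      rw [this, this, mul_zero]
    · obtain ⟨m, hm⟩ := Int.eq_ofNat_of_zero_le hk
      rw [hm, HahnSeries.ofPowerSeries_apply_coeff, HahnSeries.ofPowerSeries_apply_coeff,
        PowerSeries.coeff_mk, show k = n + m by omega, zpow_add₀ hω, zpow_natCast]

/-- Substituting `z ↦ z ^ d`. -/
theorem comp_pow {F : ℂ → ℂ} {s : LaurentSeries ℂ} (h : HasLaurent F s) {d : ℕ} (hd : d ≠ 0) :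
    ∃ t, HasLaurent (fun z => F (z ^ d)) t ∧ (∀ k, t.coeff ((d : ℤ) * k) = s.coeff k) ∧
      ∀ k, ¬ (d : ℤ) ∣ k → t.coeff k = 0 := by
  obtain ⟨n, g, hg, hF, rfl⟩ := h
  have hlim : Tendsto (fun z : ℂ => z ^ d) (𝓝 0) (𝓝 0) := by
    simpa [hd] using (continuous_pow d).tendsto (0 : ℂ)
  set b : ℕ → ℂ := fun m => if d ∣ m then (taylor g).coeff (m / d) else 0 with hb
  have hs : ∀ᶠ z in 𝓝 (0 : ℂ), HasSum (fun m => z ^ m * b m) (g (z ^ d)) := by
    filter_upwards [hlim.eventually (eventually_hasSum_taylor hg)] with z hz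
    refine ((mul_right_injective₀ hd).hasSum_iff ?_).1 ?_
    · intro m hm
      rw [hb]
      simp only
      rw [if_neg, mul_zero]
      rintro ⟨c, rfl⟩
      exact hm ⟨c, rfl⟩
    · refine hz.congr_fun fun m => ?_
      simp [hb, pow_mul, Nat.pos_of_ne_zero hd]
  obtain ⟨hg', ht⟩ := taylor_eq_mk_of_hasSum hs
  refine ⟨_, ⟨d * n, fun z => g (z ^ d), hg', ?_, rfl⟩, fun k => ?_, fun k hk => ?_⟩
  · have hpow : Tendsto (fun z : ℂ => z ^ d) (𝓝[≠] 0) (𝓝[≠] 0) :=
      tendsto_nhdsWithin_of_tendsto_nhds_of_eventually_within _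
        (hlim.mono_left nhdsWithin_le_nhds)
        (eventually_mem_nhdsWithin.mono fun z hz => pow_ne_zero d hz)
    filter_upwards [hpow.eventually hF] with z hz
    rw [hz, ← zpow_natCast, ← zpow_mul]
  · rw [ht, shiftSeries, shiftSeries, HahnSeries.coeff_single_mul, one_mul,
      HahnSeries.coeff_single_mul, one_mul]
    rcases lt_or_ge (k - n) 0 with hk | hk
    · have h' : ∀ (p : PowerSeries ℂ) (j : ℤ), j < 0 →
          (HahnSeries.ofPowerSeries ℤ ℂ p).coeff j = 0 := by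
        intro p j hj
        rw [HahnSeries.ofPowerSeries_apply]
        refine HahnSeries.embDomain_of_notMem_range ?_
        rintro ⟨m, hm⟩
        change (m : ℤ) = j at hm
        omega
      have hd' : (d : ℤ) * k - d * n < 0 := by
        rw [← mul_sub]
        exact mul_neg_of_pos_of_neg (by omega) hk
      rw [h' _ _ hd', h' _ _ hk]
    · obtain ⟨m, hm⟩ := Int.eq_ofNat_of_zero_le hk
      rw [← mul_sub, hm, ← Nat.cast_mul, HahnSeries.ofPowerSeries_apply_coeff,
        HahnSeries.ofPowerSeries_apply_coeff, PowerSeries.coeff_mk, hb]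
      simp [Nat.pos_of_ne_zero hd]
  · rw [ht, shiftSeries, HahnSeries.coeff_single_mul, one_mul]
    rcases lt_or_ge (k - d * n) 0 with hk' | hk'
    · rw [HahnSeries.ofPowerSeries_apply]
      refine HahnSeries.embDomain_of_notMem_range ?_
      rintro ⟨m, hm⟩
      change (m : ℤ) = k - d * n at hm
      omega
    · obtain ⟨m, hm⟩ := Int.eq_ofNat_of_zero_le hk'
      rw [hm, HahnSeries.ofPowerSeries_apply_coeff, PowerSeries.coeff_mk, hb]
      simp only
      rw [if_neg]
      rintro ⟨c, hc⟩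
      exact hk ⟨n + c, by rw [mul_add, ← sub_eq_iff_eq_add', hm, hc]; simp⟩

end HasLaurent

end Fermat.Agent.Kummer
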