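import Fermat.Agent.Kummer.NthRoot
import Fermat.Agent.Kummer.Laurent
import Mathlib.NumberTheory.ModularForms.QExpansion
import Mathlib.Analysis.Complex.Polynomial.Basic

/-!
# Expansions at infinity of elements of `MeroH`

`MeroH.IsExp h x s`: for large imaginary part, `x z = F (exp (2 π i z / h))` with `F` meromorphic at
`0` with Laurent series `s`.
-/

set_option autoImplicit false

noncomputable section

open Filter Topology Complex
open UpperHalfPlane hiding I continuous_im im re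
open Function (Periodic)
open scoped MatrixGroups Manifold

namespace Fermat.Agent.Kummer

/-- `Im z → ∞`. -/
abbrev imAtTop : Filter ℂ := Filter.comap Complex.im atTop

theorem eventually_imAtTop_lt (A : ℝ) : ∀ᶠ z in imAtTop, A < z.im :=
  preimage_mem_comap (Ioi_mem_atTop A)

theorem exists_of_eventually_imAtTop {p : ℂ → Prop} (h : ∀ᶠ z in imAtTop, p z) :
    ∃ A : ℝ, ∀ z : ℂ, A < z.im → p z := by
  rw [Filter.Eventually, mem_comap] at h
  obtain ⟨t, ht, hsub⟩ := h
  obtain ⟨A, hA⟩ := mem_atTop_sets.1 ht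
  exact ⟨A, fun z hz => hsub (hA z.im hz.le)⟩

/-- Germs at `i∞`, up to discrete sets. -/
abbrev cuspFilter : Filter ℂ := uhpFilter ⊓ imAtTop

theorem eventually_cuspFilter_of {p : ℂ → Prop} (A : ℝ)
    (h : ∀ z : ℂ, A < z.im → 0 < z.im → p z) : ∀ᶠ z in cuspFilter, p z := by
  have h1 : ∀ᶠ z in cuspFilter, 0 < z.im :=
    (show ∀ᶠ z in uhpFilter, z ∈ uhp from self_mem_codiscreteWithin uhp).filter_mono inf_le_left
  filter_upwards [h1, (eventually_imAtTop_lt A).filter_mono inf_le_right] with z h0 hA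
  exact h z hA h0

theorem eventually_cuspFilter_of_nhdsNE {p : ℂ → Prop} (A : ℝ)
    (h : ∀ z ∈ uhp, A < z.im → ∀ᶠ w in 𝓝[≠] z, p w) : ∀ᶠ z in cuspFilter, p z := by
  have h1 : ∀ᶠ z in uhpFilter, z.im ≤ A + 1 ∨ p z := by
    rw [eventually_uhpFilter_iff]
    intro z hz
    rcases lt_or_ge A z.im with hA | hA
    · exact (h z hz hA).mono fun w hw => Or.inr hw
    · have : {w : ℂ | w.im < A + 1} ∈ 𝓝 z :=
        (isOpen_lt continuous_im continuous_const).mem_nhds (by simp; linarith)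
      filter_upwards [mem_nhdsWithin_of_mem_nhds this] with w hw
      exact Or.inl (le_of_lt hw)
  filter_upwards [h1.filter_mono inf_le_left,
    (eventually_imAtTop_lt (A + 1)).filter_mono inf_le_right] with z hz hA
  exact hz.resolve_left (not_le.2 hA)

theorem exists_nhdsNE_of_eventually_cuspFilter {p : ℂ → Prop} (h : ∀ᶠ z in cuspFilter, p z) :
    ∃ A : ℝ, 0 ≤ A ∧ ∀ z : ℂ, A < z.im → ∀ᶠ w in 𝓝[≠] z, p w := by
  rw [eventually_inf] at h
  obtain ⟨s, hs, t, ht, hst⟩ := h
  obtain ⟨A, hA⟩ := exists_of_eventually_imAtTop (show ∀ᶠ z in imAtTop, z ∈ t from ht)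
  refine ⟨max A 0, le_max_right _ _, fun z hz => ?_⟩
  have hA' : {w : ℂ | A < w.im} ∈ 𝓝 z :=
    (isOpen_lt continuous_const continuous_im).mem_nhds (lt_of_le_of_lt (le_max_left _ _) hz)
  filter_upwards [nhdsNE_le_uhpFilter (show z ∈ uhp from lt_of_le_of_lt (le_max_right _ _) hz) hs,
    mem_nhdsWithin_of_mem_nhds hA'] with w hw hw'
  exact hst w ⟨hw, hA w hw'⟩

instance instNeBotCuspFilter : NeBot cuspFilter := by
  rw [← frequently_true_iff_neBot]
  intro h
  obtain ⟨A, _, hA⟩ := exists_nhdsNE_of_eventually_cuspFilter h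
  exact (hA ((A + 1 : ℝ) * I) (by simp)).exists.choose_spec trivial

theorem tendsto_qParam_cuspFilter {h : ℝ} (hh : 0 < h) :
    Tendsto (Function.Periodic.qParam h) cuspFilter (𝓝[≠] 0) :=
  (Function.Periodic.qParam_tendsto hh).mono_left inf_le_right

theorem frequently_nhdsNE_zero_of_eventually {h : ℝ} (hh : 0 < h) {p : ℂ → Prop}
    (hp : ∀ᶠ z in cuspFilter, p (Function.Periodic.qParam h z)) : ∃ᶠ q in 𝓝[≠] (0 : ℂ), p q :=
  (tendsto_qParam_cuspFilter hh).frequently hp.frequently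

namespace MeroH

/-- Restriction to germs at `i∞`. -/
def res : MeroH →+* Germ cuspFilter ℂ where
  toFun x := (toGerm x).compTendsto id (tendsto_id'.2 inf_le_left)
  map_one' := rfl
  map_zero' := rfl
  map_mul' x y := by
    obtain ⟨f, hf, rfl⟩ := exists_rep x
    obtain ⟨g, hg, rfl⟩ := exists_rep y
    rfl
  map_add' x y := by
    obtain ⟨f, hf, rfl⟩ := exists_rep x
    obtain ⟨g, hg, rfl⟩ := exists_rep y
    rfl

@[simp]
theorem res_mk {f : ℂ → ℂ} (hf : MeromorphicOn f uhp) :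
    res (mk f hf) = (f : Germ cuspFilter ℂ) := rfl

theorem res_injective : Function.Injective res := by
  rw [injective_iff_map_eq_zero]
  intro x hx
  obtain ⟨f, hf, rfl⟩ := exists_rep x
  rw [res_mk] at hx
  obtain ⟨A, hA0, hA⟩ := exists_nhdsNE_of_eventually_cuspFilter (Germ.coe_eq.1 hx)
  have hz : ((A + 1 : ℝ) * I : ℂ) ∈ uhp := by simp; linarith
  refine eq_zero_of_ordAt_eq_top hz ?_
  rw [ordAt_mk hf hz, meromorphicOrderAt_eq_top_iff]
  exact hA _ (by simp)

/-- `x` has expansion `s` at `i∞` in the parameter `exp (2 π i z / h)`. -/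
def IsExp (h : ℝ) (x : MeroH) (s : LaurentSeries ℂ) : Prop :=
  ∃ F : ℂ → ℂ, HasLaurent F s ∧
    res x = ((F ∘ Function.Periodic.qParam h : ℂ → ℂ) : Germ cuspFilter ℂ)

namespace IsExp

variable {h : ℝ} {x y : MeroH} {s t : LaurentSeries ℂ}

theorem const (c : ℂ) : IsExp h (MeroH.const c) (HahnSeries.C c) :=
  ⟨_, HasLaurent.const c, rfl⟩

theorem zero : IsExp h 0 0 := by simpa using const (h := h) 0

theorem one : IsExp h 1 1 := by
  have := const (h := h) 1
  rwa [map_one, map_one] at this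

theorem add (hx : IsExp h x s) (hy : IsExp h y t) : IsExp h (x + y) (s + t) := by
  obtain ⟨F, hF, ex⟩ := hx
  obtain ⟨G, hG, ey⟩ := hy
  exact ⟨F + G, hF.add hG, by rw [map_add, ex, ey]; rfl⟩

theorem mul (hx : IsExp h x s) (hy : IsExp h y t) : IsExp h (x * y) (s * t) := by
  obtain ⟨F, hF, ex⟩ := hx
  obtain ⟨G, hG, ey⟩ := hy
  exact ⟨F * G, hF.mul hG, by rw [map_mul, ex, ey]; rfl⟩

theorem neg (hx : IsExp h x s) : IsExp h (-x) (-s) := by
  obtain ⟨F, hF, ex⟩ := hx
  exact ⟨-F, hF.neg, by rw [map_neg, ex]; rfl⟩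

theorem sub (hx : IsExp h x s) (hy : IsExp h y t) : IsExp h (x - y) (s - t) := by
  simpa [sub_eq_add_neg] using hx.add hy.neg

theorem series_eq_zero_iff (hh : 0 < h) (hx : IsExp h x s) : s = 0 ↔ x = 0 := by
  obtain ⟨F, hF, ex⟩ := hx
  rw [hF.series_eq_zero_iff, ← map_eq_zero_iff res res_injective, ex]
  constructor
  · exact fun h0 => Germ.coe_eq.2 ((tendsto_qParam_cuspFilter hh).eventually h0)
  · intro h0
    refine (hF.meromorphicAt.eventually_eq_zero_or_eventually_ne_zero).resolve_right fun hne => ?_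
    exact (frequently_nhdsNE_zero_of_eventually hh (p := fun q => F q = 0) (Germ.coe_eq.1 h0))
      (hne.mono fun z hz hz' => hz hz')

theorem unique (hh : 0 < h) (hx : IsExp h x s) (hy : IsExp h y t) : s = t ↔ x = y := by
  rw [← sub_eq_zero, (hx.sub hy).series_eq_zero_iff hh, sub_eq_zero]

theorem inv (hh : 0 < h) (hx : IsExp h x s) : IsExp h x⁻¹ s⁻¹ := by
  by_cases hx0 : x = 0
  · subst hx0
    rw [(hx.series_eq_zero_iff hh).2 rfl, inv_zero, inv_zero]
    exact zero
  obtain ⟨F, hF, ex⟩ := hx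
  refine ⟨F⁻¹, hF.exists_inv, ?_⟩
  have h1 : res x * res x⁻¹ = 1 := by rw [← map_mul, mul_inv_cancel₀ hx0, map_one]
  rw [ex] at h1
  obtain ⟨g, hg, hgx⟩ := exists_rep x⁻¹
  rw [← hgx, res_mk] at h1 ⊢
  rw [← Germ.coe_mul] at h1
  refine Germ.coe_eq.2 ?_
  filter_upwards [Germ.coe_eq.1 (h1 : ((F ∘ Function.Periodic.qParam h * g : ℂ → ℂ) :
    Germ cuspFilter ℂ) = ((1 : ℂ → ℂ) : Germ cuspFilter ℂ))] with z hz
  exact eq_inv_of_mul_eq_one_right hz

theorem div (hh : 0 < h) (hx : IsExp h x s) (hy : IsExp h y t) : IsExp h (x / y) (s / t) := by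
  simpa [div_eq_mul_inv] using hx.mul (hy.inv hh)

theorem pow (hx : IsExp h x s) : ∀ n : ℕ, IsExp h (x ^ n) (s ^ n)
  | 0 => by simpa using one
  | n + 1 => by simpa [pow_succ] using (pow hx n).mul hx

end IsExp

/-- The element attached to a holomorphic function on `ℍ`. -/
def ofHol (f : ℍ → ℂ) (hf : MDiff f) : MeroH :=
  mk (f ∘ ofComplex)
    (((UpperHalfPlane.mdifferentiable_iff.1 hf).analyticOnNhd isOpen_uhp).meromorphicOn)

theorem ofHol_congr {f g : ℍ → ℂ} (hf : MDiff f) (hg : MDiff g) (h : f = g) :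
    ofHol f hf = ofHol g hg := by subst h; rfl

theorem isExp_of_periodic {h : ℝ} (hh : 0 < h) {f : ℍ → ℂ} (hf : MDiff f)
    (hper : Periodic (f ∘ ofComplex) h) (hbdd : IsBoundedAtImInfty f) :
    IsExp h (ofHol f hf) (HahnSeries.ofPowerSeries ℤ ℂ (qExpansion h f)) := by
  have ha := analyticAt_cuspFunction_zero hh hper hf hbdd
  refine ⟨_, HasLaurent.of_analytic ha, ?_⟩
  rw [ofHol, res_mk, Germ.coe_eq]
  refine eventually_cuspFilter_of 0 fun z hz _ => ?_
  have := eq_cuspFunction ⟨z, hz⟩ hh.ne' hper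
  simp only [Function.comp_apply, ofComplex_apply_of_im_pos hz]
  exact this.symm

theorem moeb_T_zpow (k : ℤ) {z : ℂ} (hz : z ∈ uhp) :
    moeb ((ModularGroup.T ^ k : SL(2, ℤ)) : GL (Fin 2) ℝ) z = z + k := by
  have h := modular_T_zpow_smul ⟨z, hz⟩ k
  simp only [ModularGroup.sl_moeb] at h
  rw [moeb, ofComplex_apply_of_im_pos hz, h, coe_vadd]
  push_cast
  ring

/-- Translating by an integer twists the expansion. -/
theorem IsExp.slComp_T_zpow {h : ℝ} (_hh : 0 < h) {x : MeroH} {s : LaurentSeries ℂ}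
    (hx : IsExp h x s) (k : ℤ) :
    ∃ t, IsExp h (slComp (ModularGroup.T ^ k) x) t ∧
      ∀ m, t.coeff m = Function.Periodic.qParam h k ^ m * s.coeff m := by
  obtain ⟨F, hF, ex⟩ := hx
  obtain ⟨t, ht, htc⟩ := hF.comp_mul_left (Function.Periodic.qParam_ne_zero (h := h) (k : ℂ))
  refine ⟨t, ⟨_, ht, ?_⟩, htc⟩
  obtain ⟨f, hf, rfl⟩ := exists_rep x
  rw [res_mk, Germ.coe_eq] at ex
  rw [slComp_mk, res_mk, Germ.coe_eq]
  obtain ⟨A, hA0, hA⟩ := exists_nhdsNE_of_eventually_cuspFilter ex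
  refine eventually_cuspFilter_of_nhdsNE A fun z hz hzA => ?_
  have h1 := hA (moeb ((ModularGroup.T ^ k : SL(2, ℤ)) : GL (Fin 2) ℝ) z)
    (by rw [moeb_T_zpow k hz]; simpa using hzA)
  filter_upwards [(tendsto_moeb_nhdsNE (det_SL_pos _) hz).eventually h1,
    mem_nhdsWithin_of_mem_nhds (isOpen_uhp.mem_nhds hz)] with w hw hwu
  simp only [Function.comp_apply] at hw ⊢
  rw [hw, moeb_T_zpow k hwu]
  congr 1
  simp only [Function.Periodic.qParam, ← Complex.exp_add]
  ring_nf

/-- If translation by `k` multiplies `x` by a constant `c`, then `c` is read off from the order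
of `x` at `i∞`. -/
theorem IsExp.eq_qParam_zpow_order {h : ℝ} (hh : 0 < h) {x : MeroH} {s : LaurentSeries ℂ}
    (hx : IsExp h x s) (hs : s ≠ 0) {k : ℤ} {c : ℂ}
    (hc : slComp (ModularGroup.T ^ k) x = MeroH.const c * x) :
    c = Function.Periodic.qParam h k ^ s.order := by
  obtain ⟨t, ht, htc⟩ := hx.slComp_T_zpow hh k
  have h2 : t = HahnSeries.C c * s := ((ht.unique hh ((IsExp.const c).mul hx))).2 hc
  have h3 := htc s.order
  rw [h2, HahnSeries.C_mul_eq_smul, HahnSeries.coeff_smul, smul_eq_mul] at h3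
  exact mul_right_cancel₀ (HahnSeries.coeff_order_eq_zero.not.2 hs) h3

/-- An `n`-th root of an element with an expansion of order divisible by `n` has an expansion. -/
theorem IsExp.exists_root {h : ℝ} (hh : 0 < h) {x y : MeroH} {s : LaurentSeries ℂ}
    (hx : IsExp h x s) {n : ℕ} (hn : n ≠ 0) (hy : y ^ n = x) (hdvd : (n : ℤ) ∣ s.order) :
    ∃ t, IsExp h y t ∧ t ^ n = s := by
  suffices H : ∃ t, IsExp h y t by
    obtain ⟨t, ht⟩ := H
    exact ⟨t, ht, ((ht.pow n).unique hh hx).2 hy⟩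
  by_cases hs : s = 0
  · have : y = 0 := eq_zero_of_pow_eq_zero (hy.trans ((hx.series_eq_zero_iff hh).1 hs))
    exact ⟨0, this ▸ IsExp.zero⟩
  obtain ⟨F, hF, ex⟩ := hx
  have hFm := hF.meromorphicAt
  have hFne : meromorphicOrderAt F 0 ≠ ⊤ := by
    rw [Ne, meromorphicOrderAt_eq_top_iff, ← hF.series_eq_zero_iff]
    exact hs
  obtain ⟨m, hm⟩ := WithTop.ne_top_iff_exists.1 hFne
  obtain ⟨g, hg, hg0, hFg⟩ := (meromorphicOrderAt_eq_int_iff hFm).1 hm.symm
  have hFg' : F =ᶠ[𝓝[≠] 0] fun z => z ^ m * g z :=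
    EventuallyEq.trans hFg (Eventually.of_forall fun z => by simp)
  have hser : s = shiftSeries m (taylor g) :=
    (hF.unique ⟨m, g, hg, hFg', rfl⟩).1 (EventuallyEq.refl _ _)
  have hord : s.order = m := by
    rw [hser, shiftSeries]
    have hT0 : (taylor g) ≠ 0 := fun h0 => hg0 (by rw [← constantCoeff_taylor g, h0, map_zero])
    rw [HahnSeries.order_mul (by simp) ((map_ne_zero_iff _
      HahnSeries.ofPowerSeries_injective).2 hT0), HahnSeries.order_single one_ne_zero]
    suffices (HahnSeries.ofPowerSeries ℤ ℂ (taylor g)).order = 0 by rw [this, add_zero]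
    refine le_antisymm (HahnSeries.order_le_of_coeff_ne_zero ?_) ?_
    · rw [show (0 : ℤ) = ((0 : ℕ) : ℤ) from rfl, HahnSeries.ofPowerSeries_apply_coeff,
        PowerSeries.coeff_zero_eq_constantCoeff, constantCoeff_taylor]
      exact hg0
    · by_contra hlt
      push Not at hlt
      refine HahnSeries.coeff_order_eq_zero.not.2
        ((map_ne_zero_iff _ (HahnSeries.ofPowerSeries_injective (Γ := ℤ) (R := ℂ))).2 hT0) ?_
      rw [HahnSeries.ofPowerSeries_apply]
      refine HahnSeries.embDomain_of_notMem_range ?_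
      rintro ⟨j, hj⟩
      change (j : ℤ) = _ at hj
      rw [HahnSeries.ofPowerSeries_apply] at hlt
      omega
  obtain ⟨e, he⟩ : (n : ℤ) ∣ m := hord ▸ hdvd
  obtain ⟨c, hc⟩ := IsAlgClosed.exists_pow_nat_eq (g 0) (Nat.pos_of_ne_zero hn)
  set g' : ℂ → ℂ := fun z => c * exp (log (g z / g 0) / n) with hg'
  have hslit : g 0 / g 0 ∈ slitPlane := by rw [div_self hg0]; simp
  have hg'a : AnalyticAt ℂ g' 0 :=
    analyticAt_const.mul ((((hg.div_const (c := g 0)).clog hslit).div_const).cexp)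
  set F' : ℂ → ℂ := fun z => z ^ e * g' z with hF'
  have hF'pow : ∀ᶠ z in 𝓝[≠] 0, F' z ^ n = F z := by
    filter_upwards [hFg', mem_nhdsWithin_of_mem_nhds (hg.continuousAt.eventually_ne hg0)]
      with z hz hgz
    rw [hz, hF', hg']
    simp only
    rw [mul_pow, mul_pow, hc, ← exp_nat_mul, mul_div_cancel₀ _ (Nat.cast_ne_zero.2 hn),
      exp_log (div_ne_zero hgz hg0), mul_div_cancel₀ _ hg0, ← zpow_natCast, ← zpow_mul, mul_comm e,
      ← he]
  obtain ⟨f, hf, rfl⟩ := exists_rep y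
  rw [← hy, mk_pow, res_mk, Germ.coe_eq] at ex
  have hev : ∀ᶠ z in cuspFilter, f z ^ n = F' (Function.Periodic.qParam h z) ^ n := by
    filter_upwards [ex, (tendsto_qParam_cuspFilter hh).eventually hF'pow] with z hz hz'
    exact (hz : f z ^ n = _).trans hz'.symm
  obtain ⟨A, hA0, hA⟩ := exists_nhdsNE_of_eventually_cuspFilter hev
  -- on a half plane where `F' ∘ q` is meromorphic
  have han : ∀ᶠ q in 𝓝[≠] (0 : ℂ), AnalyticAt ℂ F' q := by
    filter_upwards [mem_nhdsWithin_of_mem_nhds hg'a.eventually_analyticAt, self_mem_nhdsWithin]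
      with q hq hq0
    exact ((analyticAt_id).fun_zpow (by exact hq0)).mul hq
  obtain ⟨B, hB⟩ := exists_of_eventually_imAtTop
    ((Function.Periodic.qParam_tendsto hh).eventually han)
  set U : Set ℂ := {z | max A B < z.im} with hU
  have hUuhp : U ⊆ uhp := fun z hz => lt_of_le_of_lt (hA0.trans (le_max_left _ _)) hz
  have hUc : IsConnected U :=
    ⟨⟨((max A B + 1 : ℝ) : ℂ) * I, by
      simp [hU]; constructor <;> linarith [le_max_left A B, le_max_right A B]⟩,
      (convex_halfSpace_im_gt _).isPreconnected⟩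
  have hmero : MeromorphicOn (F' ∘ Function.Periodic.qParam h) U := fun z hz =>
    ((hB z (lt_of_le_of_lt (le_max_right _ _) hz)).comp
      (Function.Periodic.differentiable_qParam.analyticAt z)).meromorphicAt
  obtain ⟨ζ, -, hζ⟩ := exists_root_unity_mul hUc (hf.mono_set hUuhp) hmero
    (z0 := ((max A B + 1 : ℝ) : ℂ) * I)
    (by simp [hU]; constructor <;> linarith [le_max_left A B, le_max_right A B]) hn
    ((hA _ (by simp; linarith [le_max_left A B])).mono fun w hw => hw)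
  refine ⟨HahnSeries.C ζ * shiftSeries e (taylor g'), fun q => ζ * F' q,
    ((HasLaurent.const ζ).mul ⟨e, g', hg'a, EventuallyEq.refl _ _, rfl⟩), ?_⟩
  rw [res_mk, Germ.coe_eq]
  exact eventually_cuspFilter_of_nhdsNE (max A B) fun z _ hz => hζ z hz

end MeroH

end Fermat.Agent.Kummer
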