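import Mathlib.Analysis.Complex.UpperHalfPlane.Manifold
import Mathlib.Analysis.Convex.Topology
import Mathlib.Order.Filter.Germ.Basic

/-!
# The field of meromorphic functions on the upper half plane

An element of `MeroH` is a germ, along `codiscreteWithin upperHalfPlaneSet`, of a function
`ℂ → ℂ` which is meromorphic on the upper half plane.
-/

set_option autoImplicit false

noncomputable section

open Filter Topology Complex UpperHalfPlane

namespace Fermat.Agent.Kummer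

/-- The upper half plane as a subset of `ℂ`. -/
abbrev uhp : Set ℂ := UpperHalfPlane.upperHalfPlaneSet

theorem isOpen_uhp : IsOpen uhp := isOpen_upperHalfPlaneSet

theorem coe_mem_uhp (τ : ℍ) : (τ : ℂ) ∈ uhp := τ.im_pos

theorem isPreconnected_uhp : IsPreconnected uhp :=
  (convex_halfSpace_im_gt 0).isPreconnected

theorem isConnected_uhp : IsConnected uhp :=
  ⟨⟨Complex.I, by simp⟩, isPreconnected_uhp⟩

/-- The filter along which germs of meromorphic functions on `ℍ` are taken. -/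
abbrev uhpFilter : Filter ℂ := codiscreteWithin uhp

theorem eventually_uhpFilter_iff {p : ℂ → Prop} :
    (∀ᶠ z in uhpFilter, p z) ↔ ∀ z ∈ uhp, ∀ᶠ w in 𝓝[≠] z, p w := by
  rw [Filter.Eventually, mem_codiscreteWithin_iff_forall_mem_nhdsNE]
  refine forall₂_congr fun z hz => ⟨fun h => ?_, fun h => ?_⟩
  · have hu : uhp ∈ 𝓝[≠] z := mem_nhdsWithin_of_mem_nhds (isOpen_uhp.mem_nhds hz)
    filter_upwards [h, hu] with w hw hw'
    rcases hw with hw | hw
    · exact hw
    · exact absurd hw' hw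
  · exact mem_of_superset h Set.subset_union_left

theorem nhdsNE_le_uhpFilter {z : ℂ} (hz : z ∈ uhp) : 𝓝[≠] z ≤ uhpFilter := fun s hs =>
  eventually_uhpFilter_iff.1 (show ∀ᶠ w in uhpFilter, w ∈ s from hs) z hz

instance instNeBotUhpFilter : NeBot uhpFilter :=
  NeBot.mono (inferInstance : NeBot (𝓝[≠] Complex.I)) (nhdsNE_le_uhpFilter (by simp))

/-- Germs of meromorphic functions on the upper half plane, as a subring. -/
def meroSubring : Subring (Germ uhpFilter ℂ) where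
  carrier := {g | ∃ f : ℂ → ℂ, MeromorphicOn f uhp ∧ (f : Germ uhpFilter ℂ) = g}
  zero_mem' := ⟨fun _ => 0, MeromorphicOn.const 0, rfl⟩
  one_mem' := ⟨fun _ => 1, MeromorphicOn.const 1, rfl⟩
  add_mem' := by
    rintro _ _ ⟨f, hf, rfl⟩ ⟨g, hg, rfl⟩
    exact ⟨f + g, fun x hx => (hf x hx).add (hg x hx), rfl⟩
  mul_mem' := by
    rintro _ _ ⟨f, hf, rfl⟩ ⟨g, hg, rfl⟩
    exact ⟨f * g, fun x hx => (hf x hx).mul (hg x hx), rfl⟩
  neg_mem' := by
    rintro _ ⟨f, hf, rfl⟩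
    exact ⟨-f, fun x hx => (hf x hx).neg, rfl⟩

/-- The field of meromorphic functions on the upper half plane. -/
def MeroH : Type := meroSubring

namespace MeroH

instance instCommRing : CommRing MeroH := inferInstanceAs (CommRing meroSubring)

/-- The underlying germ. -/
def toGerm : MeroH →+* Germ uhpFilter ℂ := meroSubring.subtype

theorem toGerm_injective : Function.Injective toGerm := Subtype.val_injective

/-- The element defined by a meromorphic function. -/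
def mk (f : ℂ → ℂ) (hf : MeromorphicOn f uhp) : MeroH :=
  ⟨(f : Germ uhpFilter ℂ), f, hf, rfl⟩

@[simp]
theorem toGerm_mk (f : ℂ → ℂ) (hf : MeromorphicOn f uhp) :
    toGerm (mk f hf) = (f : Germ uhpFilter ℂ) := rfl

theorem exists_rep (x : MeroH) : ∃ (f : ℂ → ℂ) (hf : MeromorphicOn f uhp), mk f hf = x := by
  obtain ⟨g, f, hf, rfl⟩ := x
  exact ⟨f, hf, rfl⟩

theorem mk_eq_mk_iff {f g : ℂ → ℂ} {hf : MeromorphicOn f uhp} {hg : MeromorphicOn g uhp} :
    mk f hf = mk g hg ↔ ∀ z ∈ uhp, f =ᶠ[𝓝[≠] z] g := by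
  rw [← toGerm_injective.eq_iff, toGerm_mk, toGerm_mk, Germ.coe_eq]
  exact eventually_uhpFilter_iff

theorem mk_congr {f g : ℂ → ℂ} (hf : MeromorphicOn f uhp) (hg : MeromorphicOn g uhp)
    (h : ∀ z ∈ uhp, f z = g z) : mk f hf = mk g hg :=
  mk_eq_mk_iff.2 fun z hz => by
    filter_upwards [mem_nhdsWithin_of_mem_nhds (isOpen_uhp.mem_nhds hz)] with w hw
    exact h w hw

@[simp]
theorem mk_zero : mk (fun _ => (0 : ℂ)) (MeromorphicOn.const 0) = 0 := rfl

@[simp]
theorem mk_one : mk (fun _ => (1 : ℂ)) (MeromorphicOn.const 1) = 1 := rfl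

theorem mk_add {f g : ℂ → ℂ} (hf : MeromorphicOn f uhp) (hg : MeromorphicOn g uhp) :
    mk f hf + mk g hg = mk (f + g) (fun x hx => (hf x hx).add (hg x hx)) := rfl

theorem mk_mul {f g : ℂ → ℂ} (hf : MeromorphicOn f uhp) (hg : MeromorphicOn g uhp) :
    mk f hf * mk g hg = mk (f * g) (fun x hx => (hf x hx).mul (hg x hx)) := rfl

theorem mk_neg {f : ℂ → ℂ} (hf : MeromorphicOn f uhp) :
    -mk f hf = mk (-f) (fun x hx => (hf x hx).neg) := rfl

theorem mk_sub {f g : ℂ → ℂ} (hf : MeromorphicOn f uhp) (hg : MeromorphicOn g uhp) :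
    mk f hf - mk g hg = mk (f - g) (fun x hx => (hf x hx).sub (hg x hx)) := rfl

theorem mk_pow {f : ℂ → ℂ} (hf : MeromorphicOn f uhp) (n : ℕ) :
    mk f hf ^ n = mk (f ^ n) (fun x hx => (hf x hx).pow n) := rfl

instance instNontrivial : Nontrivial MeroH :=
  ⟨⟨0, 1, fun h => zero_ne_one (Germ.const_inj.1 (congrArg toGerm h) : (0 : ℂ) = 1)⟩⟩

/-- Constants. -/
def const : ℂ →+* MeroH where
  toFun c := mk (fun _ => c) (MeromorphicOn.const c)
  map_one' := rfl
  map_mul' _ _ := rfl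
  map_zero' := rfl
  map_add' _ _ := rfl

theorem const_apply (c : ℂ) : const c = mk (fun _ => c) (MeromorphicOn.const c) := rfl

instance instAlgebra : Algebra ℂ MeroH := const.toAlgebra

theorem algebraMap_eq : algebraMap ℂ MeroH = const := rfl

theorem const_injective : Function.Injective const := fun _ _ h =>
  Germ.const_inj.1 (congrArg toGerm h)

/-- The order at a point. -/
def ordAt (x : MeroH) (z : ℂ) : WithTop ℤ :=
  meromorphicOrderAt (exists_rep x).choose z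

theorem ordAt_mk {f : ℂ → ℂ} (hf : MeromorphicOn f uhp) {z : ℂ} (hz : z ∈ uhp) :
    ordAt (mk f hf) z = meromorphicOrderAt f z := by
  obtain ⟨hg, h⟩ := (exists_rep (mk f hf)).choose_spec
  exact meromorphicOrderAt_congr (mk_eq_mk_iff.1 h z hz)

theorem ordAt_mul (x y : MeroH) {z : ℂ} (hz : z ∈ uhp) :
    ordAt (x * y) z = ordAt x z + ordAt y z := by
  obtain ⟨f, hf, rfl⟩ := exists_rep x
  obtain ⟨g, hg, rfl⟩ := exists_rep y
  rw [mk_mul, ordAt_mk _ hz, ordAt_mk _ hz, ordAt_mk _ hz]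
  exact meromorphicOrderAt_mul (hf z hz) (hg z hz)

theorem ordAt_pow (x : MeroH) (n : ℕ) {z : ℂ} (hz : z ∈ uhp) :
    ordAt (x ^ n) z = n * ordAt x z := by
  obtain ⟨f, hf, rfl⟩ := exists_rep x
  rw [mk_pow, ordAt_mk _ hz, ordAt_mk _ hz]
  exact meromorphicOrderAt_pow (hf z hz)

theorem ordAt_add (x y : MeroH) {z : ℂ} (hz : z ∈ uhp) :
    min (ordAt x z) (ordAt y z) ≤ ordAt (x + y) z := by
  obtain ⟨f, hf, rfl⟩ := exists_rep x
  obtain ⟨g, hg, rfl⟩ := exists_rep y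
  rw [mk_add, ordAt_mk _ hz, ordAt_mk _ hz, ordAt_mk _ hz]
  exact meromorphicOrderAt_add (hf z hz) (hg z hz)

theorem ordAt_neg (x : MeroH) {z : ℂ} (hz : z ∈ uhp) : ordAt (-x) z = ordAt x z := by
  obtain ⟨f, hf, rfl⟩ := exists_rep x
  rw [mk_neg, ordAt_mk _ hz, ordAt_mk _ hz]
  exact meromorphicOrderAt_neg.symm

@[simp]
theorem ordAt_zero {z : ℂ} (hz : z ∈ uhp) : ordAt 0 z = ⊤ := by
  rw [← mk_zero, ordAt_mk _ hz]
  rw [meromorphicOrderAt_eq_top_iff]
  exact Eventually.of_forall fun _ => rfl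

theorem ordAt_const {c : ℂ} (hc : c ≠ 0) {z : ℂ} (hz : z ∈ uhp) : ordAt (const c) z = 0 := by
  classical
  rw [const_apply, ordAt_mk _ hz, meromorphicOrderAt_const, if_neg hc]

@[simp]
theorem ordAt_one {z : ℂ} (hz : z ∈ uhp) : ordAt 1 z = 0 := by
  rw [← map_one const]; exact ordAt_const one_ne_zero hz

theorem eq_zero_of_ordAt_eq_top {x : MeroH} {z : ℂ} (hz : z ∈ uhp) (h : ordAt x z = ⊤) :
    x = 0 := by
  obtain ⟨f, hf, rfl⟩ := exists_rep x
  rw [ordAt_mk _ hz] at h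
  rw [← mk_zero, mk_eq_mk_iff]
  intro w hw
  have htop : meromorphicOrderAt f w = ⊤ := by
    by_contra hne
    exact ((hf.exists_meromorphicOrderAt_ne_top_iff_forall isConnected_uhp).1
      ⟨⟨w, hw⟩, hne⟩ ⟨z, hz⟩) h
  exact meromorphicOrderAt_eq_top_iff.1 htop

theorem ordAt_ne_top {x : MeroH} (hx : x ≠ 0) {z : ℂ} (hz : z ∈ uhp) : ordAt x z ≠ ⊤ :=
  fun h => hx (eq_zero_of_ordAt_eq_top hz h)

theorem isField : IsField MeroH where
  exists_pair_ne := ⟨0, 1, zero_ne_one⟩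
  mul_comm := mul_comm
  mul_inv_cancel := by
    intro x hx
    obtain ⟨f, hf, rfl⟩ := exists_rep x
    refine ⟨mk f⁻¹ (fun z hz => (hf z hz).inv), ?_⟩
    rw [mk_mul, ← mk_one, mk_eq_mk_iff]
    intro z hz
    have hne : meromorphicOrderAt f z ≠ ⊤ := by
      rw [← ordAt_mk hf hz]; exact ordAt_ne_top hx hz
    filter_upwards [(meromorphicOrderAt_ne_top_iff_eventually_ne_zero (hf z hz)).1 hne] with w hw
    simp [mul_inv_cancel₀ hw]

instance instField : Field MeroH := isField.toField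

/-- Action of an element of positive determinant on the upper half plane, as a map `ℂ → ℂ`. -/
def moeb (g : GL (Fin 2) ℝ) (z : ℂ) : ℂ := ((g • ofComplex z : ℍ) : ℂ)

theorem moeb_coe (g : GL (Fin 2) ℝ) (τ : ℍ) : moeb g (τ : ℂ) = ((g • τ : ℍ) : ℂ) := by
  rw [moeb, ofComplex_apply]

theorem moeb_mem (g : GL (Fin 2) ℝ) (z : ℂ) : moeb g z ∈ uhp := (g • ofComplex z : ℍ).im_pos

theorem moeb_one {z : ℂ} (hz : z ∈ uhp) : moeb 1 z = z := by
  simp [moeb, ofComplex_apply_of_im_pos hz]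

theorem moeb_mul (g h : GL (Fin 2) ℝ) (z : ℂ) : moeb (g * h) z = moeb g (moeb h z) := by
  simp [moeb, mul_smul, ofComplex_apply]

theorem analyticAt_moeb {g : GL (Fin 2) ℝ} (hg : 0 < g.det.val) {z : ℂ} (hz : z ∈ uhp) :
    AnalyticAt ℂ (moeb g) z := by
  exact analyticAt_smul hg ⟨z, hz⟩

theorem deriv_moeb_ne_zero {g : GL (Fin 2) ℝ} (hg : 0 < g.det.val) {z : ℂ} (hz : z ∈ uhp) :
    deriv (moeb g) z ≠ 0 := by
  exact deriv_smul_ne_zero hg ⟨z, hz⟩

theorem tendsto_moeb_nhdsNE {g : GL (Fin 2) ℝ} (hg : 0 < g.det.val) {z : ℂ} (hz : z ∈ uhp) :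
    Tendsto (moeb g) (𝓝[≠] z) (𝓝[≠] (moeb g z)) := by
  refine tendsto_nhdsWithin_of_tendsto_nhds_of_eventually_within _
    ((analyticAt_moeb hg hz).continuousAt.tendsto.mono_left nhdsWithin_le_nhds) ?_
  filter_upwards [mem_nhdsWithin_of_mem_nhds (isOpen_uhp.mem_nhds hz), self_mem_nhdsWithin]
    with w hw hne h
  have h' := congrArg (moeb g⁻¹) h
  rw [← moeb_mul, ← moeb_mul, inv_mul_cancel, moeb_one hw, moeb_one hz] at h'
  exact hne h'

theorem tendsto_moeb_uhpFilter {g : GL (Fin 2) ℝ} (hg : 0 < g.det.val) :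
    Tendsto (moeb g) uhpFilter uhpFilter := by
  intro s hs
  change ∀ᶠ z in uhpFilter, moeb g z ∈ s
  rw [eventually_uhpFilter_iff]
  exact fun z hz => (tendsto_moeb_nhdsNE hg hz).eventually
    (nhdsNE_le_uhpFilter (moeb_mem g z) hs)

/-- Precomposition with an element of positive determinant. -/
def comp (g : GL (Fin 2) ℝ) (hg : 0 < g.det.val) : MeroH →+* MeroH where
  toFun x := ⟨(toGerm x).compTendsto (moeb g) (tendsto_moeb_uhpFilter hg), by
    obtain ⟨f, hf, rfl⟩ := exists_rep x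
    exact ⟨f ∘ moeb g, fun z hz =>
      (hf _ (moeb_mem g z)).comp_analyticAt (analyticAt_moeb hg hz), rfl⟩⟩
  map_one' := rfl
  map_zero' := rfl
  map_mul' x y := by
    obtain ⟨f, hf, rfl⟩ := exists_rep x
    obtain ⟨f', hf', rfl⟩ := exists_rep y
    rfl
  map_add' x y := by
    obtain ⟨f, hf, rfl⟩ := exists_rep x
    obtain ⟨f', hf', rfl⟩ := exists_rep y
    rfl

theorem comp_mk (g : GL (Fin 2) ℝ) (hg : 0 < g.det.val) {f : ℂ → ℂ} (hf : MeromorphicOn f uhp) :
    comp g hg (mk f hf) = mk (f ∘ moeb g)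
      (fun z hz => (hf _ (moeb_mem g z)).comp_analyticAt (analyticAt_moeb hg hz)) := rfl

theorem comp_comp (g h : GL (Fin 2) ℝ) (hg : 0 < g.det.val) (hh : 0 < h.det.val)
    (hgh : 0 < (g * h).det.val) (x : MeroH) :
    comp h hh (comp g hg x) = comp (g * h) hgh x := by
  obtain ⟨f, hf, rfl⟩ := exists_rep x
  rw [comp_mk, comp_mk, comp_mk]
  exact mk_congr _ _ fun z _ => by simp [moeb_mul]

theorem ordAt_comp (g : GL (Fin 2) ℝ) (hg : 0 < g.det.val) (x : MeroH) {z : ℂ} (hz : z ∈ uhp) :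
    ordAt (comp g hg x) z = ordAt x (moeb g z) := by
  obtain ⟨f, hf, rfl⟩ := exists_rep x
  rw [comp_mk, ordAt_mk _ hz, ordAt_mk _ (moeb_mem g z)]
  exact meromorphicOrderAt_comp_of_deriv_ne_zero (analyticAt_moeb hg hz)
    (deriv_moeb_ne_zero hg hz)

open scoped MatrixGroups

theorem det_SL_pos (γ : SL(2, ℤ)) : 0 < (γ : GL (Fin 2) ℝ).det.val := by simp

/-- Precomposition with an element of `SL(2, ℤ)`. -/
def slComp (γ : SL(2, ℤ)) : MeroH →+* MeroH := comp (γ : GL (Fin 2) ℝ) (det_SL_pos γ)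

theorem slComp_mk (γ : SL(2, ℤ)) {f : ℂ → ℂ} (hf : MeromorphicOn f uhp) :
    slComp γ (mk f hf) = mk (f ∘ moeb (γ : GL (Fin 2) ℝ))
      (fun z hz => (hf _ (moeb_mem _ z)).comp_analyticAt (analyticAt_moeb (det_SL_pos γ) hz)) :=
  rfl

@[simp]
theorem slComp_const (γ : SL(2, ℤ)) (c : ℂ) : slComp γ (const c) = const c := rfl

theorem slComp_slComp (γ δ : SL(2, ℤ)) (x : MeroH) :
    slComp δ (slComp γ x) = slComp (γ * δ) x := by
  rw [slComp, slComp, slComp, comp_comp _ _ _ _ (by simp)]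
  simp

@[simp]
theorem slComp_one (x : MeroH) : slComp 1 x = x := by
  obtain ⟨f, hf, rfl⟩ := exists_rep x
  rw [slComp_mk]
  exact mk_congr _ _ fun z hz => by simp [moeb_one hz]

end MeroH

end Fermat.Agent.Kummer
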