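import Fermat.Agent.Kummer.Main
import Fermat.Agent.LevelLowerP.SeriesNormC

/-!
# The norm lift of the Hecke correspondence on functions

For a prime `ℓ` not dividing `N` the correspondence `T_ℓ` sends the divisor of `u` to the divisor
of the norm along `α` of `β u`, whose series is `u(q ^ ℓ) * seriesNorm ℓ u`.
-/

set_option autoImplicit false

noncomputable section

open AlgebraicCurve ModularCurve CongruenceSubgroup
open ModularForm (heckeMatrix heckeDiagMatrix)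
open scoped MatrixGroups OnePoint

namespace Fermat.Agent.Kummer

open MeroH
open Fermat.Agent.Periods (toGLR isCosetFamily_heckeT)
open P2MW.S_ModularForm_heckeT_slash_eq_self_of_mem_Gamma0.ModularForm.HeckeSlashInvariance
  (heckeRep)
open Fermat.Agent.Ihara (mcoe Mat2 zRep zRep_coe zRep_infty heckeSys heckeSet heckeSet_cover)
open Fermat.Agent.LevelLowerP (funOp seriesNorm exists_embed_eq_heckeSys intComp_mcoe_mul)

/-- Two matrices with the same representative have proportional lower rows modulo `ℓ`. -/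
theorem zRep_lower_row {ℓ : ℕ} [NeZero ℓ] (x : OnePoint (ZMod ℓ)) (g g' : SL(2, ℤ)) :
    (ℓ : ℤ) ∣ (mcoe g * zRep ℓ x) 1 0 * (mcoe g' * zRep ℓ x) 1 1 -
      (mcoe g * zRep ℓ x) 1 1 * (mcoe g' * zRep ℓ x) 1 0 := by
  induction x using OnePoint.rec with
  | infty =>
    simp only [Matrix.mul_apply, Fin.sum_univ_two, zRep_infty]
    simp
    exact ⟨(g : SL(2, ℤ)) 1 0 * (g' : SL(2, ℤ)) 1 1 - (g : SL(2, ℤ)) 1 1 * (g' : SL(2, ℤ)) 1 0,
      by simp [mcoe]; ring⟩
  | coe j =>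
    simp only [Matrix.mul_apply, Fin.sum_univ_two, zRep_coe]
    simp [-ZMod.natCast_val]
    exact ⟨(g : SL(2, ℤ)) 1 0 * (g' : SL(2, ℤ)) 1 1 - (g : SL(2, ℤ)) 1 1 * (g' : SL(2, ℤ)) 1 0,
      by simp [mcoe, -ZMod.natCast_val]; ring⟩

variable {N : ℕ} [NeZero N] {ℓ : ℕ} [hℓ : Fact ℓ.Prime]

omit [NeZero N] in
/-- The entries of the translating element of the diagonal representative. -/
theorem dvd_of_heckeDiag_decomp {h t : Gamma0 N}
    (hd : heckeDiagMatrix ℓ = toGLR (h : SL(2, ℤ)) * heckeMatrix ℓ 0 * toGLR (t : SL(2, ℤ))) :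
    (ℓ : ℤ) ∣ (t : SL(2, ℤ)) 0 0 ∧ ¬ (ℓ : ℤ) ∣ (t : SL(2, ℤ)) 0 1 := by
  have hℓ0 : ℓ ≠ 0 := hℓ.out.ne_zero
  have key : ∀ i k, (!![(ℓ : ℤ), 0; 0, 1] i k : ℤ) =
      ((h : SL(2, ℤ)) i 0) * (t : SL(2, ℤ)) 0 k +
        ((h : SL(2, ℤ)) i 1) * ℓ * (t : SL(2, ℤ)) 1 k := by
    intro i k
    have h1 := congrArg (fun M : GL (Fin 2) ℝ => (M : Matrix (Fin 2) (Fin 2) ℝ) i k) hd
    simp [toGLR, Matrix.mul_apply, Fin.sum_univ_two, ModularForm.val_heckeMatrix hℓ0,
      ModularForm.val_heckeDiagMatrix hℓ0] at h1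
    apply Int.cast_injective (α := ℝ)
    fin_cases i <;> fin_cases k <;> simp at h1 ⊢ <;> linarith
  have k00 : (ℓ : ℤ) = (h : SL(2, ℤ)) 0 0 * (t : SL(2, ℤ)) 0 0 +
      (h : SL(2, ℤ)) 0 1 * ℓ * (t : SL(2, ℤ)) 1 0 := by simpa using key 0 0
  have k10 : 0 = (h : SL(2, ℤ)) 1 0 * (t : SL(2, ℤ)) 0 0 +
      (h : SL(2, ℤ)) 1 1 * ℓ * (t : SL(2, ℤ)) 1 0 := by simpa using key 1 0
  have hdh := (h : SL(2, ℤ)).2
  rw [Matrix.det_fin_two] at hdh
  have h00 : (ℓ : ℤ) ∣ (t : SL(2, ℤ)) 0 0 := ⟨(h : SL(2, ℤ)) 1 1 *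
      (1 - (h : SL(2, ℤ)) 0 1 * (t : SL(2, ℤ)) 1 0) +
      (h : SL(2, ℤ)) 0 1 * (h : SL(2, ℤ)) 1 1 * (t : SL(2, ℤ)) 1 0, by
    linear_combination (h : SL(2, ℤ)) 0 1 * k10 - (h : SL(2, ℤ)) 1 1 * k00 -
      (t : SL(2, ℤ)) 0 0 * hdh⟩
  refine ⟨h00, fun h01 => ?_⟩
  obtain ⟨a, ha⟩ := h00
  obtain ⟨b, hb⟩ := h01
  have hdt := (t : SL(2, ℤ)).2
  rw [Matrix.det_fin_two, ha, hb] at hdt
  exact hℓ.out.one_lt.ne' (by
    exact_mod_cast Int.eq_one_of_dvd_one (Int.natCast_nonneg ℓ)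
      ⟨a * (t : SL(2, ℤ)) 1 1 - b * (t : SL(2, ℤ)) 1 0, by linear_combination -hdt⟩)

/-- **The norm lift of `T_ℓ`.** -/
theorem exists_norm_lift (hℓN : ¬ ℓ ∣ N) {u : modularFunctionFieldBar N} (hu : u ≠ 0) :
    haveI : NeZero ℓ := ⟨hℓ.out.ne_zero⟩
    ∃ u' : modularFunctionFieldBar N, u' ≠ 0 ∧
      (u' : LaurentSeries (AlgebraicClosure ℚ)) =
        qExpand (AlgebraicClosure ℚ) ℓ (u : LaurentSeries (AlgebraicClosure ℚ)) *
          seriesNorm ℓ (u : LaurentSeries (AlgebraicClosure ℚ)) ∧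
      ∀ (hβ : HeckeBetaBarIntegral (AlgebraicClosure ℚ) N ℓ)
        (hα : HeckeAlphaBarIntegral (AlgebraicClosure ℚ) N ℓ)
        (E : Divisor (AlgebraicClosure ℚ) (modularFunctionFieldBar N)),
        (∀ v, E v = v.ord u) → ∀ v, Divisor.correspondence
          (heckeBetaBar (AlgebraicClosure ℚ) N ℓ) (heckeAlphaBar (AlgebraicClosure ℚ) N ℓ)
          hβ hα E v = v.ord u' := by
  have : NeZero ℓ := ⟨hℓ.out.ne_zero⟩
  set A := heckeAlphaBar (AlgebraicClosure ℚ) N ℓ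
  set B := heckeBetaBar (AlgebraicClosure ℚ) N ℓ
  obtain ⟨h0, t0, hdiag⟩ := exists_heckeDiag_decomp (N := N) hℓ.out hℓN
  let h : OnePoint (ZMod ℓ) → Gamma0 N := fun i => i.elim h0 fun _ => 1
  let t : OnePoint (ZMod ℓ) → Gamma0 N := fun i => i.elim t0 fun b => transl N b.val
  have hdec : ∀ i, heckeRep ℓ i = toGLR (h i) * heckeMatrix ℓ 0 * toGLR (t i) := fun i => by
    induction i using OnePoint.rec with
    | infty => exact hdiag
    | coe b => exact heckeMatrix_eq_decomp hℓ.out.ne_zero b.val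
  have hcard : dedekindPsi (N * ℓ) = Fintype.card (OnePoint (ZMod ℓ)) * dedekindPsi N := by
    rw [dedekindPsi_mul_prime_of_not_dvd hℓ.out hℓN]
    congr 1
    exact ((Fintype.card_option (α := ZMod ℓ)).trans (by rw [ZMod.card])).symm
  have hfin : FiniteAlong (AlgebraicClosure ℚ) A := FF.finiteAlong A
  set z := B u with hzdef
  have hz0 : z ≠ 0 := (map_ne_zero B).2 hu
  set w : modularFunctionFieldBar N :=
    (letI := algebraAlong A; Algebra.norm (modularFunctionFieldBar N) z) with hwdef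
  have hw0 : w ≠ 0 := by
    let := algebraAlong A
    have : Module.Finite (modularFunctionFieldBar N) (modularFunctionFieldBar (N * ℓ)) := hfin
    exact Algebra.norm_ne_zero_iff.2 hz0
  obtain ⟨y, hy, hye⟩ := exists_embed_eq_heckeSys (ℓ := ℓ) ιbar N hℓN u
  -- the translated matrices and their representatives
  let M : OnePoint (ZMod ℓ) → Mat2 := fun i => !![(ℓ : ℤ), 0; 0, 1] * mcoe (wFun (t i))
  have hMentry : ∀ i, M i 1 0 = -((N : ℤ) * (t i : SL(2, ℤ)) 0 1) ∧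
      M i 1 1 = (t i : SL(2, ℤ)) 0 0 ∧ (M i).det = ℓ := fun i => by
    refine ⟨?_, ?_, ?_⟩
    · simp [M, mcoe, wFun_apply]
    · simp [M, mcoe, wFun_apply]
    · change (!![(ℓ : ℤ), 0; 0, 1] * mcoe (wFun (t i) : SL(2, ℤ))).det = ℓ
      rw [Matrix.det_mul, show (mcoe (wFun (t i) : SL(2, ℤ))).det = 1
        from (wFun (t i) : SL(2, ℤ)).2, Matrix.det_fin_two_of]
      ring
  have hMset : ∀ i, heckeSet N ℓ (M i) := fun i =>
    ⟨(hMentry i).2.2, by rw [(hMentry i).1, dvd_neg]; exact dvd_mul_right _ _⟩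
  choose e g heq using fun i => heckeSet_cover hℓ.out hℓN (M i) (hMset i)
  have ht : ∀ b : ZMod ℓ, (t b : SL(2, ℤ)) 0 0 = 1 ∧ (t b : SL(2, ℤ)) 0 1 = (b.val : ℤ) :=
    fun b => by
      change (ModularGroup.T ^ (b.val : ℤ) : SL(2, ℤ)) 0 0 = 1 ∧
        (ModularGroup.T ^ (b.val : ℤ) : SL(2, ℤ)) 0 1 = (b.val : ℤ)
      rw [ModularGroup.coe_T_zpow]
      simp [-ZMod.natCast_val]
  have hbij : Function.Bijective e := by
    refine (Finite.injective_iff_bijective).1 fun i k hik => ?_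
    by_contra hne
    have hd := zRep_lower_row (e i) (g i : SL(2, ℤ)) (g k : SL(2, ℤ))
    rw [← heq i, hik, ← heq k, (hMentry i).1, (hMentry i).2.1, (hMentry k).1, (hMentry k).2.1] at hd
    have hℓp : Prime (ℓ : ℤ) := Nat.prime_iff_prime_int.mp hℓ.out
    have hℓN' : ¬ (ℓ : ℤ) ∣ (N : ℤ) := by exact_mod_cast hℓN
    obtain ⟨h00, h01⟩ := dvd_of_heckeDiag_decomp hdiag
    induction i using OnePoint.rec with
    | infty =>
      induction k using OnePoint.rec with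
      | infty => exact hne rfl
      | coe b =>
        obtain ⟨ha, hb⟩ := ht b
        rw [ha, show t ∞ = t0 from rfl] at hd
        have h1 := dvd_add hd (h00.mul_right (-((N : ℤ) * (t b : SL(2, ℤ)) 0 1)))
        rw [sub_add_cancel, mul_one, dvd_neg] at h1
        exact (hℓp.dvd_or_dvd h1).elim hℓN' h01
    | coe a =>
      induction k using OnePoint.rec with
      | infty =>
        obtain ⟨ha, hb⟩ := ht a
        rw [ha, show t ∞ = t0 from rfl, one_mul] at hd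
        have h1 := dvd_sub (h00.mul_left (-((N : ℤ) * (t a : SL(2, ℤ)) 0 1))) hd
        rw [sub_sub_cancel, dvd_neg] at h1
        exact (hℓp.dvd_or_dvd h1).elim hℓN' h01
      | coe b =>
        rw [(ht a).1, (ht a).2, (ht b).1, (ht b).2] at hd
        have h1 : (ℓ : ℤ) ∣ (N : ℤ) * ((b.val : ℤ) - a.val) := by
          convert hd using 1; ring
        have h2 := (hℓp.dvd_or_dvd h1).resolve_left hℓN'
        rw [← ZMod.intCast_zmod_eq_zero_iff_dvd, Int.cast_sub, Int.cast_natCast, Int.cast_natCast,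
          ZMod.natCast_zmod_val, ZMod.natCast_zmod_val, sub_eq_zero] at h2
        exact hne (by rw [h2])
  have hyw : y = w := by
    refine embed_injective ιbar N ?_
    rw [hye, hwdef, embed_norm (isCosetFamily_heckeT (N := N) hℓN) hdec hcard hfin z,
      LevelLowerP.funOp_apply]
    refine (Fintype.prod_bijective e hbij _ _ fun i => ?_).symm
    have hpos : 0 < (!![(ℓ : ℤ), 0; 0, 1] : Mat2).det := det_scaleUp_pos (NeZero.ne ℓ)
    have h1 : 0 < ((wFun (t i) : SL(2, ℤ)) : Mat2).det := by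
      rw [(wFun (t i) : SL(2, ℤ)).2]; exact one_pos
    have hM : 0 < (M i).det := by rw [(hMentry i).2.2]; exact_mod_cast hℓ.out.pos
    rw [hzdef, embed_heckeBeta, ← intComp_coe _ h1, intComp_intComp hpos h1 hM,
      intComp_congr _ (heq i ▸ hM) (heq i)]
    refine (intComp_mcoe_mul (g i : SL(2, ℤ)) ((heckeSys N ℓ hℓN).pos (e i)) _ _).trans ?_
    rw [slComp_embed ιbar u (g i).2]
  refine ⟨y, hyw ▸ hw0, hy, fun hβ hα E hE v => ?_⟩
  have hN := FF.normFormulaAlong A hfin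
  have hpull : ∀ w', Divisor.pullbackAlong B hβ E w' = w'.ord z := fun w' => by
    refine (Divisor.pullbackAlong_apply B hβ E w').trans ?_
    rw [hE, hzdef]
    exact (Place.ord_restrictAlong B hβ w' u).symm
  exact (hN z hz0 _ hpull v).trans (by rw [hyw])

end Fermat.Agent.Kummer
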