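import Fermat.Agent.Kummer.Poincare
import Fermat.Agent.MFGenus.FieldDegree
import Fermat.Agent.MFGenus.SplitPlaces
import Fermat.Agent.FF.Along

/-!
# Orders of modular functions at points and cusps
-/

set_option autoImplicit false

noncomputable section

open Filter Topology Complex
open UpperHalfPlane hiding I
open CongruenceSubgroup AlgebraicCurve ModularCurve
open scoped MatrixGroups

namespace Fermat.Agent.Kummer

open MeroH
open Fermat.Agent.MFGenus (IsOrd FL)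

variable {L : Type*} [Field L] [Algebra ℚ L] (ι : L →+* ℂ) {N : ℕ}

include ι in
/-- The modular function field is a function field in one variable. -/
theorem isFunctionField_FL [NeZero N] : FF.IsFunctionField L (FL L N) :=
  ⟨⟨MFGenus.jElt L N, MFGenus.transcendental_jElt ι, (MFGenus.finite_finrank_le (N := N) ι).1⟩⟩

/-- The algebraic closure of `ℚ` is algebraic over `ℚ`. -/
theorem isAlgebraic_qbar : Algebra.IsAlgebraic ℚ (AlgebraicClosure ℚ) :=
  AlgebraicClosure.isAlgebraic ℚ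

/-- An embedding of `ℚ̄` into `ℂ`. -/
def ιbar : AlgebraicClosure ℚ →+* ℂ :=
  haveI := isAlgebraic_qbar
  (IsAlgClosed.lift : AlgebraicClosure ℚ →ₐ[ℚ] ℂ).toRingHom

instance instIsFunctionFieldBar [NeZero N] :
    FF.IsFunctionField (AlgebraicClosure ℚ) (modularFunctionFieldBar N) :=
  isFunctionField_FL ιbar

/-! ### Orders at points -/

/-- The order of a modular function at a point of `ℍ`. -/
def ordPoint (τ : ℍ) (x : FL L N) : ℤ := (ordAt (embed ι N x) τ).untop₀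

theorem coe_ordPoint (τ : ℍ) {x : FL L N} (hx : x ≠ 0) :
    (ordPoint ι τ x : WithTop ℤ) = ordAt (embed ι N x) τ :=
  WithTop.coe_untop₀_of_ne_top (ordAt_ne_top ((map_ne_zero _).2 hx) (coe_mem_uhp τ))

theorem isOrd_ordPoint (τ : ℍ) : IsOrd (ordPoint ι τ : FL L N → ℤ) where
  map_mul f g hf hg := by
    apply WithTop.coe_injective
    rw [WithTop.coe_add, coe_ordPoint ι τ (mul_ne_zero hf hg), coe_ordPoint ι τ hf,
      coe_ordPoint ι τ hg, map_mul, ordAt_mul _ _ (coe_mem_uhp τ)]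
  map_add f g hf hg hfg := by
    rw [← WithTop.coe_le_coe, WithTop.coe_min, coe_ordPoint ι τ hfg, coe_ordPoint ι τ hf,
      coe_ordPoint ι τ hg, map_add]
    exact ordAt_add _ _ (coe_mem_uhp τ)

theorem ordPoint_algebraMap (τ : ℍ) (a : L) :
    ordPoint ι τ (algebraMap L (FL L N) a) = 0 := by
  rcases eq_or_ne a 0 with rfl | ha
  · simp [ordPoint, ordAt_zero (coe_mem_uhp τ)]
  · rw [ordPoint, embed_algebraMap, ordAt_const ((map_ne_zero ι).2 ha) (coe_mem_uhp τ)]
    rfl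

/-! ### Orders at cusps -/

variable [NeZero N]

/-- The expansion of a modular function at the cusp `δ ∞`. -/
def cuspSeries (δ : SL(2, ℤ)) (x : FL L N) : LaurentSeries ℂ :=
  (meroAtCusps_embed ι x δ).choose

theorem isExp_cuspSeries (δ : SL(2, ℤ)) (x : FL L N) :
    IsExp N (slComp δ (embed ι N x)) (cuspSeries ι δ x) :=
  (meroAtCusps_embed ι x δ).choose_spec

theorem cuspSeries_eq (δ : SL(2, ℤ)) (x : FL L N) {s : LaurentSeries ℂ}
    (h : IsExp N (slComp δ (embed ι N x)) s) : cuspSeries ι δ x = s :=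
  ((isExp_cuspSeries ι δ x).unique (Nat.cast_pos.2 (NeZero.pos N)) h).2 rfl

theorem cuspSeries_ne_zero (δ : SL(2, ℤ)) {x : FL L N} (hx : x ≠ 0) :
    cuspSeries ι δ x ≠ 0 := fun h =>
  (map_ne_zero (slComp δ)).2 ((map_ne_zero (embed ι N)).2 hx)
    (((isExp_cuspSeries ι δ x).series_eq_zero_iff (Nat.cast_pos.2 (NeZero.pos N))).1 h)

/-- The order of a modular function at the cusp `δ ∞`, in the parameter `q ^ (1 / N)`. -/
def ordCusp (δ : SL(2, ℤ)) (x : FL L N) : ℤ := (cuspSeries ι δ x).order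

theorem isOrd_ordCusp (δ : SL(2, ℤ)) : IsOrd (ordCusp ι δ : FL L N → ℤ) where
  map_mul f g hf hg := by
    have h := cuspSeries_eq ι δ (f * g) (s := cuspSeries ι δ f * cuspSeries ι δ g)
      (by simpa using (isExp_cuspSeries ι δ f).mul (isExp_cuspSeries ι δ g))
    rw [ordCusp, h, HahnSeries.order_mul (cuspSeries_ne_zero ι δ hf) (cuspSeries_ne_zero ι δ hg)]
    rfl
  map_add f g hf hg hfg := by
    have h := cuspSeries_eq ι δ (f + g) (s := cuspSeries ι δ f + cuspSeries ι δ g)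
      (by simpa using (isExp_cuspSeries ι δ f).add (isExp_cuspSeries ι δ g))
    rw [ordCusp, ordCusp, ordCusp, h]
    exact HahnSeries.min_order_le_order_add (h ▸ cuspSeries_ne_zero ι δ hfg)

theorem ordCusp_algebraMap (δ : SL(2, ℤ)) (a : L) :
    ordCusp ι δ (algebraMap L (FL L N) a) = 0 := by
  rw [ordCusp, cuspSeries_eq ι δ _ (s := HahnSeries.C (ι a))
    (by rw [embed_algebraMap, slComp_const]; exact IsExp.const _), HahnSeries.C_apply]
  rcases eq_or_ne (ι a) 0 with h | h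
  · simp [h]
  · exact HahnSeries.order_single h

/-! ### Orders of functions whose divisor is a multiple of `n` -/

/-- If the divisor of `f` is `n • D`, every order function trivial on the constants takes at `f` a
value `n * m`, and `ω ^ m = 1` as soon as `ω` is killed by all values of the order function. -/
theorem exists_eq_mul_of_ord {K F : Type*} [Field K] [Field F] [Algebra K F]
    [FF.IsFunctionField K F] {o : F → ℤ} (ho : IsOrd o) (hc : ∀ a, o (algebraMap K F a) = 0)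
    {n : ℕ} {f : F} (hf : f ≠ 0) {D : Divisor K F} (hD : ∀ v, (n : ℤ) * D v = v.ord f) :
    ∃ m : ℤ, o f = n * m ∧ ∀ ω : ℂ, (∀ g : F, g ≠ 0 → ω ^ o g = 1) → ω ^ m = 1 := by
  by_cases htriv : ∀ g : F, g ≠ 0 → o g = 0
  · exact ⟨0, by rw [htriv f hf, mul_zero], fun ω _ => zpow_zero ω⟩
  push Not at htriv
  obtain ⟨g, hg, hog⟩ := htriv
  have hK : ∀ a : K, algebraMap K F a ∈ ho.valuationSubring := fun a =>
    (IsOrd.mem_valuationSubring ho).2 (Or.inr (hc a).ge)
  have hne : ho.valuationSubring ≠ ⊤ := by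
    intro htop
    have h1 : ∀ x : F, x ≠ 0 → 0 ≤ o x := fun x hx => by
      have : x ∈ ho.valuationSubring := htop ▸ ValuationSubring.mem_top x
      exact ((IsOrd.mem_valuationSubring ho).1 this).resolve_left hx
    have h2 := h1 g⁻¹ (inv_ne_zero hg)
    rw [ho.map_inv hg] at h2
    have := h1 g hg
    omega
  let v : Place K F :=
    ⟨ho.valuationSubring, hK, hne,
      FF.isPrincipalIdealRing_valuationSubring_of_ne_top _ hK⟩
  obtain ⟨π, hπ0, hπ⟩ := MFGenus.exists_ord_eq_one v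
  have key := fun (x : F) (hx : x ≠ 0) => MFGenus.isOrd_eq_mul_ord v ho
    (fun y hy hy0 => ((IsOrd.mem_valuationSubring ho).1 hy).resolve_left hy0) hπ0 hπ hx
  refine ⟨D v * o π, ?_, fun ω hω => ?_⟩
  · rw [key f hf, ← hD v, mul_assoc]
  · rw [mul_comm, zpow_mul, hω π hπ0, one_zpow]

/-! ### Elliptic elements -/

/-- The derivative of `γ` at `τ`. -/
def rot (γ : SL(2, ℤ)) (τ : ℍ) : ℂ := (((γ 1 0 : ℂ) * τ + γ 1 1) ^ 2)⁻¹

/-- If `x ∘ γ = c • x` and `γ` fixes `τ`, then `c` is read off from the order of `x` at `τ`. -/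
theorem eq_rot_zpow_ordAt {x : MeroH} {γ : SL(2, ℤ)} {τ : ℍ} (hτ : γ • τ = τ) {c : ℂ}
    (hc : slComp γ x = MeroH.const c * x) {m : ℤ} (hm : ordAt x τ = m) :
    c = rot γ τ ^ m := by
  obtain ⟨f, hf, rfl⟩ := exists_rep x
  rw [ordAt_mk hf (coe_mem_uhp τ)] at hm
  obtain ⟨g, hga, hg0, hfg⟩ := (meromorphicOrderAt_eq_int_iff (hf _ (coe_mem_uhp τ))).1 hm
  rw [slComp_mk, const_apply, mk_mul] at hc
  have heq := mk_eq_mk_iff.1 hc (τ : ℂ) (coe_mem_uhp τ)
  set g' : GL (Fin 2) ℝ := (γ : GL (Fin 2) ℝ) with hg'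
  have hfix : moeb g' (τ : ℂ) = (τ : ℂ) := by
    rw [moeb_coe]
    exact congrArg ((↑) : ℍ → ℂ) hτ
  set den : ℂ → ℂ := fun z => ((γ 1 0 : ℂ) * z + γ 1 1) * ((γ 1 0 : ℂ) * τ + γ 1 1) with hden
  have hden0 : den (τ : ℂ) ≠ 0 :=
    mul_ne_zero (Poincare.denom_ne_zero' γ τ) (Poincare.denom_ne_zero' γ τ)
  have hmoeb : ∀ z ∈ uhp, moeb g' z - τ = (z - τ) / den z := by
    intro z hz
    conv_lhs => rw [← hfix]
    rw [hg', show z = ((⟨z, hz⟩ : ℍ) : ℂ) from rfl, moeb_coe, moeb_coe]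
    change ((γ • (⟨z, hz⟩ : ℍ) : ℍ) : ℂ) - ((γ • τ : ℍ) : ℂ) = _
    rw [Poincare.coe_smul_apply, Poincare.coe_smul_apply]
    have h1 := Poincare.denom_ne_zero' γ ⟨z, hz⟩
    have h2 := Poincare.denom_ne_zero' γ τ
    have hdet : (γ 0 0 : ℂ) * γ 1 1 - γ 0 1 * γ 1 0 = 1 := by
      have h := γ.2
      rw [Matrix.det_fin_two] at h
      exact_mod_cast h
    simp only [hden]
    rw [div_sub_div _ _ h1 h2]
    congr 1
    linear_combination ((z : ℂ) - τ) * hdet
  have hmt := tendsto_moeb_nhdsNE (det_SL_pos γ) (coe_mem_uhp τ)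
  rw [hfix] at hmt
  have hev : ∀ᶠ z in 𝓝[≠] (τ : ℂ), (den z)⁻¹ ^ m * g (moeb g' z) = c * g z := by
    filter_upwards [heq, hfg, hmt.eventually hfg, self_mem_nhdsWithin,
      mem_nhdsWithin_of_mem_nhds (isOpen_uhp.mem_nhds (coe_mem_uhp τ))] with z hz h1 h2 hne hzu
    simp only [Function.comp_apply, Pi.mul_apply] at hz
    rw [h1, h2, hmoeb z hzu, smul_eq_mul, smul_eq_mul, div_eq_mul_inv, mul_zpow] at hz
    have hz0 : (z - (τ : ℂ)) ^ m ≠ 0 := zpow_ne_zero _ (sub_ne_zero.2 hne)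
    apply mul_left_cancel₀ hz0
    linear_combination hz
  have hcont : ContinuousAt (fun z => (den z)⁻¹ ^ m * g (moeb g' z)) (τ : ℂ) := by
    refine ContinuousAt.mul ?_ ?_
    · refine ContinuousAt.zpow₀ (ContinuousAt.inv₀ ?_ hden0) _ (Or.inl (inv_ne_zero hden0))
      simp only [hden]
      fun_prop
    · exact ContinuousAt.comp (by rw [hfix]; exact hga.continuousAt)
        (analyticAt_moeb (det_SL_pos γ) (coe_mem_uhp τ)).continuousAt
  have h := tendsto_nhds_unique ((hcont.tendsto.mono_left nhdsWithin_le_nhds).congr' hev)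
    (((continuousAt_const.mul hga.continuousAt).tendsto).mono_left
      (nhdsWithin_le_nhds (s := {(τ : ℂ)}ᶜ)))
  rw [hfix] at h
  simp only [hden, ← sq] at h
  exact mul_right_cancel₀ hg0 h.symm

/-- An element of squared trace less than `4` fixes a point of `ℍ`. -/
theorem exists_fixed_point (γ : SL(2, ℤ))
    (h : (γ : Matrix (Fin 2) (Fin 2) ℤ).trace ^ 2 < 4) : ∃ τ : ℍ, γ • τ = τ := by
  rw [Matrix.trace_fin_two] at h
  have hdet := γ.2
  rw [Matrix.det_fin_two] at hdet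
  have hc : γ 1 0 ≠ 0 := by
    intro hc
    rw [hc, mul_zero, sub_zero] at hdet
    nlinarith [sq_nonneg (γ 0 0 - γ 1 1)]
  have hR : (0 : ℝ) < 4 - ((γ 0 0 + γ 1 1 : ℤ) : ℝ) ^ 2 := by
    rw [sub_pos]; exact_mod_cast h
  set r : ℝ := Real.sqrt (4 - ((γ 0 0 + γ 1 1 : ℤ) : ℝ) ^ 2) with hr
  have hr0 : 0 < r := Real.sqrt_pos.2 hR
  have hr2 : r * r = 4 - ((γ 0 0 + γ 1 1 : ℤ) : ℝ) ^ 2 := Real.mul_self_sqrt hR.le
  obtain ⟨s, hs, hs0⟩ : ∃ s : ℝ, s * s = r * r ∧ 0 < s / (γ 1 0 : ℝ) := by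
    rcases lt_or_gt_of_ne hc with hneg | hpos
    · exact ⟨-r, by ring, div_pos_of_neg_of_neg (by linarith) (by exact_mod_cast hneg)⟩
    · exact ⟨r, rfl, div_pos hr0 (by exact_mod_cast hpos)⟩
  let w : ℂ := ⟨((γ 0 0 : ℝ) - γ 1 1) / (2 * γ 1 0), s / (2 * γ 1 0)⟩
  have him : 0 < w.im := by
    change 0 < s / (2 * (γ 1 0 : ℝ))
    rw [mul_comm, ← div_div]
    linarith
  refine ⟨⟨w, him⟩, UpperHalfPlane.ext ?_⟩
  rw [Poincare.coe_smul_apply]
  have hden := Poincare.denom_ne_zero' γ ⟨w, him⟩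
  rw [div_eq_iff hden]
  simp only
  have hdetR : (γ 0 0 : ℝ) * γ 1 1 - γ 0 1 * γ 1 0 = 1 := by exact_mod_cast hdet
  push_cast at hr2
  apply Complex.ext
  · simp [w]
    field_simp
    linear_combination hs + hr2 - 4 * hdetR
  · simp [w]
    field_simp
    ring

end Fermat.Agent.Kummer
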