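import Fermat.Agent.Kummer.IntComp
import Fermat.Agent.LevelOne.JFunction
import Mathlib.Analysis.Complex.LocallyUniformLimit
import Mathlib.NumberTheory.ModularForms.CongruenceSubgroups
import Mathlib.NumberTheory.ModularForms.EisensteinSeries.Summable

/-!
# Poincaré series with character

For a unitary character `χ` of `Γ₀(N)`, trivial on `-1` and on the parabolic elements, we construct
a meromorphic function on `ℍ`, meromorphic at all cusps, transforming by `χ`.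

With `lin δ z = (a z + b) + 2i (c z + d)` for `δ = (a, b; c, d)`, the series is
`∑ χ(γ)⁻¹ lin(γ g, z) ^ (-k)`; one has `|lin δ z|² = |a z + b|² + 4 |c z + d|² + 4 Im z`, and the
terms with `γ ≠ ±1` at `z = 2i` are strictly smaller than the leading ones.
-/

set_option autoImplicit false

noncomputable section

open Filter Topology Complex
open UpperHalfPlane hiding I continuous_im im re
open EisensteinSeries CongruenceSubgroup
open scoped MatrixGroups Manifold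

namespace Fermat.Agent.Kummer

namespace Poincare

/-- `(a z + b) + 2i (c z + d)`. -/
def lin (δ : SL(2, ℤ)) (z : ℂ) : ℂ :=
  ((δ 0 0 : ℂ) * z + δ 0 1) + 2 * I * ((δ 1 0 : ℂ) * z + δ 1 1)

theorem normSq_lin (δ : SL(2, ℤ)) (z : ℂ) :
    Complex.normSq (lin δ z) = Complex.normSq ((δ 0 0 : ℂ) * z + δ 0 1) +
      4 * Complex.normSq ((δ 1 0 : ℂ) * z + δ 1 1) + 4 * z.im := by
  have h := δ.2
  rw [Matrix.det_fin_two] at h
  have h' : (δ 0 0 : ℝ) * δ 1 1 - δ 0 1 * δ 1 0 = 1 := by exact_mod_cast h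
  simp [lin, Complex.normSq_apply]
  linear_combination (4 * z.im) * h'

theorem lin_ne_zero (δ : SL(2, ℤ)) {z : ℂ} (hz : 0 < z.im) : lin δ z ≠ 0 := by
  intro h
  have h' := normSq_lin δ z
  rw [h, map_zero] at h'
  linarith [Complex.normSq_nonneg ((δ 0 0 : ℂ) * z + δ 0 1),
    Complex.normSq_nonneg ((δ 1 0 : ℂ) * z + δ 1 1)]

theorem coe_smul_apply (δ : SL(2, ℤ)) (z : ℍ) :
    ((δ • z : ℍ) : ℂ) = ((δ 0 0 : ℂ) * z + δ 0 1) / ((δ 1 0 : ℂ) * z + δ 1 1) := by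
  rw [coe_specialLinearGroup_apply]
  simp

theorem denom_ne_zero' (δ : SL(2, ℤ)) (z : ℍ) : (δ 1 0 : ℂ) * z + δ 1 1 ≠ 0 := by
  have h := UpperHalfPlane.denom_ne_zero (δ : GL (Fin 2) ℝ) z
  simpa [ModularGroup.denom_apply] using h

theorem lin_mul (γ δ : SL(2, ℤ)) (z : ℍ) :
    lin (γ * δ) z = lin γ ((δ • z : ℍ) : ℂ) * ((δ 1 0 : ℂ) * z + δ 1 1) := by
  rw [coe_smul_apply]
  have h0 := denom_ne_zero' δ z
  simp only [lin, Matrix.SpecialLinearGroup.coe_mul, Matrix.mul_apply, Fin.sum_univ_two]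
  push_cast
  field_simp
  ring

theorem differentiable_lin (δ : SL(2, ℤ)) : Differentiable ℂ (lin δ) := by
  unfold lin
  fun_prop

/-- The majorant. -/
def majorant (δ : SL(2, ℤ)) : ℝ := ‖δ.1 0‖ ^ (-(3 : ℝ)) * ‖δ.1 1‖ ^ (-(3 : ℝ))

theorem summable_majorant : Summable majorant := by
  have h := summable_one_div_norm_rpow (k := 3) (by norm_num)
  have h2 := h.mul_of_nonneg h (fun x => Real.rpow_nonneg (norm_nonneg _) _)
    (fun x => Real.rpow_nonneg (norm_nonneg _) _)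
  refine h2.comp_injective (i := fun δ : SL(2, ℤ) => (δ.1 0, δ.1 1)) ?_
  intro a b hab
  simp only [Prod.mk.injEq] at hab
  apply Subtype.ext
  ext i j
  fin_cases i
  · exact congrFun hab.1 j
  · exact congrFun hab.2 j

theorem row_ne_zero (δ : SL(2, ℤ)) (i : Fin 2) : δ.1 i ≠ 0 := by
  intro h
  have hd := δ.2
  rw [Matrix.det_fin_two] at hd
  fin_cases i <;> simp_all

theorem norm_inv_lin_pow_six_le (δ : SL(2, ℤ)) (z : ℍ) :
    ‖lin δ z‖⁻¹ ^ 6 ≤ r z ^ (-(6 : ℝ)) * majorant δ := by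
  set X := ‖(δ.1 0 0 : ℂ) * z + δ.1 0 1‖
  set Y := ‖(δ.1 1 0 : ℂ) * z + δ.1 1 1‖
  have hr := r_pos z
  have hX : 0 < r z * ‖δ.1 0‖ := mul_pos hr (norm_pos_iff.2 (row_ne_zero δ 0))
  have hY : 0 < r z * ‖δ.1 1‖ := mul_pos hr (norm_pos_iff.2 (row_ne_zero δ 1))
  have hXle : r z * ‖δ.1 0‖ ≤ X := r_mul_max_le z (row_ne_zero δ 0)
  have hYle : r z * ‖δ.1 1‖ ≤ Y := r_mul_max_le z (row_ne_zero δ 1)
  have hsq : X * Y ≤ ‖lin δ z‖ ^ 2 := by
    rw [Complex.sq_norm, normSq_lin, Complex.normSq_eq_norm_sq, Complex.normSq_eq_norm_sq]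
    nlinarith [sq_nonneg (X - 2 * Y), z.im_pos, mul_nonneg (hX.le.trans hXle) (hY.le.trans hYle),
      (show (z : ℂ).im = z.im from rfl)]
  have hpos : 0 < (r z * ‖δ.1 0‖) * (r z * ‖δ.1 1‖) := mul_pos hX hY
  have hle : (r z * ‖δ.1 0‖) * (r z * ‖δ.1 1‖) ≤ ‖lin δ z‖ ^ 2 :=
    (mul_le_mul hXle hYle hY.le (hX.le.trans hXle)).trans hsq
  have e1 : ‖lin δ z‖⁻¹ ^ 6 = ((‖lin δ z‖ ^ 2) ^ 3)⁻¹ := by rw [inv_pow, ← pow_mul]
  have e2 : r z ^ (-(6 : ℝ)) * majorant δ = (((r z * ‖δ.1 0‖) * (r z * ‖δ.1 1‖)) ^ 3)⁻¹ := by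
    rw [majorant, Real.rpow_neg hr.le, Real.rpow_neg (norm_nonneg _), Real.rpow_neg (norm_nonneg _),
      show (6 : ℝ) = ((6 : ℕ) : ℝ) by norm_num, show (3 : ℝ) = ((3 : ℕ) : ℝ) by norm_num,
      Real.rpow_natCast, Real.rpow_natCast, Real.rpow_natCast, mul_pow, mul_pow, mul_pow]
    field_simp
  rw [e1, e2]
  exact inv_anti₀ (pow_pos hpos 3) (pow_le_pow_left₀ hpos.le hle 3)

/-- Uniform bound on a vertical strip. -/
theorem norm_inv_lin_pow_le {k : ℕ} (hk : 6 ≤ k) {A B : ℝ} (hB : 0 < B) (δ : SL(2, ℤ)) {z : ℍ}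
    (hz : z ∈ verticalStrip A B) :
    ‖lin δ z‖⁻¹ ^ k ≤ (2 * √B)⁻¹ ^ (k - 6) * (r ⟨⟨A, B⟩, hB⟩ ^ (-(6 : ℝ))) * majorant δ := by
  have hmaj : 0 ≤ majorant δ := by unfold majorant; positivity
  have h6 : ‖lin δ z‖⁻¹ ^ 6 ≤ r ⟨⟨A, B⟩, hB⟩ ^ (-(6 : ℝ)) * majorant δ :=
    (norm_inv_lin_pow_six_le δ z).trans (mul_le_mul_of_nonneg_right
      (Real.rpow_le_rpow_of_nonpos (r_pos _) (r_lower_bound_on_verticalStrip z hB hz)
        (by norm_num)) hmaj)
  have h1 : ‖lin δ z‖⁻¹ ≤ (2 * √B)⁻¹ := by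
    refine inv_anti₀ (by positivity) ?_
    rw [Complex.norm_def, show 2 * √B = √(4 * B) by
      rw [Real.sqrt_mul (by norm_num), show (4 : ℝ) = 2 * 2 by norm_num,
        Real.sqrt_mul_self (by norm_num)]]
    refine Real.sqrt_le_sqrt ?_
    rw [normSq_lin]
    have : B ≤ (z : ℂ).im := hz.2
    linarith [Complex.normSq_nonneg ((δ 0 0 : ℂ) * z + δ 0 1),
      Complex.normSq_nonneg ((δ 1 0 : ℂ) * z + δ 1 1)]
  calc ‖lin δ z‖⁻¹ ^ k = ‖lin δ z‖⁻¹ ^ (k - 6) * ‖lin δ z‖⁻¹ ^ 6 := by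
        rw [← pow_add]; congr 1; omega
    _ ≤ (2 * √B)⁻¹ ^ (k - 6) * (r ⟨⟨A, B⟩, hB⟩ ^ (-(6 : ℝ)) * majorant δ) :=
        mul_le_mul (pow_le_pow_left₀ (by positivity) h1 _) h6 (by positivity) (by positivity)
    _ = _ := by ring

variable {N : ℕ}

theorem injective_mul_right (g : SL(2, ℤ)) :
    Function.Injective fun γ : Gamma0 N => (γ : SL(2, ℤ)) * g :=
  fun _ _ h => Subtype.ext (mul_right_cancel h)

variable (χ : Gamma0 N →* ℂˣ) (k : ℕ)

/-- The summand. -/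
def term (g : SL(2, ℤ)) (γ : Gamma0 N) (z : ℂ) : ℂ :=
  ((χ γ⁻¹ : ℂˣ) : ℂ) * (lin ((γ : SL(2, ℤ)) * g) z ^ k)⁻¹

/-- The series, as a function on `ℍ`, attached to the translate by `g`. -/
def series (g : SL(2, ℤ)) (z : ℍ) : ℂ := ∑' γ : Gamma0 N, term χ k g γ z

variable {χ k} (hχ : ∀ γ, ‖((χ γ : ℂˣ) : ℂ)‖ = 1)

include hχ in
theorem norm_term (g : SL(2, ℤ)) (γ : Gamma0 N) (z : ℂ) :
    ‖term χ k g γ z‖ = ‖lin ((γ : SL(2, ℤ)) * g) z‖⁻¹ ^ k := by
  rw [term, norm_mul, hχ, one_mul, norm_inv, norm_pow, inv_pow]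

variable (hk : 6 ≤ k)

include hχ hk in
theorem norm_term_le {A B : ℝ} (hB : 0 < B) (g : SL(2, ℤ)) (γ : Gamma0 N) {z : ℍ}
    (hz : z ∈ verticalStrip A B) :
    ‖term χ k g γ z‖ ≤ (2 * √B)⁻¹ ^ (k - 6) * (r ⟨⟨A, B⟩, hB⟩ ^ (-(6 : ℝ))) *
      majorant ((γ : SL(2, ℤ)) * g) := by
  rw [norm_term hχ]; exact norm_inv_lin_pow_le hk hB _ hz

include hχ hk in
theorem summable_term (g : SL(2, ℤ)) (z : ℍ) : Summable fun γ : Gamma0 N => term χ k g γ z := by
  refine Summable.of_norm_bounded ?_ fun γ =>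
    norm_term_le hχ hk z.im_pos g γ (A := |z.re|) ⟨le_rfl, le_rfl⟩
  exact (summable_majorant.comp_injective (injective_mul_right g)).mul_left _

include hχ hk in
theorem mdifferentiable_series (g : SL(2, ℤ)) : MDiff (series χ k g) := by
  rw [UpperHalfPlane.mdifferentiable_iff]
  intro z hz
  set A := |z.re| + 1
  set B := z.im / 2
  have hB : 0 < B := by have : 0 < z.im := hz; positivity
  set U : Set ℂ := {w | |w.re| < A ∧ B < w.im} with hU
  have hUo : IsOpen U :=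
    (isOpen_lt Complex.continuous_re.abs continuous_const).inter
      (isOpen_lt continuous_const Complex.continuous_im)
  have hzU : z ∈ U := ⟨by simp [A], by simp only [B]; linarith [(show 0 < z.im from hz)]⟩
  have hd : DifferentiableOn ℂ (fun w => ∑' γ : Gamma0 N, term χ k g γ w) U :=
    differentiableOn_tsum_of_summable_norm
      ((summable_majorant.comp_injective (injective_mul_right g)).mul_left _)
      (fun γ w hw => (((((differentiable_lin _).differentiableAt.pow k).inv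
        (pow_ne_zero _ (lin_ne_zero _ (hB.trans hw.2)))).const_mul _).differentiableWithinAt))
      hUo fun γ w hw => norm_term_le hχ hk hB g γ (z := ⟨w, hB.trans hw.2⟩) ⟨hw.1.le, hw.2.le⟩
  refine ((hd.differentiableAt (hUo.mem_nhds hzU)).congr_of_eventuallyEq ?_).differentiableWithinAt
  filter_upwards [hUo.mem_nhds hzU] with w hw
  simp [series, ofComplex_apply_of_im_pos (hB.trans hw.2)]

theorem series_smul (g : SL(2, ℤ)) (z : ℍ) :
    series χ k 1 (g • z) = ((g 1 0 : ℂ) * z + g 1 1) ^ k * series χ k g z := by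
  simp only [series, ← tsum_mul_left]
  refine tsum_congr fun γ => ?_
  simp only [term, mul_one]
  rw [lin_mul (γ : SL(2, ℤ)) g z, mul_pow, mul_inv]
  have := denom_ne_zero' g z
  field_simp

theorem series_mul_left (δ : Gamma0 N) (g : SL(2, ℤ)) (z : ℍ) :
    series χ k ((δ : SL(2, ℤ)) * g) z = ((χ δ : ℂˣ) : ℂ) * series χ k g z := by
  simp only [series, ← tsum_mul_left]
  rw [← (Equiv.mulRight δ).tsum_eq (fun γ => ((χ δ : ℂˣ) : ℂ) * term χ k g γ z)]
  refine tsum_congr fun γ => ?_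
  simp only [term, Equiv.coe_mulRight, mul_inv_rev, map_mul, Units.val_mul, Subgroup.coe_mul,
    mul_assoc]
  rw [← mul_assoc ((χ δ : ℂˣ) : ℂ), ← Units.val_mul, ← map_mul, mul_inv_cancel, map_one,
    Units.val_one, one_mul]

theorem lin_mul_T_zpow (δ : SL(2, ℤ)) (j : ℤ) (z : ℂ) :
    lin (δ * ModularGroup.T ^ j) z = lin δ (z + j) := by
  simp [lin, ModularGroup.coe_T_zpow, Matrix.mul_apply, Fin.sum_univ_two]
  ring

theorem conj_T_zpow_mem (g : SL(2, ℤ)) : g * ModularGroup.T ^ (N : ℤ) * g⁻¹ ∈ Gamma0 N := by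
  rw [Gamma0_mem]
  simp only [Matrix.SpecialLinearGroup.coe_mul, Matrix.SpecialLinearGroup.coe_inv,
    ModularGroup.coe_T_zpow, Matrix.adjugate_fin_two]
  simp [Matrix.mul_apply, Fin.sum_univ_two]
  ring

variable (hpar : ∀ (g : SL(2, ℤ)) (π : Gamma0 N),
  (π : SL(2, ℤ)) = g * ModularGroup.T ^ (N : ℤ) * g⁻¹ → χ π = 1)

include hpar in
theorem series_periodic (g : SL(2, ℤ)) :
    Function.Periodic (series χ k g ∘ ofComplex) (N : ℝ) := by
  refine Fermat.Agent.LevelOne.periodic_comp_ofComplex_of_vadd fun τ => ?_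
  have h : series χ k (g * ModularGroup.T ^ (N : ℤ)) τ = series χ k g ((N : ℝ) +ᵥ τ) := by
    simp only [series]
    refine tsum_congr fun γ => ?_
    rw [term, term, ← mul_assoc, lin_mul_T_zpow, coe_vadd]
    push_cast
    rw [add_comm]
  rw [← h]
  have h2 : g * ModularGroup.T ^ (N : ℤ) =
      ((⟨_, conj_T_zpow_mem g⟩ : Gamma0 N) : SL(2, ℤ)) * g := by simp
  rw [h2, series_mul_left, hpar g _ rfl, Units.val_one, one_mul]

include hχ hk in
theorem norm_series_le {A B : ℝ} (hB : 0 < B) (g : SL(2, ℤ)) {z : ℍ}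
    (hz : z ∈ verticalStrip A B) :
    ‖series χ k g z‖ ≤ ∑' γ : Gamma0 N, (2 * √B)⁻¹ ^ (k - 6) * (r ⟨⟨A, B⟩, hB⟩ ^ (-(6 : ℝ))) *
      majorant ((γ : SL(2, ℤ)) * g) :=
  tsum_of_norm_bounded
    ((summable_majorant.comp_injective (injective_mul_right g)).mul_left _).hasSum
    fun γ => norm_term_le hχ hk hB g γ hz

include hχ hk hpar in
theorem isBoundedAtImInfty_series [NeZero N] (g : SL(2, ℤ)) :
    IsBoundedAtImInfty (series χ k g) := by
  rw [isBoundedAtImInfty_iff]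
  refine ⟨∑' γ : Gamma0 N, (2 * √(1 : ℝ))⁻¹ ^ (k - 6) *
      (r ⟨⟨(N : ℝ), 1⟩, one_pos⟩ ^ (-(6 : ℝ))) * majorant ((γ : SL(2, ℤ)) * g), 1, fun z hz => ?_⟩
  have hN : (0 : ℝ) < N := by exact_mod_cast NeZero.pos N
  set j : ℤ := ⌊z.re / N⌋
  have hper := (series_periodic hpar g (k := k)).sub_int_mul_eq (x := (z : ℂ)) j
  have him : 0 < ((z : ℂ) - j * (N : ℝ)).im := by simpa using z.im_pos
  simp only [Function.comp_apply, ofComplex_apply, ofComplex_apply_of_im_pos him] at hper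
  rw [← hper]
  refine norm_series_le hχ hk (A := N) one_pos g ⟨?_, ?_⟩
  · have h1 := Int.floor_le (z.re / N)
    have h2 := Int.lt_floor_add_one (z.re / N)
    rw [le_div_iff₀ hN] at h1
    rw [div_lt_iff₀ hN] at h2
    change |((z : ℂ) - j * (N : ℝ)).re| ≤ N
    simp only [sub_re, mul_re, intCast_re, intCast_im, ofReal_re, ofReal_im]
    rw [abs_le]
    constructor <;> simp only [j] <;> linarith [(show (z : ℂ).re = z.re from rfl)]
  · change 1 ≤ ((z : ℂ) - j * (N : ℝ)).im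
    simpa using hz

/-- `2i`. -/
def base : ℍ := ⟨2 * I, by simp⟩

theorem eq_one_or_neg_one (δ : SL(2, ℤ)) (h : Complex.normSq (lin δ base) < 17) :
    δ = 1 ∨ δ = -1 := by
  rw [normSq_lin] at h
  simp [base, Complex.normSq_apply] at h
  have hd := δ.2
  rw [Matrix.det_fin_two] at hd
  set a := δ.1 0 0 with ha
  set b := δ.1 0 1 with hb
  set c := δ.1 1 0 with hc
  set d := δ.1 1 1 with hdd
  have h' : 4 * a ^ 2 + b ^ 2 + 16 * c ^ 2 + 4 * d ^ 2 < 9 := by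
    have : ((4 * a ^ 2 + b ^ 2 + 16 * c ^ 2 + 4 * d ^ 2 : ℤ) : ℝ) < ((9 : ℤ) : ℝ) := by
      push_cast; linarith
    exact_mod_cast this
  have hc0 : c = 0 := by
    by_contra hne
    have : 1 ≤ c ^ 2 := by have := sq_pos_iff.2 hne; omega
    nlinarith [sq_nonneg a, sq_nonneg b, sq_nonneg d]
  rw [hc0, mul_zero, sub_zero] at hd
  rcases Int.eq_one_or_neg_one_of_mul_eq_one hd with h1 | h1
  all_goals
    have hd1 : d = a := by rw [h1] at hd ⊢; linarith
    have hb0 : b = 0 := by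
      by_contra hne
      have : 1 ≤ b ^ 2 := by have := sq_pos_iff.2 hne; omega
      rw [hd1, h1] at h'; nlinarith
  · left
    apply Subtype.ext
    ext i j
    fin_cases i <;> fin_cases j <;> simp [← ha, ← hb, ← hc, ← hdd, h1, hb0, hc0, hd1]
  · right
    apply Subtype.ext
    ext i j
    fin_cases i <;> fin_cases j <;> simp [← ha, ← hb, ← hc, ← hdd, h1, hb0, hc0, hd1]

theorem lin_one_base : lin 1 base = 4 * I := by
  simp [lin, base]; ring

theorem neg_one_mem : (-1 : SL(2, ℤ)) ∈ Gamma0 N := by simp [Gamma0_mem]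

variable (hneg : χ ⟨-1, neg_one_mem⟩ = 1)

include hχ hk hneg in
/-- The value at `2i` of the series is close to twice its leading term. -/
theorem norm_series_base_sub_le (heven : Even k) :
    ‖series χ k 1 base - 2 * ((4 * I) ^ k)⁻¹‖ ≤
      ∑' γ : Gamma0 N, (√17)⁻¹ ^ (k - 6) *
        (r base ^ (-(6 : ℝ)) * majorant ((γ : SL(2, ℤ)) * 1)) := by
  classical
  set S : Finset (Gamma0 N) := {1, ⟨-1, neg_one_mem⟩}
  have hne : (1 : Gamma0 N) ≠ ⟨-1, neg_one_mem⟩ := by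
    intro h
    have := congrArg (fun δ : SL(2, ℤ) => δ 0 0) (congrArg Subtype.val h)
    simp at this
  have hinv : (⟨-1, neg_one_mem⟩ : Gamma0 N)⁻¹ = ⟨-1, neg_one_mem⟩ := by
    apply Subtype.ext; simp
  have hsum : ∑ γ ∈ S, term χ k 1 γ base = 2 * ((4 * I) ^ k)⁻¹ := by
    rw [Finset.sum_pair hne]
    simp only [term, inv_one, map_one, Units.val_one, one_mul, OneMemClass.coe_one, mul_one,
      lin_one_base, hinv, hneg]
    have : lin (-1) base = -(4 * I) := by simp [lin, base]; ring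
    rw [this, heven.neg_pow]
    ring
  rw [series, ← (summable_term hχ hk 1 base).sum_add_tsum_compl (s := S), hsum, add_sub_cancel_left]
  have hbd : Summable fun γ : Gamma0 N => (√17)⁻¹ ^ (k - 6) *
      (r base ^ (-(6 : ℝ)) * majorant ((γ : SL(2, ℤ)) * 1)) :=
    ((summable_majorant.comp_injective (injective_mul_right (1 : SL(2, ℤ)))).mul_left _).mul_left _
  refine le_trans (tsum_of_norm_bounded (hbd.subtype _).hasSum fun γ => ?_)
    (Summable.tsum_subtype_le _ _ (fun γ => by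
      have := r_pos base
      unfold majorant
      positivity) hbd)
  obtain ⟨γ, hγ⟩ := γ
  simp only [Finset.coe_pair, Set.mem_compl_iff, S, Set.mem_insert_iff, Set.mem_singleton_iff,
    not_or] at hγ
  simp only [Function.comp_apply, norm_term hχ, mul_one]
  have h17 : (√17)⁻¹ ≥ ‖lin (γ : SL(2, ℤ)) base‖⁻¹ := by
    refine inv_anti₀ (by positivity) ?_
    rw [Complex.norm_def]
    refine Real.sqrt_le_sqrt ?_
    by_contra hlt
    rcases eq_one_or_neg_one (γ : SL(2, ℤ)) (not_le.1 hlt) with h | h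
    · exact hγ.1 (Subtype.ext h)
    · exact hγ.2 (Subtype.ext h)
  calc ‖lin (γ : SL(2, ℤ)) base‖⁻¹ ^ k
      = ‖lin (γ : SL(2, ℤ)) base‖⁻¹ ^ (k - 6) * ‖lin (γ : SL(2, ℤ)) base‖⁻¹ ^ 6 := by
        rw [← pow_add]; congr 1; omega
    _ ≤ _ := mul_le_mul (pow_le_pow_left₀ (by positivity) h17 _) (norm_inv_lin_pow_six_le _ _)
        (by positivity) (by positivity)

theorem exists_weight (N : ℕ) : ∃ k : ℕ, 6 ≤ k ∧ Even k ∧
    ∀ χ : Gamma0 N →* ℂˣ, (∀ γ, ‖((χ γ : ℂˣ) : ℂ)‖ = 1) → χ ⟨-1, neg_one_mem⟩ = 1 →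
      series χ k 1 base ≠ 0 := by
  set C : ℝ := ∑' γ : Gamma0 N, r base ^ (-(6 : ℝ)) * majorant ((γ : SL(2, ℤ)) * 1) with hC
  have h17 : (4 : ℝ) < √17 := by
    rw [show (4 : ℝ) = √16 by rw [show (16 : ℝ) = 4 * 4 by norm_num,
      Real.sqrt_mul_self (by norm_num)]]
    exact Real.sqrt_lt_sqrt (by norm_num) (by norm_num)
  have hlt : 4 / √17 < 1 := by rw [div_lt_one (by positivity)]; exact h17
  obtain ⟨m, hm⟩ := ((tendsto_pow_atTop_nhds_zero_of_lt_one (by positivity) hlt).const_mul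
    (4 ^ 6 * C)).eventually (gt_mem_nhds (show 4 ^ 6 * C * 0 < 2 by norm_num))
      |>.exists_forall_of_atTop
  refine ⟨2 * m + 6, by omega, ⟨m + 3, by ring⟩, fun χ hχ hneg h0 => ?_⟩
  have h := norm_series_base_sub_le hχ (show 6 ≤ 2 * m + 6 by omega) hneg ⟨m + 3, by ring⟩
  rw [h0, zero_sub, norm_neg, tsum_mul_left, ← hC, norm_mul, norm_inv, norm_pow, norm_mul,
    Complex.norm_I, mul_one] at h
  simp only [Complex.norm_ofNat, Nat.add_sub_cancel] at h
  have h4 := hm (2 * m) (by omega)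
  rw [div_pow] at h4
  rw [inv_pow] at h
  rw [pow_add (4 : ℝ) (2 * m) 6] at h
  field_simp at h h4
  nlinarith

end Poincare

open Poincare MeroH

/-- For a unitary character of `Γ₀(N)` which is trivial on `-1` and on the conjugates of
`T ^ N`, there is a non zero meromorphic function on `ℍ`, meromorphic at all cusps, transforming by
this character. -/
theorem exists_char_mero {N : ℕ} [NeZero N] (χ : Gamma0 N →* ℂˣ)
    (hχ : ∀ γ, ‖((χ γ : ℂˣ) : ℂ)‖ = 1) (hneg : χ ⟨-1, Poincare.neg_one_mem⟩ = 1)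
    (hpar : ∀ (g : SL(2, ℤ)) (π : Gamma0 N),
      (π : SL(2, ℤ)) = g * ModularGroup.T ^ (N : ℤ) * g⁻¹ → χ π = 1) :
    ∃ G : MeroH, G ≠ 0 ∧ MeroAtCusps N G ∧
      ∀ γ : Gamma0 N, slComp (γ : SL(2, ℤ)) G = MeroH.const ((χ γ : ℂˣ) : ℂ) * G := by
  obtain ⟨k, hk, -, hne⟩ := exists_weight N
  have hN : (0 : ℝ) < N := by exact_mod_cast NeZero.pos N
  have h1 : ∀ γ, ‖(((1 : Gamma0 N →* ℂˣ) γ : ℂˣ) : ℂ)‖ = 1 := fun γ => by simp
  set P := fun (χ : Gamma0 N →* ℂˣ) (hχ : ∀ γ, ‖((χ γ : ℂˣ) : ℂ)‖ = 1) (g : SL(2, ℤ)) =>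
    ofHol (series χ k g) (mdifferentiable_series hχ hk g)
  have hP0 : ∀ (χ : Gamma0 N →* ℂˣ) (hχ : ∀ γ, ‖((χ γ : ℂˣ) : ℂ)‖ = 1),
      χ ⟨-1, Poincare.neg_one_mem⟩ = 1 → P χ hχ 1 ≠ 0 := by
    intro χ hχ hneg h0
    have hmem : (base : ℂ) ∈ uhp := base.im_pos
    have hd : DifferentiableAt ℂ (series χ k 1 ∘ ofComplex) base :=
      ((UpperHalfPlane.mdifferentiable_iff.1 (mdifferentiable_series hχ hk 1)).differentiableAt
        (isOpen_uhp.mem_nhds hmem))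
    have hz : series χ k 1 ∘ ofComplex =ᶠ[𝓝[≠] (base : ℂ)] 0 :=
      MeroH.mk_eq_mk_iff.1 (h0.trans MeroH.mk_zero.symm) base hmem
    have := tendsto_nhds_unique (hd.continuousAt.tendsto.mono_left nhdsWithin_le_nhds)
      ((tendsto_const_nhds (x := (0 : ℂ))).congr' hz.symm)
    simp only [Function.comp_apply, ofComplex_apply] at this
    exact hne χ hχ hneg this
  set j : SL(2, ℤ) → MeroH := fun g =>
    ofHol (fun τ : ℍ => ((g 1 0 : ℂ) * τ + g 1 1) ^ k)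
      (UpperHalfPlane.mdifferentiable_iff.2 <| by
        refine (DifferentiableOn.pow (f := fun z : ℂ => (g 1 0 : ℂ) * z + g 1 1)
          (by fun_prop) k).congr fun z hz => ?_
        simp [ofComplex_apply_of_im_pos hz])
  have hj : ∀ g, j g ≠ 0 := by
    intro g h0
    have hmem : (base : ℂ) ∈ uhp := base.im_pos
    have := MeroH.mk_eq_mk_iff.1 (h0.trans MeroH.mk_zero.symm) base hmem
    obtain ⟨w, hw, hwu⟩ :=
      (this.and (mem_nhdsWithin_of_mem_nhds (isOpen_uhp.mem_nhds hmem))).exists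
    simp only [Function.comp_apply, ofComplex_apply_of_im_pos hwu] at hw
    exact denom_ne_zero' g ⟨w, hwu⟩ (eq_zero_of_pow_eq_zero hw)
  have hsl : ∀ (χ : Gamma0 N →* ℂˣ) (hχ : ∀ γ, ‖((χ γ : ℂˣ) : ℂ)‖ = 1) (g : SL(2, ℤ)),
      slComp g (P χ hχ 1) = j g * P χ hχ g := by
    intro χ hχ g
    simp only [P, j, ofHol, slComp_mk, MeroH.mk_mul]
    refine MeroH.mk_congr _ _ fun z hz => ?_
    simp only [Function.comp_apply, moeb, ofComplex_apply, Pi.mul_apply]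
    exact series_smul g _
  have hPmul : ∀ (χ : Gamma0 N →* ℂˣ) (hχ : ∀ γ, ‖((χ γ : ℂˣ) : ℂ)‖ = 1) (δ : Gamma0 N),
      P χ hχ (δ : SL(2, ℤ)) = MeroH.const ((χ δ : ℂˣ) : ℂ) * P χ hχ 1 := by
    intro χ hχ δ
    simp only [P, ofHol, MeroH.const_apply, MeroH.mk_mul]
    refine MeroH.mk_congr _ _ fun z hz => ?_
    simp only [Function.comp_apply, Pi.mul_apply]
    rw [← series_mul_left, mul_one]
  refine ⟨P χ hχ 1 / P 1 h1 1, div_ne_zero (hP0 χ hχ hneg) (hP0 1 h1 rfl), fun g => ?_,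
    fun γ => ?_⟩
  · refine ⟨HahnSeries.ofPowerSeries ℤ ℂ (qExpansion N (series χ k g)) /
      HahnSeries.ofPowerSeries ℤ ℂ (qExpansion N (series (1 : Gamma0 N →* ℂˣ) k g)), ?_⟩
    rw [map_div₀, hsl χ hχ g, hsl 1 h1 g, mul_div_mul_left _ _ (hj g)]
    exact (isExp_of_periodic hN _ (series_periodic hpar g)
      (isBoundedAtImInfty_series hχ hk hpar g)).div hN
      (isExp_of_periodic hN _ (series_periodic (fun _ _ _ => rfl) g)
        (isBoundedAtImInfty_series h1 hk (fun _ _ _ => rfl) g))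
  · rw [map_div₀, hsl χ hχ, hsl 1 h1, mul_div_mul_left _ _ (hj _), hPmul χ hχ γ,
      hPmul 1 h1 γ, MonoidHom.one_apply, Units.val_one, map_one, one_mul, mul_div_assoc]

end Fermat.Agent.Kummer
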