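import Fermat.Agent.Kummer.Canonical
import Fermat.Agent.LevelOne.AutC
import Fermat.Agent.Cosets.ParabolicRank

/-!
# Every parabolic–elliptic homomorphism comes from a torsion class over `ℚ̄`
-/

set_option autoImplicit false

noncomputable section

open CongruenceSubgroup AlgebraicCurve ModularCurve
open scoped MatrixGroups

namespace Fermat.Agent.Kummer

open MeroH
open Fermat.Agent.MFGenus (FL jElt)
open Fermat.Agent.Cosets (parEllHoms mem_parEllHoms_iff)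

/-! ### Algebraic numbers -/

/-- A complex number with finite orbit under `Aut ℂ` is algebraic. -/
theorem isAlgebraic_of_finite_orbit {z : ℂ}
    (h : (Set.range fun σ : ℂ ≃+* ℂ => σ z).Finite) : IsAlgebraic ℚ z := by
  by_contra hz
  have : Countable (Polynomial ℚ) := Cardinal.mk_le_aleph0_iff.mp
    (Polynomial.cardinalMk_le_max.trans (max_le Cardinal.mk_le_aleph0 le_rfl))
  have : Countable (RatFunc ℚ) :=
    (IsLocalization.mk'_surjective (M := nonZeroDivisors (Polynomial ℚ))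
      (S := RatFunc ℚ)).countable
  have hmem : ∀ k : ℕ, z + (k : ℂ) ∈ Set.range fun σ : ℂ ≃+* ℂ => σ z := by
    intro k
    have hzk : Transcendental ℚ (z + (k : ℂ)) := fun halg =>
      hz (by simpa using halg.sub (isAlgebraic_natCast k))
    obtain ⟨σ, hσ⟩ := LevelOne.exists_ringEquiv_complex_extending
      (IsFractionRing.lift (K := RatFunc ℚ)
        (g := (Polynomial.aeval z : Polynomial ℚ →ₐ[ℚ] ℂ).toRingHom)
        (transcendental_iff_injective.mp hz))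
      (IsFractionRing.lift (K := RatFunc ℚ)
        (g := (Polynomial.aeval (z + (k : ℂ)) : Polynomial ℚ →ₐ[ℚ] ℂ).toRingHom)
        (transcendental_iff_injective.mp hzk))
    have h1 := hσ (algebraMap (Polynomial ℚ) (RatFunc ℚ) Polynomial.X)
    rw [IsFractionRing.lift_algebraMap, IsFractionRing.lift_algebraMap] at h1
    exact ⟨σ, by simpa using h1⟩
  exact Set.infinite_range_of_injective (f := fun k : ℕ => z + (k : ℂ))
    (fun a b hab => by simpa using hab) (h.subset (Set.range_subset_iff.2 hmem))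

/-- An algebraic complex number lies in the image of `ℚ̄`. -/
theorem exists_ιbar_eq {z : ℂ} (hz : IsAlgebraic ℚ z) : ∃ a, ιbar a = z := by
  have hint := hz.isIntegral
  set p := (minpoly ℚ z).map (algebraMap ℚ (AlgebraicClosure ℚ))
  have hp : p.Splits := IsAlgClosed.splits p
  have hne : (minpoly ℚ z).map (algebraMap ℚ ℂ) ≠ 0 :=
    (Polynomial.map_ne_zero_iff (algebraMap ℚ ℂ).injective).2 (minpoly.ne_zero hint)
  have h1 : z ∈ (p.map ιbar).roots := by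
    rw [Polynomial.map_map, Subsingleton.elim (ιbar.comp (algebraMap ℚ (AlgebraicClosure ℚ)))
      (algebraMap ℚ ℂ), Polynomial.mem_roots hne, Polynomial.IsRoot, Polynomial.eval_map,
      ← Polynomial.aeval_def, minpoly.aeval]
  rw [hp.roots_map ιbar, Multiset.mem_map] at h1
  obtain ⟨a, -, ha⟩ := h1
  exact ⟨a, ha⟩

/-! ### Galois-stable classes -/

variable {N : ℕ} [NeZero N] {n : ℕ} [NeZero n]

/-- The semilinear action of an automorphism of `ℂ`. -/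
def autC (N : ℕ) (σ : ℂ ≃ₐ[ℚ] ℂ) : SemilinearAut ℂ (FL ℂ N) :=
  arithmeticGalois (modularFunctionFieldFull N) σ

omit [NeZero N] in
theorem coe_autC (σ : ℂ ≃ₐ[ℚ] ℂ) (x : FL ℂ N) :
    ((autC N σ • x : FL ℂ N) : LaurentSeries ℂ) = coeffMap (σ : ℂ →+* ℂ) (x : LaurentSeries ℂ) :=
  rfl

omit [NeZero N] in
theorem autC_smul_algebraMap (σ : ℂ ≃ₐ[ℚ] ℂ) (a : ℂ) :
    autC N σ • algebraMap ℂ (FL ℂ N) a = algebraMap ℂ (FL ℂ N) (σ a) :=
  SemilinearAut.smul_algebraMap _ a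

omit [NeZero N] in
theorem autC_smul_jElt (σ : ℂ ≃ₐ[ℚ] ℂ) : autC N σ • jElt ℂ N = jElt ℂ N := by
  apply Subtype.ext
  rw [coe_autC]
  change coeffMap (σ : ℂ →+* ℂ) (coeffEmb ℂ (qExpand ℚ 1 jq)) = coeffEmb ℂ (qExpand ℚ 1 jq)
  rw [coeffEmb, coeffMap_coeffMap]
  exact coeffMap_congr (RingHom.ext_rat _ _) _

omit [NeZero N] in
theorem qOrder_autC (σ : ℂ ≃ₐ[ℚ] ℂ) (x : FL ℂ N) : qOrder (autC N σ • x) = qOrder x := by
  rw [qOrder, qOrder, coe_autC]
  exact MFGenus.order_eq_of_coeff_eq fun m => by rw [coeffMap_coeff, map_eq_zero]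

omit [NeZero N] in
theorem ord_autC (σ : ℂ ≃ₐ[ℚ] ℂ) (v : Place ℂ (FL ℂ N)) (x : FL ℂ N) :
    v.ord (autC N σ • x) = ((autC N σ)⁻¹ • v).ord x := by
  rw [← SemilinearAut.ord_smul (autC N σ) ((autC N σ)⁻¹ • v) x, smul_inv_smul]

/-- The stabiliser of the class of `f` modulo `n`-th powers. -/
def classStab (n : ℕ) (f : FL ℂ N) : Subgroup (ℂ ≃ₐ[ℚ] ℂ) where
  carrier := {σ | ∃ h : FL ℂ N, h ≠ 0 ∧ autC N σ • f = f * h ^ n}
  one_mem' := ⟨1, one_ne_zero, by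
    rw [autC, map_one, one_smul, one_pow, mul_one]⟩
  mul_mem' := by
    rintro σ τ ⟨a, ha, hσ⟩ ⟨b, hb, hτ⟩
    refine ⟨a * (autC N σ • b), mul_ne_zero ha ((smul_ne_zero_iff_ne _).2 hb), ?_⟩
    rw [autC, map_mul, mul_smul, ← autC, ← autC, hτ, smul_mul', smul_pow', hσ, mul_pow, mul_assoc]
  inv_mem' := by
    rintro σ ⟨a, ha, hσ⟩
    refine ⟨((autC N σ)⁻¹ • a)⁻¹, inv_ne_zero ((smul_ne_zero_iff_ne _).2 ha), ?_⟩
    rw [autC, map_inv, ← autC]
    have h1 := congrArg ((autC N σ)⁻¹ • ·) hσ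
    simp only [inv_smul_smul, smul_mul', smul_pow'] at h1
    conv_rhs => rw [h1]
    rw [inv_pow, mul_assoc, mul_inv_cancel₀ (pow_ne_zero n ((smul_ne_zero_iff_ne _).2 ha)), mul_one]

theorem finiteIndex_classStab {f : FL ℂ N} (hf : f ≠ 0)
    (hdiv : ∀ v : Place ℂ (FL ℂ N), (n : ℤ) ∣ v.ord f) :
    Finite ((ℂ ≃ₐ[ℚ] ℂ) ⧸ classStab n f) := by
  classical
  have := isFunctionField_FL (L := ℂ) (N := N) (RingHom.id ℂ)
  have key : ∀ σ : ℂ ≃ₐ[ℚ] ℂ, ∃ (φ : parEllHoms (ZMod n) (Gamma0 N) (ZMod n)) (G : MeroH),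
      G ^ n = embed (RingHom.id ℂ) N (autC N σ • f) ∧ MeroAtCusps N G ∧
        HasMult G (φ : Additive (Gamma0 N) →+ ZMod n) := by
    intro σ
    have hσf : autC N σ • f ≠ 0 := (smul_ne_zero_iff_ne _).2 hf
    set D : Divisor ℂ (FL ℂ N) :=
      Finsupp.mapRange (fun z : ℤ => z / n) (Int.zero_ediv _) (FF.divOf ℂ (autC N σ • f))
    have hD : ∀ v, (n : ℤ) * D v = v.ord (autC N σ • f) := fun v => by
      rw [Finsupp.mapRange_apply, FF.divOf_apply, Int.mul_ediv_cancel' (ord_autC σ v f ▸ hdiv _)]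
    obtain ⟨G, hG⟩ := exists_root (RingHom.id ℂ) hσf hD
    obtain ⟨φ, hφ⟩ := exists_hasMult_root (RingHom.id ℂ) hσf hG
    exact ⟨⟨φ, hasMult_mem_parEllHoms (RingHom.id ℂ) hσf hD hG hφ⟩, G, hG,
      meroAtCusps_root (RingHom.id ℂ) hσf hD hG, hφ⟩
  choose φ G hG hGc hGφ using key
  have : Finite (parEllHoms (ZMod n) (Gamma0 N) (ZMod n)) :=
    Nat.finite_of_card_ne_zero (by
      rw [Cosets.natCard_parEllHoms, Nat.card_zmod]
      exact pow_ne_zero _ (NeZero.ne n))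
  refine Finite.of_injective (fun q : (ℂ ≃ₐ[ℚ] ℂ) ⧸ classStab n f => φ q.out) fun p q hpq => ?_
  rw [← QuotientGroup.out_eq' p, ← QuotientGroup.out_eq' q, QuotientGroup.eq]
  set σ := p.out
  set τ := q.out
  replace hpq : φ σ = φ τ := hpq
  have hGσ0 : G σ ≠ 0 := fun h => by
    have h1 := hG σ
    rw [h, zero_pow (NeZero.ne n)] at h1
    exact (map_ne_zero (embed (RingHom.id ℂ) N)).2 ((smul_ne_zero_iff_ne _).2 hf) h1.symm
  have hinv : ∀ γ ∈ Gamma0 N, slComp γ (G τ / G σ) = G τ / G σ := fun γ hγ => by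
    rw [map_div₀, hGφ σ ⟨γ, hγ⟩, hGφ τ ⟨γ, hγ⟩, hpq,
      mul_div_mul_left _ _ ((map_ne_zero _).2 (zeta_ne_zero _))]
  have hc : MeroAtCusps N (G τ / G σ) := fun δ => by
    obtain ⟨s, hs⟩ := hGc σ δ
    obtain ⟨t, ht⟩ := hGc τ δ
    exact ⟨t / s, by rw [map_div₀]; exact ht.div (Nat.cast_pos.2 (NeZero.pos N)) hs⟩
  obtain ⟨h, hh⟩ := exists_embed_eq hinv hc
  have hτeq : autC N τ • f = (autC N σ • f) * h ^ n := by
    apply embed_injective (RingHom.id ℂ) N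
    rw [map_mul, map_pow, hh, ← hG, ← hG, div_pow, mul_div_cancel₀ _ (pow_ne_zero n hGσ0)]
  refine ⟨(autC N σ)⁻¹ • h, (smul_ne_zero_iff_ne _).2 fun h0 => ?_, ?_⟩
  · rw [h0, zero_pow (NeZero.ne n), mul_zero] at hτeq
    exact (smul_ne_zero_iff_ne _).2 hf hτeq
  · rw [autC, map_mul, map_inv, mul_smul, ← autC, ← autC, hτeq, smul_mul', inv_smul_smul,
      smul_pow']

/-- A class of divisor divisible by `n` contains an element with algebraic coefficients. -/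
theorem exists_algebraic_rep {f₀ : FL ℂ N} (hf₀ : f₀ ≠ 0)
    (hdiv : ∀ v : Place ℂ (FL ℂ N), (n : ℤ) ∣ v.ord f₀) :
    ∃ (c : ℂ) (h : FL ℂ N), c ≠ 0 ∧ h ≠ 0 ∧ ∀ k, ∃ a,
      ιbar a = ((algebraMap ℂ (FL ℂ N) c * f₀ * h ^ n : FL ℂ N) : LaurentSeries ℂ).coeff k := by
  have := isFunctionField_FL (L := ℂ) (N := N) (RingHom.id ℂ)
  obtain ⟨m, f₁, hadm, hlead, huniq⟩ :=
    exists_canonical (L := ℂ) (N := N) (RingHom.id ℂ) (NeZero.ne n) hf₀
  have hfix : ∀ σ ∈ classStab n f₀, autC N σ • f₁ = f₁ := by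
    rintro σ ⟨k, hk0, hk⟩
    obtain ⟨⟨c, h, hc, hh, he⟩, hv⟩ := id hadm
    refine huniq _ ⟨⟨σ c, k * (autC N σ • h), (map_ne_zero σ).2 hc,
      mul_ne_zero hk0 ((smul_ne_zero_iff_ne _).2 hh), ?_⟩, fun v => ?_⟩ ?_ (qOrder_autC σ f₁).ge
    · rw [he, smul_mul', smul_mul', smul_pow', autC_smul_algebraMap, hk]
      ring
    · have h1 := hv ((autC N σ)⁻¹ • v)
      rw [ord_autC, show v.ord (jElt ℂ N) = ((autC N σ)⁻¹ • v).ord (jElt ℂ N) by
        rw [← ord_autC, autC_smul_jElt]]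
      exact h1
    · rw [qLead, qOrder_autC σ f₁, coe_autC, coeffMap_coeff, ← qLead, hlead, map_one]
  obtain ⟨⟨c, h, hc, hh, he⟩, -⟩ := id hadm
  refine ⟨c, h, hc, hh, fun k => ?_⟩
  rw [← he]
  refine exists_ιbar_eq (isAlgebraic_of_finite_orbit ?_)
  have := finiteIndex_classStab hf₀ hdiv
  refine (Set.finite_range fun q : (ℂ ≃ₐ[ℚ] ℂ) ⧸ classStab n f₀ =>
    (q.out : ℂ ≃ₐ[ℚ] ℂ) ((f₁ : LaurentSeries ℂ).coeff k)).subset ?_
  rintro _ ⟨σ, rfl⟩
  let σ' : ℂ ≃ₐ[ℚ] ℂ := AlgEquiv.ofRingEquiv (f := σ) fun r => by simp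
  refine ⟨(σ' : (ℂ ≃ₐ[ℚ] ℂ) ⧸ classStab n f₀), ?_⟩
  obtain ⟨⟨η, hη⟩, hη'⟩ := QuotientGroup.mk_out_eq_mul (classStab n f₀) σ'
  have h1 := congrArg (fun x : FL ℂ N => (x : LaurentSeries ℂ).coeff k) (hfix η hη)
  simp only [coe_autC, coeffMap_coeff] at h1
  simp only [hη']
  exact congrArg σ h1

/-- **Surjectivity of the Kummer map.** -/
theorem exists_isKummer_of_mem {φ : Additive (Gamma0 N) →+ ZMod n}
    (hφ : φ ∈ parEllHoms (ZMod n) (Gamma0 N) (ZMod n)) :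
    ∃ x ∈ Pic0.torsion (AlgebraicClosure ℚ) (modularFunctionFieldBar N) n,
      IsKummer (n := n) ιbar x φ := by
  let χ : Gamma0 N →* ℂˣ :=
    { toFun := fun γ => Units.mk0 (zeta (φ (Additive.ofMul γ))) (zeta_ne_zero _)
      map_one' := Units.ext (by simp)
      map_mul' := fun a b => Units.ext (by simp [zeta_add]) }
  obtain ⟨G, hG0, hGc, hGχ⟩ := exists_char_mero χ
    (fun γ => Complex.norm_eq_one_of_pow_eq_one (zeta_pow_self _) (NeZero.ne n))
    (Units.ext (by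
      change zeta _ = 1
      rw [mem_parEllHoms_iff.1 hφ _ (by simp), zeta_zero]))
    fun g π hπ => Units.ext (by
      change zeta _ = 1
      rw [mem_parEllHoms_iff.1 hφ _ (by
        rw [hπ, Cosets.TraceClass.trace_conj, Cosets.trace_T_zpow]; norm_num), zeta_zero])
  have hG : HasMult G φ := fun γ => hGχ γ
  have hinv : ∀ γ ∈ Gamma0 N, slComp γ (G ^ n) = G ^ n := fun γ hγ => by
    rw [map_pow, hG ⟨γ, hγ⟩, mul_pow, ← map_pow, zeta_pow_self, map_one, one_mul]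
  obtain ⟨f₀, hf₀⟩ := exists_embed_eq hinv fun δ => by
    obtain ⟨s, hs⟩ := hGc δ
    exact ⟨s ^ n, by rw [map_pow]; exact hs.pow n⟩
  have hf₀0 : f₀ ≠ 0 := fun h => by
    rw [h, map_zero] at hf₀
    exact pow_ne_zero n hG0 hf₀.symm
  obtain ⟨c, h, hc, hh, halg⟩ := exists_algebraic_rep hf₀0
    (dvd_ord_of_hasMult (RingHom.id ℂ) hf₀0 hf₀.symm hGc hG hφ)
  set f₁ := algebraMap ℂ (FL ℂ N) c * f₀ * h ^ n with hf₁
  obtain ⟨r, hr⟩ := IsAlgClosed.exists_pow_nat_eq c (NeZero.pos n)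
  have hr0 : r ≠ 0 := by
    rintro rfl
    rw [zero_pow (NeZero.ne n)] at hr
    exact hc hr.symm
  set G₁ := MeroH.const r * G * embed (RingHom.id ℂ) N h with hG₁
  have hpow : G₁ ^ n = embed (RingHom.id ℂ) N f₁ := by
    rw [hG₁, hf₁, mul_pow, mul_pow, ← map_pow MeroH.const, hr, map_mul, map_mul, map_pow,
      embed_algebraMap, hf₀]
    rfl
  have hmult : HasMult G₁ φ := by
    have h0 : HasMult (n := n) (N := N) (MeroH.const r) 0 :=
      hasMult_of_invariant fun γ _ => slComp_const γ r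
    have h1 : HasMult (n := n) (N := N) (embed (RingHom.id ℂ) N h) 0 :=
      hasMult_of_invariant fun γ hγ => slComp_embed _ h hγ
    simpa using (h0.mul hG).mul h1
  have hGc₁ : MeroAtCusps N G₁ := fun δ => by
    obtain ⟨s, hs⟩ := hGc δ
    obtain ⟨t, ht⟩ := meroAtCusps_embed (RingHom.id ℂ) h δ
    exact ⟨_, by rw [hG₁, map_mul, map_mul, slComp_const]; exact ((IsExp.const r).mul hs).mul ht⟩
  obtain ⟨z, hz⟩ := exists_embed_eq_of_coeff ιbar (N := N) (x := embed (RingHom.id ℂ) N f₁)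
    (fun γ hγ => slComp_embed _ f₁ hγ) (meroAtCusps_embed _ f₁) (isExp_embed _ f₁) fun k => by
      rw [coeffMap_id]; exact halg k
  have hpow' : G₁ ^ n = embed ιbar N z := hz ▸ hpow
  have hG₁0 : G₁ ≠ 0 :=
    mul_ne_zero (mul_ne_zero ((map_ne_zero _).2 hr0) hG0) ((map_ne_zero _).2 hh)
  have hz0 : z ≠ 0 := fun h0 => by
    rw [h0, map_zero] at hpow'
    exact pow_ne_zero n hG₁0 hpow'
  have hdvd := dvd_ord_of_hasMult ιbar hz0 hpow' hGc₁ hmult hφ
  set D : Divisor (AlgebraicClosure ℚ) (modularFunctionFieldBar N) :=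
    Finsupp.mapRange (fun z : ℤ => z / n) (Int.zero_ediv _) (FF.divOf (AlgebraicClosure ℚ) z)
  have hD : ∀ v, (n : ℤ) * D v = v.ord z := fun v => by
    rw [Finsupp.mapRange_apply, FF.divOf_apply, Int.mul_ediv_cancel' (hdvd v)]
  have hnD : (n : ℤ) • D = FF.divOf (AlgebraicClosure ℚ) z := Finsupp.ext fun v => by
    rw [Finsupp.smul_apply, smul_eq_mul, hD, FF.divOf_apply]
  have hdeg : D ∈ Divisor.degZero (K := AlgebraicClosure ℚ) (F := modularFunctionFieldBar N) := by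
    rw [Divisor.mem_degZero]
    have h1 := congrArg Divisor.degree hnD
    rw [map_zsmul, FF.degree_divOf, smul_eq_mul] at h1
    exact (mul_eq_zero.1 h1).resolve_left (Nat.cast_ne_zero.2 (NeZero.ne n))
  refine ⟨Pic0.mk ⟨D, hdeg⟩, ?_, ⟨D, hdeg⟩, z, G₁, rfl, hz0, hD, hpow', hmult⟩
  rw [Pic0.mem_torsion]
  change (QuotientAddGroup.mk ((n : ℤ) • (⟨D, hdeg⟩ :
    Divisor.degZero (K := AlgebraicClosure ℚ) (F := modularFunctionFieldBar N))) :
      Pic0 (AlgebraicClosure ℚ) (modularFunctionFieldBar N)) = 0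
  rw [QuotientAddGroup.eq_zero_iff, AddSubgroup.mem_addSubgroupOf]
  exact ⟨z, hz0, fun v => by
    rw [AddSubgroupClass.coe_zsmul, Finsupp.smul_apply, smul_eq_mul, hD]⟩

end Fermat.Agent.Kummer
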